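import Fermat.Agent.BAD.Ordinary.Node
import Fermat.Agent.BAD.Core.Graded
import Fermat.Agent.BAD.Modular.FFLemmas

/-!
# A coordinate of the two-branch curve regular at all nodes

For a general constant `c` the function `w = (u - c)⁻¹` has no pole at a node, so the node
conditions of degree `m` become equalities of values of the reductions.
-/

set_option autoImplicit false

noncomputable section

open AlgebraicCurve WithZero Fermat.Agent.RED

namespace Fermat.Agent.BAD.Ordinary

section Val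

variable {K E : Type*} [Field K] [Field E] [Algebra K E]

theorem exp_max_neg_ord (v : Place K E) (f : E) :
    exp (max (-v.ord f) 0) = max 1 (v.adicValuation f) := by
  rcases eq_or_ne f 0 with rfl | hf
  · simp
  rw [v.adicValuation_eq_exp_neg_ord hf, ← exp_zero]
  rcases le_total (-v.ord f) 0 with h | h
  · rw [max_eq_right h, max_eq_left (exp_le_exp.mpr h)]
  · rw [max_eq_left h, max_eq_right (exp_le_exp.mpr h)]

theorem mem_place_iff_le_one (v : Place K E) {f : E} :
    f ∈ v.toValuationSubring ↔ v.adicValuation f ≤ 1 := by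
  rw [mem_iff_ord_nonneg, v.adicValuation_le_one_iff]
  exact ⟨Or.inr, fun h => h.elim (fun h0 => by simp [h0]) id⟩

theorem max_one_sub_const (v : Place K E) (f : E) (c : K) :
    max 1 (v.adicValuation (f - algebraMap K E c)) = max 1 (v.adicValuation f) := by
  have hc := v.adicValuation_algebraMap_le_one c
  rcases le_or_gt (v.adicValuation f) 1 with h | h
  · rw [max_eq_left h, max_eq_left (v.adicValuation.map_sub_le h hc)]
  · rw [Valuation.map_sub_eq_of_lt_left _ (lt_of_le_of_lt hc h)]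

/-- Multiplying by an invertible function exchanges the pole bound of its inverse for its own. -/
theorem max_one_inv_mul (v : Place K E) {z : E} (hz : z ≠ 0) :
    max 1 (v.adicValuation z⁻¹) * v.adicValuation z = max 1 (v.adicValuation z) := by
  have h0 : v.adicValuation z ≠ 0 := v.adicValuation_ne_zero hz
  rcases le_total (v.adicValuation z) 1 with h | h
  · rw [max_eq_left h, map_inv₀, max_eq_right (one_le_inv₀ (zero_lt_iff.mpr h0) |>.mpr h),
      inv_mul_cancel₀ h0]
  · rw [max_eq_right h, map_inv₀, max_eq_left ((inv_le_one₀ (zero_lt_iff.mpr h0)).mpr h),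
      one_mul]

theorem max_one_sub_le (v : Place K E) (f : E) (c : K) :
    v.adicValuation (f - algebraMap K E c) ≤ max 1 (v.adicValuation f) :=
  (le_max_right _ _).trans (max_one_sub_const v f c).le

/-- Two different shifts have no common zero and the same poles. -/
theorem shift_cases (v : Place K E) (f : E) {t : Fin 2 → K} (ht : t 0 ≠ t 1) :
    (∀ l, v.adicValuation (f - algebraMap K E (t l)) = max 1 (v.adicValuation f)) ∨
      (max 1 (v.adicValuation f) = 1 ∧ ∃ l, v.adicValuation (f - algebraMap K E (t l)) = 1) := by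
  rcases le_or_gt (v.adicValuation f) 1 with h | h
  · refine Or.inr ⟨max_eq_left h, ?_⟩
    by_contra hcon
    push Not at hcon
    have hlt : ∀ l, v.adicValuation (f - algebraMap K E (t l)) < 1 := fun l =>
      lt_of_le_of_ne (v.adicValuation.map_sub_le h (v.adicValuation_algebraMap_le_one _)) (hcon l)
    have h1 : v.adicValuation (algebraMap K E (t 0 - t 1)) < 1 := by
      have := v.adicValuation.map_sub_lt (hlt 1) (hlt 0)
      rwa [sub_sub_sub_cancel_left, ← map_sub] at this
    exact absurd (valuation_algebraMap v (sub_ne_zero.mpr ht)) h1.ne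
  · refine Or.inl fun l => ?_
    rw [max_eq_right h.le]
    exact Valuation.map_sub_eq_of_lt_left _
      (lt_of_le_of_lt (v.adicValuation_algebraMap_le_one _) h)

theorem pv_eq_iff {x : Place K E} {hd : x.deg = 1} {r : E} (hr : r ∈ x.toValuationSubring)
    (a : K) : pv x hd r = a ↔ x.adicValuation (r - algebraMap K E a) < 1 := by
  have ha := x.algebraMap_mem' (K := K) a
  have e : pv x hd (r - algebraMap K E a) = pv x hd r - a := by rw [pv_sub hr ha, pv_algebraMap]
  rw [← sub_eq_zero, ← e]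
  constructor
  · intro h
    have := (vanish_one_iff (hd := hd)).mpr ⟨sub_mem hr ha, h⟩
    refine lt_of_le_of_lt this ?_
    rw [← exp_zero]
    exact exp_lt_exp.mpr (by norm_num)
  · intro h
    rw [pv_eq_zero_iff (sub_mem hr ha)]
    rcases eq_or_ne (r - algebraMap K E a) 0 with h0 | h0
    · exact Or.inl h0
    · rw [x.adicValuation_eq_exp_neg_ord h0, ← exp_zero] at h
      exact Or.inr (by have := exp_lt_exp.mp h; omega)

end Val

variable {L k : Type*} [Field L] [Field k] {A : ValuationSubring L} {π : A →+* k}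
  {F C : Type*} [Field F] [Algebra L F] [Field C] [Algebra k C] (D : BadCurve π F C)

/-- A general centre and two shifts. -/
structure Coord where
  c : A
  t : Fin 2 → A
  c_ne : ∀ s ∈ D.nodes, D.ubar ∈ s.1.toValuationSubring →
    pv s.1 (D.deg_one s.1) D.ubar ≠ π c
  t_ne : ∀ l, π (t l) ≠ 0
  t_node : ∀ l, ∀ s ∈ D.nodes, (pv s.1 (D.deg_one s.1) D.ubar - π c)⁻¹ ≠ π (t l)
  t_diff : π (t 0) ≠ π (t 1)

/-- Centres and shifts can be taken among any lifts of all residues. -/
theorem exists_coord [IsAlgClosed k] (P : A → Prop) (hP : ∀ y, ∃ a, P a ∧ π a = y) :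
    ∃ Z : Coord D, P Z.c ∧ ∀ l, P (Z.t l) := by
  classical
  let val : Place k C × Place k C → k := fun s => pv s.1 (D.deg_one s.1) D.ubar
  obtain ⟨y, hy⟩ := Infinite.exists_notMem_finset (D.nodes.image val)
  obtain ⟨c, hPc, rfl⟩ := hP y
  let bad : Finset k :=
    insert 0 (D.nodes.image fun s => (val s - π c)⁻¹)
  obtain ⟨y₀, hy₀⟩ := Infinite.exists_notMem_finset bad
  obtain ⟨y₁, hy₁⟩ := Infinite.exists_notMem_finset (insert y₀ bad)
  obtain ⟨t₀, hPt₀, rfl⟩ := hP y₀
  obtain ⟨t₁, hPt₁, rfl⟩ := hP y₁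
  have hb : ∀ l, π (![t₀, t₁] l) ∉ bad := by
    rw [Fin.forall_fin_two]
    simp only [Matrix.cons_val_zero, Matrix.cons_val_one, Matrix.cons_val_fin_one]
    exact ⟨hy₀, fun h => hy₁ (Finset.mem_insert_of_mem h)⟩
  refine ⟨⟨c, ![t₀, t₁], fun s hs _ h => hy (Finset.mem_image.mpr ⟨s, hs, h⟩),
    fun l h => hb l ?_, fun l s hs h => hb l ?_, fun h => ?_⟩, hPc, ?_⟩
  · rw [h]
    exact Finset.mem_insert_self _ _
  · rw [← h]
    exact Finset.mem_insert_of_mem (Finset.mem_image.mpr ⟨s, hs, rfl⟩)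
  · simp only [Matrix.cons_val_zero, Matrix.cons_val_one, Matrix.cons_val_fin_one] at h
    refine hy₁ ?_
    rw [← h]
    exact Finset.mem_insert_self _ _
  · rw [Fin.forall_fin_two]
    simp only [Matrix.cons_val_zero, Matrix.cons_val_one, Matrix.cons_val_fin_one]
    exact ⟨hPt₀, hPt₁⟩

/-- A function without poles is constant. -/
theorem exists_const_of_no_pole (D : BadCurve π F C) [IsAlgClosed L] [FF.IsFunctionField L F] {f : F}
    (h : ∀ v : Place L F, v.adicValuation f ≤ 1) : ∃ l, f = algebraMap L F l := by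
  have hall : ∀ x : F, f ∈ coordRing L x := fun x => Modular.mem_coordRing_iff.mpr fun v _ => by
    rw [← mem_iff_ord_nonneg, mem_place_iff_le_one]; exact h v
  exact D.const f (hall _) (hall _)

namespace Coord

variable {D} (Z : Coord D)

/-- The translated coordinate. -/
def z : F := D.u - algebraMap L F (Z.c : L)

/-- Its reduction. -/
def zbar : C := D.ubar - algebraMap k C (π Z.c)

/-- The new coordinate. -/
def w : F := Z.z⁻¹

/-- Its reduction. -/
def wbar : C := Z.zbar⁻¹

/-- The shifts. -/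
def v (l : Fin 2) : F := Z.w - algebraMap L F (Z.t l : L)

/-- Their reductions. -/
def vbar (l : Fin 2) : C := Z.wbar - algebraMap k C (π (Z.t l))

theorem z_ne : Z.z ≠ 0 := fun h => D.chartFin.transcendental_u (by
  rw [sub_eq_zero.mp h]; exact isAlgebraic_algebraMap _)

theorem zbar_ne : Z.zbar ≠ 0 := fun h => D.chartFin.transcendental_ubar (by
  rw [sub_eq_zero.mp h]; exact isAlgebraic_algebraMap _)

theorem z_mem : Z.z ∈ D.O :=
  sub_mem D.chartFin.u_mem (D.mem_O.mpr fun i => D.algebraMap_mem i Z.c)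

theorem red_z (i : Fin 2) : D.red i Z.z = Z.zbar := by
  rw [z, D.red_sub (D.mem_of_mem_O D.chartFin.u_mem i) (D.algebraMap_mem i Z.c),
    D.red_algebraMap, D.chartFin.red_u, zbar]

theorem red_z_ne (i : Fin 2) : D.red i Z.z ≠ 0 := by rw [Z.red_z]; exact Z.zbar_ne

theorem w_mem : Z.w ∈ D.O := D.inv_mem_O Z.z_mem Z.red_z_ne

theorem red_w (i : Fin 2) : D.red i Z.w = Z.wbar := by
  rw [w, D.red_inv (D.mem_of_mem_O Z.z_mem i) (Z.red_z_ne i), Z.red_z, wbar]

theorem v_mem (l : Fin 2) : Z.v l ∈ D.O :=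
  sub_mem Z.w_mem (D.mem_O.mpr fun i => D.algebraMap_mem i (Z.t l))

theorem red_v (l i : Fin 2) : D.red i (Z.v l) = Z.vbar l := by
  rw [v, D.red_sub (D.mem_of_mem_O Z.w_mem i) (D.algebraMap_mem i (Z.t l)), D.red_algebraMap,
    Z.red_w, vbar]

theorem wbar_sub_ne (a : k) : Z.wbar - algebraMap k C a ≠ 0 := fun h => by
  have hw : IsAlgebraic k Z.wbar := by
    rw [sub_eq_zero.mp h]; exact isAlgebraic_algebraMap _
  have hz : IsAlgebraic k Z.zbar := by simpa [wbar] using hw.inv
  have := hz.isIntegral.add (isIntegral_algebraMap (R := k) (A := C) (x := π Z.c))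
  rw [zbar, sub_add_cancel] at this
  exact D.chartFin.transcendental_ubar this.isAlgebraic

theorem vbar_ne (l : Fin 2) : Z.vbar l ≠ 0 := Z.wbar_sub_ne _

theorem t_ne_t : (Z.t 0 : L) ≠ (Z.t 1 : L) := fun h =>
  Z.t_diff (congrArg π (Subtype.ext h))

section Fside

variable [IsAlgClosed L] [FF.IsFunctionField L F]

/-- The pole divisor of the new coordinate. -/
def poleF : Divisor L F := FF.poleDivisor L Z.w

omit [IsAlgClosed L] in
theorem exp_poleF (v : Place L F) : exp (Z.poleF v) = max 1 (v.adicValuation Z.w) := by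
  rw [poleF, FF.poleDivisor_apply, exp_max_neg_ord]

omit [IsAlgClosed L] in
theorem v_le (l : Fin 2) (v : Place L F) : v.adicValuation (Z.v l) ≤ exp (Z.poleF v) := by
  rw [Z.exp_poleF]; exact max_one_sub_le v _ _

omit [IsAlgClosed L] in
theorem v_cases (x : Place L F) : (∀ l, x.adicValuation (Z.v l) = exp (Z.poleF x)) ∨
    (Z.poleF x = 0 ∧ ∃ l, x.adicValuation (Z.v l) = 1) := by
  rcases shift_cases x Z.w (t := fun l => (Z.t l : L)) Z.t_ne_t with h | ⟨h1, h2⟩
  · exact Or.inl fun l => (h l).trans (Z.exp_poleF x).symm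
  · refine Or.inr ⟨?_, h2⟩
    rw [← Z.exp_poleF, ← exp_zero] at h1
    exact exp_injective h1

/-- The twisted spaces in the new coordinate. -/
theorem twistCond_iff {n : ℕ} {f : F} {m : ℕ} {a : F} :
    TwistCond L D.u n f m a ↔
      ∀ v : Place L F, v.adicValuation ((a * Z.w ^ m) ^ n * f) ≤ exp (Z.poleF v) ^ (n * m) := by
  have hcoord : ∀ x g : F, g ∈ coordRing L x ↔
      ∀ v : Place L F, v.adicValuation x ≤ 1 → v.adicValuation g ≤ 1 := by
    intro x g
    rw [Modular.mem_coordRing_iff]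
    refine forall_congr' fun v => ?_
    rw [← mem_iff_ord_nonneg, ← mem_iff_ord_nonneg, mem_place_iff_le_one, mem_place_iff_le_one]
  rw [TwistCond, hcoord, hcoord]
  have hu0 : D.u ≠ 0 := D.u_ne_zero
  have hz : ∀ v : Place L F, max 1 (v.adicValuation Z.w) * v.adicValuation Z.z =
      max 1 (v.adicValuation D.u) := fun v => by
    rw [w, max_one_inv_mul v Z.z_ne, z, max_one_sub_const]
  have key : ∀ v : Place L F,
      v.adicValuation ((a * Z.w ^ m) ^ n * f) ≤ exp (Z.poleF v) ^ (n * m) ↔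
        v.adicValuation (a ^ n * f) ≤ max 1 (v.adicValuation D.u) ^ (n * m) := by
    intro v
    have hz0 : 0 < v.adicValuation Z.z ^ (n * m) :=
      pow_pos (zero_lt_iff.mpr (v.adicValuation_ne_zero Z.z_ne)) _
    rw [Z.exp_poleF, ← hz v, show (a * Z.w ^ m) ^ n * f = a ^ n * f / Z.z ^ (n * m) by
      rw [w, mul_pow, inv_pow, inv_pow, ← pow_mul, mul_comm m n, div_eq_mul_inv]; ring,
      map_div₀, map_pow, div_le_iff₀ hz0, mul_pow]
  simp only [key]
  have hinv : ∀ v : Place L F, v.adicValuation D.u⁻¹ ≤ 1 ↔ 1 ≤ v.adicValuation D.u := fun v => by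
    rw [map_inv₀, inv_le_one₀ (zero_lt_iff.mpr (v.adicValuation_ne_zero hu0))]
  have hdiv : ∀ v : Place L F, v.adicValuation ((a / D.u ^ m) ^ n * f) =
      v.adicValuation (a ^ n * f) / v.adicValuation D.u ^ (n * m) := fun v => by
    rw [div_pow, div_mul_eq_mul_div, map_div₀, ← pow_mul, mul_comm m n, map_pow]
  simp only [hinv, hdiv]
  constructor
  · rintro ⟨h1, h2⟩ v
    rcases le_total (v.adicValuation D.u) 1 with h | h
    · rw [max_eq_left h, one_pow]; exact h1 v h
    · rw [max_eq_right h]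
      exact (div_le_one₀ (pow_pos (zero_lt_one.trans_le h) _)).mp (h2 v h)
  · refine fun h => ⟨fun v hv => by simpa [max_eq_left hv] using h v, fun v hv => ?_⟩
    rw [div_le_one₀ (pow_pos (zero_lt_one.trans_le hv) _)]
    simpa [max_eq_right hv] using h v

end Fside

/-- The node data in the new coordinate. -/
def nodeRing : NodeRing k C where
  pole := (D.chartFin.coord.exists_zeros (π Z.c)).choose
  S := D.nodes

theorem exp_pole (x : Place k C) : exp (Z.nodeRing.pole x) = max 1 (x.adicValuation Z.wbar) := by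
  show exp ((D.chartFin.coord.exists_zeros (π Z.c)).choose x) = _
  rw [(D.chartFin.coord.exists_zeros (π Z.c)).choose_spec.1 x, ← exp_max_neg_ord, wbar, x.ord_inv,
    neg_neg]
  rfl

theorem vbar_le (l : Fin 2) (x : Place k C) :
    x.adicValuation (Z.vbar l) ≤ exp (Z.nodeRing.pole x) := by
  rw [Z.exp_pole]; exact max_one_sub_le x _ _

theorem vbar_cases (x : Place k C) :
    (∀ l, x.adicValuation (Z.vbar l) = exp (Z.nodeRing.pole x)) ∨
      (Z.nodeRing.pole x = 0 ∧ ∃ l, x.adicValuation (Z.vbar l) = 1) := by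
  rcases shift_cases x Z.wbar (t := fun l => π (Z.t l)) Z.t_diff with h | ⟨h1, h2⟩
  · exact Or.inl fun l => (h l).trans (Z.exp_pole x).symm
  · refine Or.inr ⟨?_, h2⟩
    rw [← Z.exp_pole, ← exp_zero] at h1
    exact exp_injective h1

open Classical in
/-- The value of `zbar`, scaled at the poles of `ubar`. -/
def zval (x : Place k C) : k :=
  if D.ubar ∈ x.toValuationSubring then pv x (D.deg_one x) Z.zbar else 1

open Classical in
/-- Values at a place where `zbar` has no zero. -/
theorem node_place {x : Place k C} (hx : D.ubar ∈ x.toValuationSubring →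
    pv x (D.deg_one x) D.ubar ≠ π Z.c) :
    Z.zval x ≠ 0 ∧ Z.wbar ∈ x.toValuationSubring ∧
      pv x (D.deg_one x) Z.wbar =
        (if D.ubar ∈ x.toValuationSubring then (Z.zval x)⁻¹ else 0) ∧
      ∀ (m : ℕ) (r : C), r ∈ x.toValuationSubring →
        D.lev m x (r * Z.zbar ^ m) = pv x (D.deg_one x) r * Z.zval x ^ m := by
  have hc := x.algebraMap_mem' (K := k) (π Z.c)
  by_cases hu : D.ubar ∈ x.toValuationSubring
  · have hzm : Z.zbar ∈ x.toValuationSubring := sub_mem hu hc
    have hz0 : pv x (D.deg_one x) Z.zbar ≠ 0 := by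
      rw [zbar, pv_sub hu hc, pv_algebraMap]
      exact sub_ne_zero.mpr (hx hu)
    have hord : x.ord Z.zbar = 0 := by
      have h1 := (mem_iff_ord_nonneg x).mp hzm
      rw [ne_eq, pv_eq_zero_iff hzm, not_or, not_lt] at hz0
      omega
    have hwm : Z.wbar ∈ x.toValuationSubring := by
      rw [mem_iff_ord_nonneg, wbar, x.ord_inv, hord, neg_zero]
    refine ⟨by rw [zval, if_pos hu]; exact hz0, hwm, ?_, fun m r hr => ?_⟩
    · rw [if_pos hu, zval, if_pos hu]
      refine eq_inv_of_mul_eq_one_left ?_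
      rw [← pv_mul hwm hzm, wbar, inv_mul_cancel₀ Z.zbar_ne, pv_one]
    · rw [D.lev_of_mem hu, zval, if_pos hu, pv_mul hr (pow_mem hzm m), pv_pow hzm]
  · have hinv := D.inv_ubar_mem_of_notMem hu
    have hi0 : pv x (D.deg_one x) D.ubar⁻¹ = 0 := by
      rw [pv_eq_zero_iff hinv, x.ord_inv]
      rw [mem_iff_ord_nonneg] at hu
      exact Or.inr (by omega)
    have hwm : Z.wbar ∈ x.toValuationSubring ∧ pv x (D.deg_one x) Z.wbar = 0 := by
      rw [mem_iff_ord_nonneg] at hu
      have hlt : x.ord Z.zbar < 0 := by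
        by_contra hcon
        apply hu
        have := add_mem ((mem_iff_ord_nonneg x).mpr (not_lt.mp hcon)) hc
        rw [zbar, sub_add_cancel] at this
        exact (mem_iff_ord_nonneg x).mp this
      have hm : Z.wbar ∈ x.toValuationSubring := by
        rw [mem_iff_ord_nonneg, wbar, x.ord_inv]; omega
      exact ⟨hm, (pv_eq_zero_iff hm).mpr (Or.inr (by rw [wbar, x.ord_inv]; omega))⟩
    refine ⟨by rw [zval, if_neg hu]; exact one_ne_zero, hwm.1, by rw [if_neg hu]; exact hwm.2,
      fun m r hr => ?_⟩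
    have hq : Z.zbar / D.ubar ∈ x.toValuationSubring ∧
        pv x (D.deg_one x) (Z.zbar / D.ubar) = 1 := by
      have e : Z.zbar / D.ubar = 1 - algebraMap k C (π Z.c) * D.ubar⁻¹ := by
        rw [zbar, sub_div, div_self D.ubar_ne_zero, div_eq_mul_inv]
      refine ⟨e ▸ sub_mem (one_mem _) (mul_mem hc hinv), ?_⟩
      rw [e, pv_sub (one_mem _) (mul_mem hc hinv), pv_one, pv_mul hc hinv, hi0, mul_zero, sub_zero]
    rw [D.lev_of_notMem hu, mul_div_assoc, ← div_pow, pv_mul hr (pow_mem hq.1 m), pv_pow hq.1,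
      hq.2, zval, if_neg hu, one_pow]

theorem node_eq {s : Place k C × Place k C} (hs : s ∈ D.nodes) :
    (D.ubar ∈ s.1.toValuationSubring ↔ D.ubar ∈ s.2.toValuationSubring) ∧
      (D.ubar ∈ s.1.toValuationSubring →
        pv s.2 (D.deg_one s.2) D.ubar = pv s.1 (D.deg_one s.1) D.ubar) := by
  rcases D.mem_nodes.mp hs with ⟨hx, hy, h⟩ | ⟨hx, hy, -⟩
  · exact ⟨iff_of_true hx hy, fun _ => (h _ D.chartFin.const_ubar_mem).symm⟩
  · exact ⟨iff_of_false hx hy, fun h => absurd h hx⟩

theorem hyp_fst {s : Place k C × Place k C} (hs : s ∈ D.nodes) :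
    D.ubar ∈ s.1.toValuationSubring → pv s.1 (D.deg_one s.1) D.ubar ≠ π Z.c := Z.c_ne s hs

theorem hyp_snd {s : Place k C × Place k C} (hs : s ∈ D.nodes) :
    D.ubar ∈ s.2.toValuationSubring → pv s.2 (D.deg_one s.2) D.ubar ≠ π Z.c := fun h => by
  have h' := (node_eq hs).1.mpr h
  rw [(node_eq hs).2 h']
  exact Z.c_ne s hs h'

theorem zval_eq {s : Place k C × Place k C} (hs : s ∈ D.nodes) : Z.zval s.1 = Z.zval s.2 := by
  by_cases h : D.ubar ∈ s.1.toValuationSubring
  · have h' := (node_eq hs).1.mp h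
    rw [zval, zval, if_pos h, if_pos h', zbar, pv_sub h (s.1.algebraMap_mem' _),
      pv_sub h' (s.2.algebraMap_mem' _), pv_algebraMap, pv_algebraMap, (node_eq hs).2 h]
  · rw [zval, zval, if_neg h, if_neg fun h' => h ((node_eq hs).1.mpr h')]

theorem vbar_glue (l : Fin 2) {s : Place k C × Place k C} (hs : s ∈ D.nodes) :
    GlueUnit s fun _ => Z.vbar l := by
  classical
  obtain ⟨-, hw1, hp1, -⟩ := Z.node_place (Z.hyp_fst hs)
  obtain ⟨-, hw2, hp2, -⟩ := Z.node_place (Z.hyp_snd hs)
  set a := if D.ubar ∈ s.1.toValuationSubring then (Z.zval s.1)⁻¹ else 0 with ha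
  have hp2' : pv s.2 (D.deg_one s.2) Z.wbar = a := by
    rw [hp2, ha, Z.zval_eq hs, if_congr (node_eq hs).1 rfl rfl]
  have hval : ∀ (x : Place k C), Z.wbar ∈ x.toValuationSubring →
      pv x (D.deg_one x) Z.wbar = a → x.adicValuation (Z.vbar l - algebraMap k C (a - π (Z.t l))) < 1 := by
    intro x hx hpx
    rw [vbar, map_sub (algebraMap k C), sub_sub_sub_cancel_right]
    exact (pv_eq_iff hx a).mp hpx
  refine ⟨a - π (Z.t l), sub_ne_zero.mpr ?_, hval _ hw1 hp1, hval _ hw2 hp2'⟩
  rw [ha]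
  by_cases h : D.ubar ∈ s.1.toValuationSubring
  · rw [if_pos h, zval, if_pos h, zbar, pv_sub h (s.1.algebraMap_mem' _), pv_algebraMap]
    exact Z.t_node l s hs
  · rw [if_neg h]
    exact (Z.t_ne l).symm

/-- The node conditions in the two coordinates. -/
theorem isNode_iff {m : ℕ} {r : Fin 2 → C} :
    Z.nodeRing.IsNode m r ↔ (fun i => r i * Z.zbar ^ m) ∈ D.Nm m := by
  rw [D.mem_Nm_iff]
  have hrr : ∀ (c : C), (∀ x : Place k C, x.adicValuation c ≤ exp (Z.nodeRing.pole x) ^ m) ↔
      c * Z.zbar ^ m ∈ riemannRochSpace (m • D.pole) := by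
    intro c
    show _ ↔ ∀ x : Place k C, x.adicValuation (c * Z.zbar ^ m) ≤ exp ((m • D.pole) x)
    refine forall_congr' fun x => ?_
    have hz : max 1 (x.adicValuation Z.wbar) * x.adicValuation Z.zbar = exp (D.pole x) := by
      rw [wbar, max_one_inv_mul x Z.zbar_ne, zbar, max_one_sub_const, D.pole_apply,
        exp_max_neg_ord]
    rw [Z.exp_pole, Finsupp.smul_apply, exp_nsmul, ← hz, mul_pow, map_mul, map_pow]
    exact (mul_le_mul_iff_left₀
      (pow_pos (zero_lt_iff.mpr (x.adicValuation_ne_zero Z.zbar_ne)) m)).symm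
  have hreg : ∀ i, (∀ x : Place k C, x.adicValuation (r i) ≤ exp (Z.nodeRing.pole x) ^ m) →
      ∀ x : Place k C, Z.wbar ∈ x.toValuationSubring → r i ∈ x.toValuationSubring := by
    intro i hi x hx
    rw [mem_place_iff_le_one] at hx ⊢
    refine (hi x).trans_eq ?_
    rw [Z.exp_pole, max_eq_left hx, one_pow]
  constructor
  · rintro ⟨hp, hg⟩
    refine ⟨fun i => (hrr _).mp (hp i), fun s hs => ?_⟩
    obtain ⟨-, hw1, -, h1⟩ := Z.node_place (Z.hyp_fst hs)
    obtain ⟨-, hw2, -, h2⟩ := Z.node_place (Z.hyp_snd hs)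
    obtain ⟨c, hc1, hc2⟩ := hg s hs
    rw [h1 m _ (hreg 0 (hp 0) _ hw1), h2 m _ (hreg 1 (hp 1) _ hw2), Z.zval_eq hs,
      (pv_eq_iff (hreg 0 (hp 0) _ hw1) c).mpr hc1, (pv_eq_iff (hreg 1 (hp 1) _ hw2) c).mpr hc2]
  · rintro ⟨hp', hl⟩
    have hp := fun i => (hrr (r i)).mpr (hp' i)
    refine ⟨hp, fun s hs => ?_⟩
    obtain ⟨-, hw1, -, h1⟩ := Z.node_place (Z.hyp_fst hs)
    obtain ⟨hz2, hw2, -, h2⟩ := Z.node_place (Z.hyp_snd hs)
    have := hl s hs
    rw [h1 m _ (hreg 0 (hp 0) _ hw1), h2 m _ (hreg 1 (hp 1) _ hw2), Z.zval_eq hs] at this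
    exact ⟨_, (pv_eq_iff (hd := D.deg_one _) (hreg 0 (hp 0) _ hw1) _).mp rfl,
      (pv_eq_iff (hd := D.deg_one _) (hreg 1 (hp 1) _ hw2) _).mp
        (mul_right_cancel₀ (pow_ne_zero m hz2) this).symm⟩

/-- Residues of integral functions with bounded poles satisfy the node conditions. -/
theorem node_red [IsAlgClosed L] [FF.IsFunctionField L F] {m : ℕ} {x : F} (hx : x ∈ D.O)
    (hb : ∀ v : Place L F, v.adicValuation x ≤ exp (Z.poleF v) ^ m) :
    Z.nodeRing.IsNode m (D.red2 x) := by
  rw [Z.isNode_iff]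
  have hcond : TwistCond L D.u 1 1 m (x * Z.z ^ m) := by
    rw [Z.twistCond_iff]
    intro v
    have e : x * Z.z ^ m * Z.w ^ m = x := by
      rw [w, inv_pow, mul_assoc, mul_inv_cancel₀ (pow_ne_zero _ Z.z_ne), mul_one]
    simpa [e] using hb v
  refine D.Wm_le_Nm m ?_
  rw [BadCurve.Wm, D.mem_redSpace]
  refine ⟨x * Z.z ^ m, (mem_twistSpace one_pos).mpr hcond, mul_mem hx (pow_mem Z.z_mem m),
    funext fun i => ?_⟩
  rw [D.red2_apply, D.red_mul (D.mem_of_mem_O hx i) (pow_mem (D.mem_of_mem_O Z.z_mem i) m),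
    D.red_pow (D.mem_of_mem_O Z.z_mem i), Z.red_z, D.red2_apply]

end Coord

end Fermat.Agent.BAD.Ordinary
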