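import Fermat.Agent.BAD.Ordinary.Setting
import Mathlib.LinearAlgebra.FiniteDimensional.Basic

/-!
# Two shifts closing up a section to an exact `p`-th root

Above the level of `ζ - 1` the congruence `(a / v ^ m) ^ p f ≡ 1` improves by linear algebra; two
shifts with disjoint zeros and a finite dimensional limit give `e ^ p f` constant.
-/

set_option autoImplicit false

noncomputable section

open AlgebraicCurve WithZero

namespace Fermat.Agent.BAD.Ordinary.Setting

variable {p : ℕ} {L F k C 𝔉 κ K0 : Type*} [Field L] [Field F] [Algebra L F] [Field k] [Field C]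
  [Algebra k C] [Field 𝔉] [Field κ] [Field K0] (T : Setting p L F k C 𝔉 κ K0)
  [Fact p.Prime] [CharP k p] [IsAlgClosed k] [CharP κ p]

omit [Fact p.Prime] [CharP k p] [IsAlgClosed k] [CharP κ p] in
theorem InW.mul_v {f : T.F0} {m : ℕ} {x : T.F0} (hx : T.InW f m x) (l : Fin 2) :
    T.InW f (2 * m) (x * T.v l ^ m) := fun w => by
  rw [show ((x * T.v l ^ m : T.F0) : F) ^ p * (f : F) =
      ((x : F) ^ p * f) * (T.v l : F) ^ (p * m) by push_cast; ring,
    show p * (2 * m) = p * m + p * m by ring, pow_add, map_mul, map_pow]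
  exact mul_le_mul' (hx w) (pow_le_pow_left' (T.v_le l w) _)

omit [CharP k p] [IsAlgClosed k] [CharP κ p] [Fact p.Prime] in
/-- A common value of `a / v ^ m` for the two shifts is an exact root. -/
theorem exists_root_of_eq {f : T.F0} {m : ℕ} {a₀ a₁ : T.F0} (h₀ : T.InW f m a₀)
    (h₁ : T.InW f m a₁) (h : a₀ * T.v 1 ^ m = a₁ * T.v 0 ^ m) (hne : ¬(a₀ = 0 ∧ a₁ = 0)) :
    ∃ e : T.F0, e ≠ 0 ∧ ∃ c : L, (e : F) ^ p * (f : F) = algebraMap L F c := by
  have hv := fun l => pow_ne_zero m (T.v_ne l)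
  have ha₀ : a₀ ≠ 0 := fun h0 => hne ⟨h0, by
    have h' := h.symm
    rw [h0, zero_mul, mul_eq_zero] at h'
    exact h'.resolve_right (hv 0)⟩
  refine ⟨a₀ / T.v 0 ^ m, div_ne_zero ha₀ (hv 0), T.const_F _ fun w => ?_⟩
  have key : ∀ (l : Fin 2) (a : T.F0), T.InW f m a → a₀ / T.v 0 ^ m = a / T.v l ^ m →
      w.adicValuation (T.v l : F) = exp (T.poleF w) →
      w.adicValuation (((a₀ / T.v 0 ^ m : T.F0) : F) ^ p * (f : F)) ≤ 1 := by
    intro l a ha heq hval
    rw [heq]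
    push_cast
    rw [div_pow, div_mul_eq_mul_div, map_div₀, map_pow, map_pow, hval, ← pow_mul, mul_comm m p]
    exact div_le_one_of_le₀ (ha w) zero_le
  have heq1 : a₀ / T.v 0 ^ m = a₁ / T.v 1 ^ m := by
    rw [div_eq_div_iff (hv 0) (hv 1)]; exact h
  rcases T.v_cases w with hw | ⟨hP, l, hl⟩
  · exact key 0 a₀ h₀ rfl (hw 0)
  · have hl' : w.adicValuation (T.v l : F) = exp (T.poleF w) := by rw [hl, hP, exp_zero]
    rcases Fin.exists_fin_two.mp ⟨l, (rfl : l = l)⟩ with h' | h' <;> subst h'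
    · exact key 0 a₀ h₀ rfl hl'
    · exact key 1 a₁ h₁ heq1 hl'

omit [Fact p.Prime] [CharP k p] [IsAlgClosed k] [CharP κ p] in
theorem InSpan.add {n : ℕ} {b : Fin n → T.F0} {x y : T.F0} (hx : T.InSpan b x)
    (hy : T.InSpan b y) : T.InSpan b (x + y) := by
  obtain ⟨α, rfl⟩ := hx
  obtain ⟨β, rfl⟩ := hy
  exact ⟨α + β, by simp [add_mul, Finset.sum_add_distrib]⟩

omit [Fact p.Prime] [CharP k p] [IsAlgClosed k] [CharP κ p] in
theorem InSpan.cst_mul {n : ℕ} {b : Fin n → T.F0} {x : T.F0} (hx : T.InSpan b x) (c : K0) :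
    T.InSpan b (T.cst c * x) := by
  obtain ⟨α, rfl⟩ := hx
  exact ⟨fun j => c * α j, by simp [Finset.mul_sum, mul_assoc]⟩

/-- The congruences kept during the linear improvement. -/
structure Approx (f : T.F0) (m : ℕ) {n : ℕ} (b : Fin n → T.F0) (start : Fin 2 → T.F0) (j : ℕ)
    (a : Fin 2 → T.F0) : Prop where
  mem : ∀ l, T.InO (a l)
  red : ∀ l, T.RedConst (a l) (T.vbar l ^ m)
  inW : ∀ l, T.InW f m (a l)
  span : ∀ l, T.InSpan b (a l - start l)
  close : ∀ l i, T.D.One (T.rl.e + j) (T.s i (T.twist f l m (a l)))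
  ratio : ∀ i, T.D.One (T.rl.l + 1)
    (T.s i (a 0 * T.v 1 ^ m) / T.s i (a 1 * T.v 0 ^ m))

variable {f : T.F0} (hf : T.InO f) (hf1 : T.RedConst f 1) {m n : ℕ} (hm : T.m0 ≤ m)
  {b : Fin n → T.F0} (hlift : T.Lifts f m b) {start : Fin 2 → T.F0}

variable {T}

omit [CharP k p] [IsAlgClosed k] in
include hf1 in
theorem Approx.ratio_one {j : ℕ} {a : Fin 2 → T.F0} (h : T.Approx f m b start j a)
    (hj : T.rl.l + 1 ≤ j) (i : Fin 2) :
    T.D.One j (T.s i (a 0 * T.v 1 ^ m) / T.s i (a 1 * T.v 0 ^ m)) := by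
  refine T.rl.one_of_pow_one (h.ratio i) ?_
  have hf0 : T.s i f ≠ 0 := fun h0 => by
    have := hf1 i
    rw [h0, DiscRed.red_zero, map_one] at this
    exact zero_ne_one this
  convert (h.close 0 i).div (h.close 1 i) (by omega) using 1
  simp only [twist, map_mul, map_div₀, map_pow]
  have h0 := T.red_pow_v_ne 0 i 1
  have h1 := T.red_pow_v_ne 1 i 1
  rw [pow_one] at h0 h1
  have : T.s i (T.v 0) ≠ 0 := fun e => h0 (by rw [e, DiscRed.red_zero])
  have : T.s i (T.v 1) ≠ 0 := fun e => h1 (by rw [e, DiscRed.red_zero])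
  simp only [div_pow, mul_pow, ← pow_mul]
  rw [mul_comm m p]
  field_simp

omit [Fact p.Prime] [IsAlgClosed k] [CharP κ p] [CharP k p] in
/-- Residues of two congruent sections are lowered from level `p m` to level `m`. -/
theorem isNode_shift {hC : Fin 2 → Fin 2 → C} [hp : Fact p.Prime]
    (hR : ∀ l, T.Γ.IsNode (p * m) fun i => hC l i * T.vbar l ^ (p * m))
    (hS : T.Γ.IsNode (2 * m) fun i => (hC 0 i - hC 1 i) * (T.vbar 0 * T.vbar 1) ^ m) (l : Fin 2) :
    T.Γ.IsNode m fun i => hC l i * T.vbar l ^ m := by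
  have hpm : p * m = m + (p - 1) * m := by
    calc p * m = (1 + (p - 1)) * m := by rw [Nat.add_sub_cancel' hp.out.one_le]
      _ = _ := by rw [add_mul, one_mul]
  refine ⟨fun i v => ?_, fun x hx => ?_⟩
  · have hone : ∀ l, v.adicValuation (T.vbar l) = exp (T.Γ.pole v) →
        v.adicValuation (hC l i) ≤ 1 := by
      intro l hl
      have h1 := (hR l).1 i v
      simp only [map_mul, map_pow, hl] at h1
      exact le_of_mul_le_mul_right (h1.trans_eq (one_mul _).symm)
        (pow_pos (WithZero.exp_pos) _)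
    rw [map_mul, map_pow]
    rcases T.vbar_cases v with hv | ⟨hP, l', hl'⟩
    · rw [hv l]
      exact mul_le_of_le_one_left' (hone l (hv l))
    · have hl1 : v.adicValuation (T.vbar l') = exp (T.Γ.pole v) := by rw [hl', hP, exp_zero]
      have hle1 : v.adicValuation (T.vbar l) ≤ 1 := by
        have := T.vbar_le l v
        rwa [hP, exp_zero] at this
      rw [hP, exp_zero, one_pow]
      rcases eq_or_ne l l' with rfl | hne
      · rw [hl', one_pow, mul_one]; exact hone l hl1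
      · have hS' := hS.1 i v
        simp only [map_mul, map_pow, hP, exp_zero, one_pow, mul_pow] at hS'
        have hs' : v.adicValuation (hC l i - hC l' i) * v.adicValuation (T.vbar l) ^ m ≤ 1 := by
          rcases Fin.exists_fin_two.mp ⟨l, (rfl : l = l)⟩ with h' | h' <;> subst h' <;>
            rcases Fin.exists_fin_two.mp ⟨l', (rfl : l' = l')⟩ with h' | h' <;> subst h'
          · exact absurd rfl hne
          · rwa [hl', one_pow, mul_one] at hS'
          · rwa [hl', one_pow, one_mul, Valuation.map_sub_swap] at hS'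
          · exact absurd rfl hne
        rw [show hC l i = (hC l i - hC l' i) + hC l' i by ring]
        refine le_trans (mul_le_mul' (v.adicValuation.map_add _ _) le_rfl) ?_
        rcases le_total (v.adicValuation (hC l i - hC l' i)) (v.adicValuation (hC l' i))
          with hle | hle
        · rw [max_eq_right hle]
          exact mul_le_one' (hone l' hl1) (pow_le_one' hle1 m)
        · rw [max_eq_left hle]; exact hs'
  · obtain ⟨d, hd0, hd⟩ := T.vbar_glue l x hx
    refine glue_of_mul_unit (w := fun _ => T.vbar l ^ ((p - 1) * m))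
      ⟨d ^ ((p - 1) * m), pow_ne_zero _ hd0, hd.pow _⟩
      (fun _ => pow_ne_zero _ (T.vbar_ne l)) ?_
    convert (hR l).2 x hx using 1
    funext i
    rw [Pi.mul_apply, mul_assoc, ← pow_add, ← hpm]

omit [IsAlgClosed k] [CharP k p] in
/-- Multiplying by the `p`-th power cancelling the leading term. -/
theorem one_mul_pow_succ {j : ℕ} (hj : T.rl.l + 1 ≤ j) {t z : 𝔉}
    (ht : T.D.One (T.rl.e + j) t) (hz : T.D.One j z)
    (h : T.D.red ((t - 1) / ((p : 𝔉) * T.D.ϖ ^ j)) = -T.D.red ((z - 1) / T.D.ϖ ^ j)) :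
    T.D.One (T.rl.e + (j + 1)) (t * z ^ p) := by
  obtain ⟨u, hu, hu0, hpu, -⟩ := T.rl.pow_sub_one
  have hune : u ≠ 0 := fun e => hu0 (by rw [e, DiscRed.red_zero])
  have hpj : (p : 𝔉) * T.D.ϖ ^ j = T.D.ϖ ^ (T.rl.e + j) * u := by rw [hpu, pow_add]; ring
  have hdiv : ∀ z : 𝔉, T.D.Cong (T.rl.e + j) z → z / ((p : 𝔉) * T.D.ϖ ^ j) ∈ T.D.O := by
    intro z hz
    rw [hpj, ← div_div]
    exact div_eq_mul_inv (z / _) u ▸ mul_mem hz (DiscRed.inv_mem hu hu0)
  have hzp := T.rl.one_pow hj hz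
  have e1 := hdiv _ ht
  have e2 := hdiv _ hzp
  have h1 : T.D.One (T.rl.e + j) (t * z ^ p) := ht.mul hzp
  have e3 := hdiv _ h1
  have key : T.D.red ((t * z ^ p - 1) / ((p : 𝔉) * T.D.ϖ ^ j)) = 0 := by
    rw [show t * z ^ p - 1 = (t - 1) + t * (z ^ p - 1) by ring, add_div, mul_div_assoc,
      DiscRed.red_add e1 (mul_mem ht.mem e2), DiscRed.red_mul ht.mem e2,
      ht.red_eq_one (by omega), one_mul, T.rl.red_pow_sub_one hj hz, h, neg_add_cancel]
  rw [DiscRed.One, ← add_assoc]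
  refine DiscRed.Cong.succ h1 ?_
  rw [show (t * z ^ p - 1) / T.D.ϖ ^ (T.rl.e + j) =
      (t * z ^ p - 1) / ((p : 𝔉) * T.D.ϖ ^ j) * u by rw [hpj]; field_simp,
    DiscRed.red_mul e3 hu, key, zero_mul]

include hf hf1 hm hlift in
theorem Approx.step {j : ℕ} {a : Fin 2 → T.F0} (hj : T.rl.l + 1 ≤ j)
    (h : T.Approx f m b start j a) : ∃ a', T.Approx f m b start (j + 1) a' := by
  have hp : p.Prime := Fact.out
  obtain ⟨u, hu, hu0, hpu, -⟩ := T.rl.pow_sub_one
  set w : Fin 2 → 𝔉 := fun i => T.s i (a 0 * T.v 1 ^ m) / T.s i (a 1 * T.v 0 ^ m) with hw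
  have hw1 : ∀ i, T.D.One j (w i) := h.ratio_one hf1 hj
  set t : Fin 2 → Fin 2 → 𝔉 := fun l i => T.s i (T.twist f l m (a l)) with ht
  have hune : u ≠ 0 := fun e => hu0 (by rw [e, DiscRed.red_zero])
  have hpj : (p : 𝔉) * T.D.ϖ ^ j = T.D.ϖ ^ (T.rl.e + j) * u := by rw [hpu, pow_add]; ring
  have hϖ0 : T.D.ϖ ^ (T.rl.e + j) ≠ 0 := DiscRed.pow_ne _
  have hp0 : (p : 𝔉) * T.D.ϖ ^ j ≠ 0 := by rw [hpj]; exact mul_ne_zero hϖ0 hune
  have hdiv : ∀ z : 𝔉, T.D.Cong (T.rl.e + j) z → z / ((p : 𝔉) * T.D.ϖ ^ j) ∈ T.D.O := by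
    intro z hz
    rw [hpj, ← div_div]
    exact div_eq_mul_inv (z / _) u ▸ mul_mem hz (DiscRed.inv_mem hu hu0)
  have hsv : ∀ l i N, T.s i (T.v l ^ N) ≠ 0 := fun l i N e => T.red_pow_v_ne l i N (by
    rw [e, DiscRed.red_zero])
  set R : Fin 2 → T.F0 := fun l =>
    (a l ^ p * f - T.v l ^ (p * m)) / T.cst ((p : K0) * T.ϖ0 ^ j) with hR
  have hsR : ∀ l i, T.s i (R l) = T.s i (T.v l ^ (p * m)) *
      ((t l i - 1) / ((p : 𝔉) * T.D.ϖ ^ j)) := by
    intro l i
    simp only [hR, ht, twist, map_div₀, map_sub, map_mul, map_natCast, T.cst_pow_ϖ]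
    have := hsv l i (p * m)
    field_simp
  have hRO : ∀ l i, T.s i (R l) ∈ T.D.O := fun l i =>
    hsR l i ▸ mul_mem (T.v_pow_mem l i _) (hdiv _ (h.close l i))
  choose c hc using fun l i => T.red_mem i (R l) (hRO l i)
  set hC : Fin 2 → Fin 2 → C := fun l i => c l i / T.vbar l ^ (p * m) with hhC
  have hι : ∀ l i, T.ι (hC l i) = T.D.red ((t l i - 1) / ((p : 𝔉) * T.D.ϖ ^ j)) := by
    intro l i
    have := hc l i
    rw [hsR, DiscRed.red_mul (T.v_pow_mem l i _) (hdiv _ (h.close l i)), T.red_pow_v] at this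
    rw [hhC, map_div₀, ← this, mul_div_cancel_left₀ _
      ((map_ne_zero T.ι).mpr (pow_ne_zero _ (T.vbar_ne l)))]
  have hnodeR : ∀ l, T.Γ.IsNode (p * m) (c l) := by
    intro l
    refine T.node_red (p * m) (hm.trans (Nat.le_mul_of_pos_left m hp.pos)) (R l)
      (fun i => hRO l i) (fun v => ?_) _ (hc l)
    obtain ⟨d, hd⟩ := T.cst_const ((p : K0) * T.ϖ0 ^ j)⁻¹
    rw [hR]
    simp only
    rw [div_eq_mul_inv, ← map_inv₀, MulMemClass.coe_mul, hd, map_mul]
    refine (mul_le_of_le_one_right' (v.adicValuation_algebraMap_le_one d)).trans ?_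
    rw [AddSubgroupClass.coe_sub]
    refine v.adicValuation.map_sub_le (InW.pow_mul_le T (h.inW l) v) ?_
    rw [SubmonoidClass.coe_pow, map_pow]
    exact pow_le_pow_left' (T.v_le l v) _
  set S : T.F0 := (a 0 * T.v 1 ^ m - a 1 * T.v 0 ^ m) / T.cst (T.ϖ0 ^ j) with hS
  have hb0 : ∀ i, T.s i (a 1 * T.v 0 ^ m) ≠ 0 := fun i e => by
    have := (h.ratio i).ne_zero (Nat.succ_ne_zero _)
    rw [e, div_zero] at this
    exact this rfl
  have hsS : ∀ i, T.s i S = T.s i (a 1 * T.v 0 ^ m) * ((w i - 1) / T.D.ϖ ^ j) := by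
    intro i
    have := hb0 i
    simp only [hS, hw, map_div₀, map_sub, T.cst_pow_ϖ]
    field_simp
  have hden : ∀ i, T.s i (a 1 * T.v 0 ^ m) ∈ T.D.O := fun i => by
    rw [map_mul]; exact mul_mem (h.mem 1 i) (T.v_pow_mem 0 i m)
  have hSO : T.InO S := fun i => hsS i ▸ mul_mem (hden i) (hw1 i)
  have hdiff : ∀ i, T.ι (hC 0 i - hC 1 i) = T.D.red ((w i - 1) / T.D.ϖ ^ j) := by
    intro i
    have h1 := hdiv _ (h.close 1 i)
    have h0 := hdiv _ (h.close 0 i)
    rw [map_sub, hι, hι, ← DiscRed.red_sub h0 h1, ← sub_div, ← T.rl.red_pow_sub_one hj (hw1 i)]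
    have ht1 : T.D.One (T.rl.e + j) (t 1 i) := h.close 1 i
    have hwp := hdiv _ (T.rl.one_pow hj (hw1 i))
    have : t 0 i - 1 - (t 1 i - 1) = t 1 i * ((w i) ^ p - 1) := by
      have h10 : t 0 i = t 1 i * w i ^ p := by
        simp only [ht, hw, twist, map_mul, map_div₀, map_pow, div_pow, mul_pow, ← pow_mul]
        have := hsv 0 i 1
        have := hsv 1 i 1
        have := hb0 i
        simp only [map_mul, map_pow, pow_one] at *
        rw [mul_comm m p]
        field_simp [left_ne_zero_of_mul this]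
      rw [h10]; ring
    rw [this, mul_div_assoc, DiscRed.red_mul ht1.mem hwp, ht1.red_eq_one (by omega), one_mul]
  have hnodeS : T.Γ.IsNode (2 * m) fun i => (hC 0 i - hC 1 i) * (T.vbar 0 * T.vbar 1) ^ m := by
    refine InW.isNode T hf hf1 (hm.trans (Nat.le_mul_of_pos_left m two_pos))
      (x := S) ?_ hSO fun i => ?_
    · have hS' : S = T.cst (T.ϖ0 ^ j)⁻¹ * (a 0 * T.v 1 ^ m - a 1 * T.v 0 ^ m) := by
        rw [map_inv₀]
        exact div_eq_inv_mul _ _
      exact hS'.symm ▸ InW.cst_mul T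
        (InW.sub T (InW.mul_v T (h.inW 0) 1) (InW.mul_v T (h.inW 1) 0)) _
    · rw [hsS, DiscRed.red_mul (hden i) (hw1 i), map_mul T.ι, hdiff, map_mul (T.s i),
        DiscRed.red_mul (h.mem 1 i) (T.v_pow_mem 0 i m), h.red 1 i, T.red_pow_v, mul_pow,
        map_mul]
      ring
  have hnode := isNode_shift (T := T) (hC := hC) (m := m)
    (fun l => by
      convert hnodeR l using 1
      funext i
      exact div_mul_cancel₀ _ (pow_ne_zero _ (T.vbar_ne l))) hnodeS
  choose d hds hdO hdr using fun l => hlift.2 _ (hnode l)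
  set a' : Fin 2 → T.F0 := fun l => a l - T.cst (T.ϖ0 ^ j) * d l with ha'
  have himp := fun l => T.improve (j := j) (le_trans (by omega) hj) (h.mem l) (h.red l) (hdO l)
    (h.inW l) (InSpan.inW T hlift.1 (hds l))
  have hza : ∀ l i, T.D.red (T.s i (a l)) ≠ 0 := fun l i => by
    rw [h.red l i]; exact (map_ne_zero T.ι).mpr (pow_ne_zero _ (T.vbar_ne l))
  set z : Fin 2 → Fin 2 → 𝔉 := fun l i => 1 - T.D.ϖ ^ j * (T.s i (d l) / T.s i (a l)) with hz
  have hqm : ∀ l i, T.s i (d l) / T.s i (a l) ∈ T.D.O := fun l i =>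
    div_eq_mul_inv (T.s i (d l)) _ ▸ mul_mem (hdO l i) (DiscRed.inv_mem (h.mem l i) (hza l i))
  have hz1 : ∀ l i, T.D.One j (z l i) := fun l i => by
    rw [DiscRed.One, hz]
    simp only [sub_sub_cancel_left]
    exact (DiscRed.cong_pow_mul (hqm l i) j).neg
  have hsa' : ∀ l i, T.s i (a' l) = T.s i (a l) * z l i := fun l i => by
    have : T.s i (a l) ≠ 0 := fun e => hza l i (by rw [e, DiscRed.red_zero])
    simp only [ha', hz, map_sub, map_mul, T.cst_pow_ϖ]
    field_simp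
  refine ⟨a', fun l => (himp l).1, fun l => (himp l).2.1, fun l => (himp l).2.2, fun l => ?_,
    fun l i => ?_, fun i => ?_⟩
  · rw [ha']
    simp only
    rw [sub_right_comm, sub_eq_add_neg, ← neg_one_mul (T.cst _ * _), ← mul_assoc]
    refine InSpan.add T (h.span l) ?_
    rw [show (-1 : T.F0) = T.cst (-1) by simp, ← map_mul]
    exact InSpan.cst_mul T (hds l) _
  · have htw : T.s i (T.twist f l m (a' l)) = t l i * z l i ^ p := by
      simp only [ht, twist, map_mul, map_div₀, map_pow, hsa', mul_pow]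
      ring
    have hzq : T.D.red ((z l i - 1) / T.D.ϖ ^ j) = -T.ι (hC l i) := by
      rw [hz]
      simp only [sub_sub_cancel_left]
      rw [neg_div, mul_div_cancel_left₀ _ (DiscRed.pow_ne _), ← zero_sub,
        DiscRed.red_sub (zero_mem _) (hqm l i), DiscRed.red_zero, zero_sub, div_eq_mul_inv,
        DiscRed.red_mul (hdO l i) (DiscRed.inv_mem (h.mem l i) (hza l i)),
        DiscRed.red_inv (h.mem l i) (hza l i), hdr, h.red l i, map_mul, mul_assoc,
        mul_inv_cancel₀ ((map_ne_zero T.ι).mpr (pow_ne_zero _ (T.vbar_ne l))), mul_one]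
    rw [htw]
    exact one_mul_pow_succ hj (h.close l i) (hz1 l i) (by rw [hzq, hι, neg_neg])
  · convert (h.ratio i).mul ((((hz1 0 i).mono hj).div ((hz1 1 i).mono hj) (Nat.succ_ne_zero _)))
      using 1
    simp only [map_mul, hsa']
    field_simp

include hf hf1 hm hlift in
/-- The two shifts close up. -/
theorem exists_root {a : Fin 2 → T.F0} (ha : ∀ l, T.InO (a l))
    (hr : ∀ l, T.RedConst (a l) (T.vbar l ^ m)) (hW : ∀ l, T.InW f m (a l))
    (hclose : ∀ l i, T.D.One (T.rl.e + (T.rl.l + 1)) (T.s i (T.twist f l m (a l))))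
    (hratio : ∀ i, T.D.One (T.rl.l + 1) (T.s i (a 0 * T.v 1 ^ m) / T.s i (a 1 * T.v 0 ^ m))) :
    ∃ e : T.F0, e ≠ 0 ∧ ∃ c : L, (e : F) ^ p * (f : F) = algebraMap L F c := by
  classical
  have hiter : ∀ j, T.rl.l + 1 ≤ j → ∃ a', T.Approx f m b a j a' := by
    intro j hj
    induction j, hj using Nat.le_induction with
    | base =>
      exact ⟨a, ha, hr, hW, fun l => ⟨0, by simp⟩, hclose, hratio⟩
    | succ j hj ih => exact ih.elim fun a' h' => h'.step hf hf1 hm hlift hj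
  let : Algebra K0 T.F0 := T.cst.toAlgebra
  have hsmul : ∀ (c : K0) (x : T.F0), c • x = T.cst c * x := fun _ _ => rfl
  let g : Option (Fin 2 × Fin n) → T.F0 × T.F0 := fun o =>
    o.elim (a 0, a 1) fun z => if z.1 = 0 then (b z.2, 0) else (0, b z.2)
  let V : Submodule K0 (T.F0 × T.F0) := Submodule.span K0 (Set.range g)
  have : FiniteDimensional K0 V := FiniteDimensional.span_of_finite K0 (Set.finite_range g)
  let Φ : T.F0 × T.F0 →ₗ[K0] T.F0 :=
    (LinearMap.mulRight K0 (T.v 1 ^ m)).comp (LinearMap.fst K0 T.F0 T.F0) -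
      (LinearMap.mulRight K0 (T.v 0 ^ m)).comp (LinearMap.snd K0 T.F0 T.F0)
  have hΦ : ∀ x, Φ x = x.1 * T.v 1 ^ m - x.2 * T.v 0 ^ m := fun _ => rfl
  have hVW : ∀ x ∈ V, T.InW f m x.1 ∧ T.InW f m x.2 := by
    intro x hx
    induction hx using Submodule.span_induction with
    | mem x hx =>
      obtain ⟨o, rfl⟩ := hx
      rcases o with _ | ⟨l, j⟩
      · exact ⟨hW 0, hW 1⟩
      · by_cases hl : l = 0
        · simpa [g, hl] using And.intro (hlift.1 j) (T.inW_zero f m)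
        · simpa [g, hl] using And.intro (T.inW_zero f m) (hlift.1 j)
    | zero => exact ⟨T.inW_zero f m, T.inW_zero f m⟩
    | add x y _ _ hx hy => exact ⟨InW.add T hx.1 hy.1, InW.add T hx.2 hy.2⟩
    | smul c x _ hx => exact ⟨InW.cst_mul T hx.1 c, InW.cst_mul T hx.2 c⟩
  by_cases hker : ∃ x ∈ V, x ≠ 0 ∧ Φ x = 0
  · obtain ⟨x, hxV, hx0, hxΦ⟩ := hker
    rw [hΦ, sub_eq_zero] at hxΦ
    exact T.exists_root_of_eq (hVW x hxV).1 (hVW x hxV).2 hxΦ
      fun h => hx0 (Prod.ext h.1 h.2)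
  exfalso
  push Not at hker
  let B := Module.finBasis K0 V
  have hind : ∀ α : Fin (Module.finrank K0 V) → K0,
      ∑ i, T.cst (α i) * Φ (B i : T.F0 × T.F0) = 0 → ∀ i, α i = 0 := by
    intro α hα
    have : Φ ((∑ i, α i • B i : V) : T.F0 × T.F0) = 0 := by
      simpa [map_sum, hsmul] using hα
    have h0 : (∑ i, α i • B i : V) = 0 := by
      by_contra hne
      exact hker _ (∑ i, α i • B i : V).2 (fun h => hne (Subtype.ext h)) this
    exact fun i => Fintype.linearIndependent_iff.mp B.linearIndependent α h0 i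
  have hbound : ∀ x : 𝔉, ∃ M : ℕ, T.D.ϖ ^ M * x ∈ T.D.O := by
    intro x
    rcases eq_or_ne x 0 with rfl | hx
    · exact ⟨0, by simp [zero_mem]⟩
    obtain ⟨i, u, -, rfl⟩ := T.D.exists_eq x hx
    refine ⟨(-i).toNat, ?_⟩
    rw [← mul_assoc, ← zpow_natCast, ← zpow_add₀ T.D.ϖ_ne_zero]
    obtain ⟨k, hk⟩ := Int.eq_ofNat_of_zero_le (show (0 : ℤ) ≤ ((-i).toNat : ℤ) + i by omega)
    rw [hk, zpow_natCast]
    exact mul_mem (pow_mem T.D.ϖ_mem k) u.2
  choose Mf hMf using fun i => hbound (T.s 0 (B i : T.F0 × T.F0).1)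
  obtain ⟨N, hN⟩ := T.sep _ (fun i => Φ (B i : T.F0 × T.F0)) hind (Finset.univ.sup Mf + 1)
  set j := max N (T.rl.l + 1)
  obtain ⟨a', h'⟩ := hiter j (le_max_right _ _)
  have hx : (a' 0, a' 1) ∈ V := by
    have key : ∀ (l : Fin 2) (y : T.F0), T.InSpan b y →
        (if l = 0 then (y, (0 : T.F0)) else (0, y)) ∈ V := by
      rintro l y ⟨α, rfl⟩
      have : (if l = 0 then (∑ i, T.cst (α i) * b i, (0 : T.F0))
          else (0, ∑ i, T.cst (α i) * b i)) = ∑ i, α i • g (some (l, i)) := by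
        by_cases hl : l = 0
        · simp [g, hl, Prod.ext_iff, Prod.fst_sum, Prod.snd_sum, hsmul]
        · simp [g, hl, Prod.ext_iff, Prod.fst_sum, Prod.snd_sum, hsmul]
      rw [this]
      exact Submodule.sum_mem _ fun i _ =>
        Submodule.smul_mem _ _ (Submodule.subset_span ⟨_, rfl⟩)
    have h0 := key 0 _ (h'.span 0)
    have h1 := key 1 _ (h'.span 1)
    simp only [if_true, Fin.one_eq_zero_iff, OfNat.ofNat_ne_one, if_false] at h0 h1
    have := V.add_mem (V.add_mem (Submodule.subset_span ⟨none, rfl⟩ : g none ∈ V) h0) h1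
    simpa [g] using this
  let X : V := ⟨(a' 0, a' 1), hx⟩
  have hXsum : ∑ i, B.repr X i • (B i : T.F0 × T.F0) = (a' 0, a' 1) := by
    have := congrArg V.subtype (B.sum_repr X)
    rw [map_sum] at this
    simp only [map_smul, Submodule.coe_subtype] at this
    exact this
  have hcong : T.D.Cong N (T.s 0 (∑ i, T.cst (B.repr X i) * Φ (B i : T.F0 × T.F0))) := by
    have : ∑ i, T.cst (B.repr X i) * Φ (B i : T.F0 × T.F0) =
        a' 0 * T.v 1 ^ m - a' 1 * T.v 0 ^ m := by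
      rw [← hΦ (a' 0, a' 1), ← hXsum, map_sum]
      simp [hsmul]
    rw [this, map_sub]
    have hr' := h'.ratio_one hf1 (le_max_right N _) 0
    have hb : T.s 0 (a' 1 * T.v 0 ^ m) ≠ 0 := fun e => by
      have := hr'.ne_zero (by omega)
      rw [e, div_zero] at this
      exact this rfl
    have hmem : T.s 0 (a' 1 * T.v 0 ^ m) ∈ T.D.O := by
      rw [map_mul]; exact mul_mem (h'.mem 1 0) (T.v_pow_mem 0 0 m)
    have := (DiscRed.Cong.mul_right hr' hmem).mono (le_max_left N _)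
    rwa [sub_mul, div_mul_cancel₀ _ hb, one_mul] at this
  have hα := hN _ hcong
  have h0 : T.D.Cong 1 (T.s 0 (a' 0)) := by
    have : T.s 0 (a' 0) =
        ∑ i, T.s 0 (T.cst (B.repr X i)) * T.s 0 (B i : T.F0 × T.F0).1 := by
      rw [show a' 0 = (∑ i, B.repr X i • (B i : T.F0 × T.F0)).1 by rw [hXsum],
        Prod.fst_sum, map_sum]
      simp [hsmul]
    rw [this]
    refine DiscRed.cong_sum _ _ fun i _ => ?_
    refine DiscRed.cong_of_pow_mul (i := Finset.univ.sup Mf) (j := 1) ?_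
    have hM := Finset.le_sup (f := Mf) (Finset.mem_univ i)
    obtain ⟨d, hd⟩ := Nat.exists_eq_add_of_le hM
    have hmem : T.D.ϖ ^ (Finset.univ.sup Mf) * T.s 0 (B i : T.F0 × T.F0).1 ∈ T.D.O := by
      rw [hd, add_comm, pow_add, mul_assoc]
      exact mul_mem (pow_mem T.D.ϖ_mem d) (hMf i)
    rw [mul_left_comm]
    exact (hα i).mul_right hmem
  have := h0.red_eq_zero one_ne_zero
  rw [h'.red 0 0] at this
  exact (map_ne_zero T.ι).mpr (pow_ne_zero _ (T.vbar_ne 0)) this

end Fermat.Agent.BAD.Ordinary.Setting
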