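import Fermat.Agent.BAD.Ordinary.Power
import Fermat.Agent.BAD.Ordinary.Linear

/-!
# Inertia on torsion with power residues killed by both pushforwards

Combines the norm contraction, the lifting below the level of `ζ - 1` and the linear closing.
-/

set_option autoImplicit false

noncomputable section

namespace Fermat.Agent.BAD.Ordinary.Setting

variable {p : ℕ} {L F k C 𝔉 κ K0 : Type*} [Field L] [Field F] [Algebra L F] [Field k] [Field C]
  [Algebra k C] [Field 𝔉] [Field κ] [Field K0] (T : Setting p L F k C 𝔉 κ K0)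
  [Fact p.Prime] [CharP k p] [IsAlgClosed k] [CharP κ p]

/-- With the norm relations, the class of `σ f * f ^ q` is trivial. -/
theorem exists_root_image (N : 𝔉 →* 𝔉)
    (hN : ∀ i x, 1 ≤ i → T.D.One i x → T.D.One (i + 1) (N x)) {f : T.F0} (hf : T.InO f)
    (hf1 : T.RedConst f 1) {G : Fin 2 → 𝔉} (hG : ∀ i, G i ≠ 0)
    (h₀ : T.s 0 f * N (T.s 1 f) = G 0 ^ p) (h₁ : T.s 1 f * N (T.s 0 f) = G 1 ^ p)
    (tw : T.Twisting) {m n n' : ℕ} (hm : T.m0 ≤ m) {b : Fin n → T.F0} (hlift : T.Lifts f m b)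
    {b' : Fin n' → T.F0} (hlift' : T.Lifts (tw.image T f) ((tw.q + 1) * m) b') :
    ∃ e : T.F0, e ≠ 0 ∧ ∃ c : L, (e : F) ^ p * (tw.image T f : T.F0) = algebraMap L F c := by
  have hone : ∀ i, T.D.One 1 (T.s i f) := fun i =>
    DiscRed.one_one_of_red_eq_one (hf i) (by rw [hf1 i, map_one])
  have hH : ∀ i, ∃ H : 𝔉, T.D.One (p * T.rl.l + T.rl.l + 1) (T.s i f / H ^ p) := by
    intro i
    rcases Fin.exists_fin_two.mp ⟨i, (rfl : i = i)⟩ with h | h <;> subst h
    · exact (DiscRed.exists_pow_mul_eq N hN (hG 0) (hG 1) h₀ h₁ (hone 0) _).imp fun _ h => h.2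
    · exact (DiscRed.exists_pow_mul_eq N hN (hG 1) (hG 0) h₁ h₀ (hone 1) _).imp fun _ h => h.2
  choose H hH using hH
  obtain ⟨a, ha, hr⟩ := T.exists_start le_rfl hf hf1 hH hm hlift tw
  have him := tw.image_red T hf hf1
  refine exists_root him.1 (fun i => by simpa using him.2 i)
    (hm.trans (Nat.le_mul_of_pos_left m (Nat.succ_pos _))) hlift' (fun l => (ha l).1)
    (fun l => (ha l).2.1) (fun l => (ha l).2.2.1) (fun l => (ha l).2.2.2) hr

end Fermat.Agent.BAD.Ordinary.Setting
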