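import Fermat.Agent.FFG.ReductionKernel
import Mathlib.Algebra.Polynomial.AlgebraMap
import Mathlib.RingTheory.Ideal.Quotient.Basic
import Mathlib.RingTheory.RootsOfUnity.PrimitiveRoots
import Mathlib.GroupTheory.PGroup
import Mathlib.Algebra.CharP.Lemmas
import Mathlib.FieldTheory.Finite.Basic
import Mathlib.Data.Int.GCD

/-!
# No fixed point of a tame element in a connected model with two allowed characters

A model over a base of ramification index one, all of whose points reduce to the origin and on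
which every `g` satisfies `((g - 1) (g - χ g)) ^ N = 0`, `χ` the cyclotomic character modulo `p`.
An element with `χ ≠ 1` fixes only the origin.
-/

set_option autoImplicit false

noncomputable section

open Polynomial
open Fermat.Agent.FFG

namespace Fermat.Agent.BAD.Ordinary

variable {M : Type} [AddCommGroup M]

/-- The operator `(g - 1) (g - c)`. -/
def facOp (g : M → M) (c : ℕ) (y : M) : M := g (g y - c • y) - (g y - c • y)

theorem facOp_coe (G : Module.End ℤ M) (c : ℕ) :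
    facOp G c = aeval G ((X - 1) * (X - (c : ℤ[X]))) := by
  funext y
  simp [facOp, Module.End.mul_apply]

theorem facOp_iterate (G : Module.End ℤ M) (c N : ℕ) (y : M) :
    (facOp G c)^[N] y = aeval G (((X - 1) * (X - (c : ℤ[X]))) ^ N) y := by
  rw [facOp_coe, map_pow, Module.End.coe_pow]

/-- The polynomials in `G` killing `y`. -/
def killIdeal (G : Module.End ℤ M) (y : M) : Ideal ℤ[X] where
  carrier := {P | aeval G P y = 0}
  zero_mem' := by simp
  add_mem' {P P'} h h' := by simp_all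
  smul_mem' P P' h := by simp_all [Module.End.mul_apply]

theorem mem_killIdeal {G : Module.End ℤ M} {y : M} {P : ℤ[X]} :
    P ∈ killIdeal G y ↔ aeval G P y = 0 := Iff.rfl

section Ring

variable {Q : Type*} [CommRing Q] {p : ℕ} [Fact p.Prime] {g : Q}

theorem pow_prime_pow_eq_one_of_nilpotent (hp0 : (p : Q) = 0) {N : ℕ} (h : (g - 1) ^ N = 0) :
    g ^ p ^ N = 1 := by
  have hp : p.Prime := Fact.out
  obtain ⟨r, hr⟩ := exists_add_pow_prime_pow_eq hp (g - 1) (1 : Q) N
  rw [sub_add_cancel, hp0, one_pow, pow_eq_zero_of_le (Nat.lt_pow_self hp.one_lt).le h] at hr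
  simpa using hr

theorem eq_one_of_two_factors (hp0 : (p : Q) = 0) {a b : ℕ} (hab : (a : ZMod p) ≠ b) {N : ℕ}
    (ha : ((g - 1) * (g - a)) ^ N = 0) (hb : ((g - 1) * (g - b)) ^ N = 0)
    (hord : g ^ (p - 1) = 1) : g = 1 := by
  have hp : p.Prime := Fact.out
  obtain ⟨u, w, huw⟩ : IsCoprime ((b : ℤ) - a) (p : ℤ) := by
    rw [isCoprime_comm, (Nat.prime_iff_prime_int.mp hp).coprime_iff_not_dvd]
    intro hd
    rw [← ZMod.intCast_zmod_eq_zero_iff_dvd] at hd
    push_cast at hd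
    exact hab (sub_eq_zero.mp hd).symm
  have hunit : (u : Q) * ((b : Q) - a) = 1 := by
    have h := congrArg (fun z : ℤ => (z : Q)) huw
    simpa [hp0] using h
  set y := (g - 1) ^ N
  rw [mul_pow] at ha hb
  let I : Ideal Q := LinearMap.ker (LinearMap.mulLeft Q y)
  have hmem : ((g - a) + -(g - b)) ^ (N + N) ∈ I :=
    I.add_pow_mem_of_pow_mem_of_le (m := N) (n := N) (by simpa [I] using ha)
      (by rw [neg_pow]; exact I.mul_mem_left _ (by simpa [I] using hb)) (by omega)
  have hy : y = 0 := by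
    have h := I.mul_mem_left ((u : Q) ^ (N + N)) hmem
    rw [← mul_pow, show g - (a : Q) + -(g - b) = b - a by ring, hunit, one_pow] at h
    simpa [I] using h
  have h1 := pow_prime_pow_eq_one_of_nilpotent hp0 hy
  have hgcd : (p ^ N).gcd (p - 1) = 1 := by
    refine Nat.Coprime.pow_left N ((hp.coprime_iff_not_dvd).mpr fun h => ?_)
    have := Nat.le_of_dvd (by have := hp.two_le; omega) h
    have := hp.two_le
    omega
  have := pow_gcd_eq_one.mpr ⟨h1, hord⟩
  rwa [hgcd, pow_one] at this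

end Ring

variable {p : ℕ} [Fact p.Prime]

omit [Fact p.Prime] in
theorem quotient_prime_eq_zero (G : Module.End ℤ M) {y : M} (hpy : p • y = 0) :
    (p : ℤ[X] ⧸ killIdeal G y) = 0 := by
  rw [← map_natCast (Ideal.Quotient.mk (killIdeal G y)), Ideal.Quotient.eq_zero_iff_mem,
    mem_killIdeal, map_natCast, Module.End.natCast_apply]
  exact hpy

theorem exists_pow_fixed_of_unipotent (G : Module.End ℤ M) {y : M} (hpy : p • y = 0) {N : ℕ}
    (h : (facOp G 1)^[N] y = 0) : ∃ k, ∀ j, k ≤ j → (G ^ p ^ j) y = y := by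
  refine ⟨N + N, fun j hj => ?_⟩
  set q := Ideal.Quotient.mk (killIdeal G y)
  have h0 : (q X - 1) ^ (N + N) = 0 := by
    rw [← map_one q, ← map_sub, ← map_pow, Ideal.Quotient.eq_zero_iff_mem, mem_killIdeal,
      pow_add, ← mul_pow]
    rwa [facOp_iterate, Nat.cast_one] at h
  have := pow_prime_pow_eq_one_of_nilpotent (p := p) (quotient_prime_eq_zero G hpy)
    (pow_eq_zero_of_le hj h0)
  rw [← map_pow, ← map_one q, Ideal.Quotient.eq, mem_killIdeal] at this
  simpa [sub_eq_zero] using this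

theorem apply_eq_self_of_two_factors (G : Module.End ℤ M) {y : M} (hpy : p • y = 0) {a b : ℕ}
    (hab : (a : ZMod p) ≠ b) {N : ℕ} (ha : (facOp G a)^[N] y = 0) (hb : (facOp G b)^[N] y = 0)
    (hord : (G ^ (p - 1)) y = y) : G y = y := by
  set q := Ideal.Quotient.mk (killIdeal G y)
  have key : ∀ c : ℕ, (facOp G c)^[N] y = 0 → ((q X - 1) * (q X - c)) ^ N = 0 := by
    intro c h
    rw [← map_one q, ← map_natCast q, ← map_sub, ← map_sub, ← map_mul, ← map_pow,
      Ideal.Quotient.eq_zero_iff_mem, mem_killIdeal]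
    rwa [facOp_iterate] at h
  have hord' : (q X) ^ (p - 1) = 1 := by
    rw [← map_pow, ← map_one q, Ideal.Quotient.eq, mem_killIdeal]
    simp [hord]
  have := eq_one_of_two_factors (p := p) (quotient_prime_eq_zero G hpy) hab (key a ha) (key b hb)
    hord'
  rw [← map_one q, Ideal.Quotient.eq, mem_killIdeal] at this
  simpa [sub_eq_zero] using this

section Model

variable {R K L : Type} [CommRing R] [Field K] [Field L] [Algebra K L] [Algebra R L]
  {act : (L ≃ₐ[K] L) → M → M} {B : Subalgebra R (M → L)}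

/-- An element of the Galois group as an endomorphism. -/
def actEnd (hB : IsModel K act B) (g : L ≃ₐ[K] L) : Module.End ℤ M :=
  (AddMonoidHom.mk' (act g) (hB.act_add g)).toIntLinearMap

@[simp] theorem actEnd_apply (hB : IsModel K act B) (g : L ≃ₐ[K] L) (y : M) :
    actEnd hB g y = act g y := rfl

theorem coe_actEnd (hB : IsModel K act B) (g : L ≃ₐ[K] L) : ⇑(actEnd hB g) = act g := rfl

theorem actEnd_pow (hB : IsModel K act B) (g : L ≃ₐ[K] L) (k : ℕ) (y : M) :
    (actEnd hB g ^ k) y = act (g ^ k) y := by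
  induction k generalizing y with
  | zero => simp [hB.act_one]
  | succ k ih => rw [pow_succ, pow_succ, Module.End.mul_apply, hB.act_mul, ih, actEnd_apply]

variable {ζ : L} (hζ : IsPrimitiveRoot ζ p)

include hζ in
theorem exists_pow_eq_apply (g : L ≃ₐ[K] L) : ∃ a : ℕ, g ζ = ζ ^ a ∧ (a : ZMod p) ≠ 0 := by
  have hp : p.Prime := Fact.out
  have : NeZero p := ⟨hp.ne_zero⟩
  obtain ⟨a, -, ha⟩ := hζ.eq_pow_of_pow_eq_one (ξ := g ζ) (by rw [← map_pow, hζ.pow_eq_one, map_one])
  refine ⟨a, ha.symm, fun h0 => hζ.ne_one hp.one_lt (g.injective ?_)⟩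
  rw [map_one, ← ha, ← hζ.pow_eq_one]
  obtain ⟨b, rfl⟩ := (ZMod.natCast_eq_zero_iff _ _).mp h0
  rw [pow_mul, hζ.pow_eq_one, one_pow]

include hζ in
theorem pow_eq_pow_iff_cast {a b : ℕ} : ζ ^ a = ζ ^ b ↔ (a : ZMod p) = b := by
  have hp : p.Prime := Fact.out
  have hmod : ∀ m, ζ ^ m = ζ ^ (m % p) := fun m => by rw [hζ.eq_orderOf, pow_mod_orderOf]
  rw [ZMod.natCast_eq_natCast_iff', hmod a, hmod b]
  exact ⟨fun h => hζ.pow_inj (Nat.mod_lt _ hp.pos) (Nat.mod_lt _ hp.pos) h, fun h => by rw [h]⟩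

theorem apply_pow_iterate {g : L ≃ₐ[K] L} {a : ℕ} (ha : g ζ = ζ ^ a) (k : ℕ) :
    (g ^ k) ζ = ζ ^ (a ^ k) := by
  induction k with
  | zero => simp
  | succ k ih => rw [pow_succ, AlgEquiv.mul_apply, ha, map_pow, ih, ← pow_mul, pow_succ]

/-- The elements fixing `ζ`. -/
def zetaStab (ζ : L) : Subgroup (L ≃ₐ[K] L) where
  carrier := {g | g ζ = ζ}
  one_mem' := rfl
  mul_mem' {g h} hg hh := by
    change (g * h) ζ = ζ
    rw [AlgEquiv.mul_apply, show h ζ = ζ from hh, show g ζ = ζ from hg]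
  inv_mem' {g} hg := by
    change g⁻¹ ζ = ζ
    rw [AlgEquiv.aut_inv, AlgEquiv.symm_apply_eq]
    exact hg.symm

include hζ in
theorem conj_mem_zetaStab {h : L ≃ₐ[K] L} (hh : h ∈ zetaStab (K := K) ζ) (g : L ≃ₐ[K] L) :
    g⁻¹ * h * g ∈ zetaStab (K := K) ζ := by
  obtain ⟨a, ha, -⟩ := exists_pow_eq_apply hζ g
  change (g⁻¹ * h * g) ζ = ζ
  rw [AlgEquiv.mul_apply, AlgEquiv.mul_apply, ha, map_pow, show h ζ = ζ from hh, ← ha,
    AlgEquiv.aut_inv, AlgEquiv.symm_apply_apply]

include hζ in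
theorem inv_mul_conj_mem_zetaStab (s g : L ≃ₐ[K] L) :
    s⁻¹ * (g⁻¹ * s * g) ∈ zetaStab (K := K) ζ := by
  obtain ⟨a, ha, -⟩ := exists_pow_eq_apply hζ g
  obtain ⟨c, hc, -⟩ := exists_pow_eq_apply hζ s
  change (s⁻¹ * (g⁻¹ * s * g)) ζ = ζ
  have h : (g⁻¹ * s * g) ζ = s ζ := by
    rw [AlgEquiv.mul_apply, AlgEquiv.mul_apply, ha, map_pow, hc, ← pow_mul, mul_comm, pow_mul,
      ← ha, map_pow, AlgEquiv.aut_inv, AlgEquiv.symm_apply_apply]
  rw [AlgEquiv.mul_apply, h, AlgEquiv.aut_inv, AlgEquiv.symm_apply_apply]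

variable [Finite M] (hB : IsModel K act B) {n : ℕ}
  (hpn : ∀ x : M, p ^ n • x = 0)
  (hfac : ∀ (g : L ≃ₐ[K] L) (c : ℕ), g ζ = ζ ^ c → ∀ x : M, ∃ N, (facOp (act g) c)^[N] x = 0)

/-- The `p`-torsion points fixed by the elements fixing `ζ`. -/
def tameSub (ζ : L) (p : ℕ) : AddSubgroup M where
  carrier := {x | p • x = 0 ∧ ∀ g ∈ zetaStab (K := K) ζ, act g x = x}
  zero_mem' := ⟨smul_zero _, fun g _ => hB.act_zero g⟩
  add_mem' {x y} hx hy := ⟨by rw [smul_add, hx.1, hy.1, add_zero],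
    fun g hg => by rw [hB.act_add, hx.2 g hg, hy.2 g hg]⟩
  neg_mem' {x} hx := ⟨by rw [smul_neg, hx.1, neg_zero], fun g hg =>
    (map_neg (actEnd hB g) x).trans (congrArg Neg.neg (hx.2 g hg))⟩

omit [Finite M] in
include hζ in
theorem act_mem_tameSub (g : L ≃ₐ[K] L) {x : M} (hx : x ∈ tameSub hB ζ p) :
    act g x ∈ tameSub hB ζ p := by
  refine ⟨?_, fun h hh => ?_⟩
  · rw [← actEnd_apply hB, ← map_nsmul, hx.1, map_zero]
  · rw [← hB.act_mul, show h * g = g * (g⁻¹ * h * g) by group, hB.act_mul,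
      hx.2 _ (conj_mem_zetaStab hζ hh g)]

include hpn hfac in
theorem exists_ne_zero_mem_tameSub {x₀ : M} (hx₀ : x₀ ≠ 0) :
    ∃ x ∈ tameSub hB ζ p, x ≠ 0 := by
  classical
  have hp : p.Prime := Fact.out
  let T : AddSubgroup M := (nsmulAddMonoidHom p).ker
  have hT : ∀ {y : M}, y ∈ T ↔ p • y = 0 := Iff.rfl
  obtain ⟨t, htT, ht0⟩ : ∃ t ∈ T, t ≠ 0 := by
    by_contra h
    push Not at h
    refine hx₀ ?_
    have key : ∀ k, ∀ x : M, p ^ k • x = 0 → x = 0 := by
      intro k
      induction k with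
      | zero => simp
      | succ k ih =>
        intro x hx
        rw [pow_succ', mul_smul] at hx
        exact ih x (h _ (hT.mpr hx))
    exact key n x₀ (hpn x₀)
  have hmem : ∀ (g : L ≃ₐ[K] L) {y : M}, y ∈ T → act g y ∈ T := fun g y hy => hT.mpr (by
    rw [← actEnd_apply hB, ← map_nsmul, hT.mp hy, map_zero])
  let φ : zetaStab (K := K) ζ →* Equiv.Perm T :=
    { toFun := fun g =>
        { toFun := fun y => ⟨act g y, hmem g y.2⟩
          invFun := fun y => ⟨act (g : L ≃ₐ[K] L)⁻¹ y, hmem _ y.2⟩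
          left_inv := fun y => Subtype.ext (by
            change act (g : L ≃ₐ[K] L)⁻¹ (act g y) = y
            rw [← hB.act_mul, inv_mul_cancel, hB.act_one])
          right_inv := fun y => Subtype.ext (by
            change act g (act (g : L ≃ₐ[K] L)⁻¹ y) = y
            rw [← hB.act_mul, mul_inv_cancel, hB.act_one]) }
      map_one' := Equiv.ext fun y => Subtype.ext (hB.act_one _)
      map_mul' := fun g h => Equiv.ext fun y => Subtype.ext (hB.act_mul _ _ _) }
  have hG : IsPGroup p φ.range := by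
    rintro ⟨_, g, rfl⟩
    have hg : (g : L ≃ₐ[K] L) ζ = ζ ^ 1 := by rw [pow_one]; exact g.2
    have hex : ∀ y : T, ∃ k, ∀ j, k ≤ j → (actEnd hB g ^ p ^ j) (y : M) = y := fun y => by
      obtain ⟨N, hN⟩ := hfac g 1 hg y
      exact exists_pow_fixed_of_unipotent (actEnd hB g) (hT.mp y.2) hN
    choose k hk using hex
    have := Fintype.ofFinite T
    refine ⟨Finset.univ.sup k, Subtype.ext (Equiv.ext fun y => Subtype.ext ?_)⟩
    change ((((φ g) ^ p ^ Finset.univ.sup k) y : T) : M) = y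
    rw [← map_pow]
    change act ((g ^ p ^ Finset.univ.sup k : zetaStab (K := K) ζ) : L ≃ₐ[K] L) y = y
    rw [SubmonoidClass.coe_pow, ← actEnd_pow hB]
    exact hk y _ (Finset.le_sup (Finset.mem_univ y))
  have hdvd : p ∣ Nat.card T := by
    have h : addOrderOf (⟨t, htT⟩ : T) = p :=
      addOrderOf_eq_prime (Subtype.ext (hT.mp htT)) fun h => ht0 (congrArg Subtype.val h)
    exact h ▸ addOrderOf_dvd_natCard _
  have ha : (0 : T) ∈ MulAction.fixedPoints φ.range T := by
    rintro ⟨_, g, rfl⟩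
    exact Subtype.ext (hB.act_zero g)
  obtain ⟨b, hb, hne⟩ := hG.exists_fixed_point_of_prime_dvd_card_of_fixed_point T hdvd ha
  exact ⟨b, ⟨hT.mp b.2, fun g hg => congrArg Subtype.val (hb ⟨φ ⟨g, hg⟩, ⟨g, hg⟩, rfl⟩)⟩,
    fun h => hne (Subtype.ext h.symm)⟩

omit [Finite M] in
include hζ hfac in
/-- On the tame subgroup a fixed point of `s₀` is fixed by everything. -/
theorem act_eq_self_of_mem_tameSub {s₀ : L ≃ₐ[K] L} (hs₀ : s₀ ζ ≠ ζ) {x : M}
    (hx : x ∈ tameSub hB ζ p) (hfix : act s₀ x = x) (g : L ≃ₐ[K] L) : act g x = x := by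
  obtain ⟨a, ha, ha0⟩ := exists_pow_eq_apply hζ g
  obtain ⟨c, hc, -⟩ := exists_pow_eq_apply hζ s₀
  have hstep : ∀ g : L ≃ₐ[K] L, ∀ y ∈ tameSub hB ζ p, act s₀ y = y → act s₀ (act g y) = act g y := by
    intro g y hy hy0
    rw [← hB.act_mul, show s₀ * g = g * (s₀ * (s₀⁻¹ * (g⁻¹ * s₀ * g))) by group, hB.act_mul,
      hB.act_mul, hy.2 _ (inv_mul_conj_mem_zetaStab hζ s₀ g), hy0]
  have hgs : (g * s₀) ζ = ζ ^ (a * c) := by rw [AlgEquiv.mul_apply, hc, map_pow, ha, pow_mul]
  have hiter : ∀ N, (facOp (act (g * s₀)) (a * c))^[N] x = (facOp (act g) (a * c))^[N] x ∧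
      (facOp (act g) (a * c))^[N] x ∈ tameSub hB ζ p ∧
      act s₀ ((facOp (act g) (a * c))^[N] x) = (facOp (act g) (a * c))^[N] x := by
    intro N
    induction N with
    | zero => exact ⟨rfl, hx, hfix⟩
    | succ N ih =>
      obtain ⟨h1, h2, h3⟩ := ih
      rw [Function.iterate_succ_apply', Function.iterate_succ_apply', h1]
      set y := (facOp (act g) (a * c))^[N] x
      have hgy := act_mem_tameSub hζ hB g h2
      have hz : act g y - (a * c) • y ∈ tameSub hB ζ p :=
        sub_mem hgy (nsmul_mem h2 _)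
      have hz0 : act s₀ (act g y - (a * c) • y) = act g y - (a * c) • y := by
        rw [← actEnd_apply hB, map_sub, map_nsmul, actEnd_apply, actEnd_apply, hstep g y h2 h3, h3]
      refine ⟨?_, sub_mem (act_mem_tameSub hζ hB g hz) hz, ?_⟩
      · simp only [facOp, hB.act_mul g s₀, h3, hz0]
      · simp only [facOp]
        rw [← actEnd_apply hB s₀, map_sub, actEnd_apply, actEnd_apply, hstep g _ hz hz0, hz0]
  obtain ⟨N₁, hN₁⟩ := hfac g a ha x
  obtain ⟨N₂, hN₂⟩ := hfac (g * s₀) (a * c) hgs x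
  rw [(hiter N₂).1] at hN₂
  have hzero : ∀ (m : ℕ) (N : ℕ), (facOp (actEnd hB g) m)^[N] x = 0 → ∀ N' ≥ N,
      (facOp (actEnd hB g) m)^[N'] x = 0 := by
    intro m N h N' hN'
    obtain ⟨d, rfl⟩ := Nat.exists_eq_add_of_le hN'
    rw [add_comm, Function.iterate_add_apply, h]
    exact Function.iterate_fixed (by simp [facOp, hB.act_zero]) d
  refine apply_eq_self_of_two_factors (p := p) (actEnd hB g) hx.1 (a := a) (b := a * c) ?_
    (N := N₁ + N₂) (hzero a N₁ hN₁ _ (by omega)) (hzero _ N₂ hN₂ _ (by omega)) ?_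
  · intro h
    refine hs₀ ?_
    rw [hc]
    conv_rhs => rw [← pow_one ζ]
    rw [pow_eq_pow_iff_cast hζ, Nat.cast_one]
    rw [Nat.cast_mul] at h
    exact mul_left_cancel₀ ha0 (by rw [← h, mul_one])
  · rw [actEnd_pow]
    refine hx.2 _ ?_
    change (g ^ (p - 1)) ζ = ζ
    rw [apply_pow_iterate ha]
    conv_rhs => rw [← pow_one ζ]
    rw [pow_eq_pow_iff_cast hζ, Nat.cast_pow, Nat.cast_one]
    exact ZMod.pow_card_sub_one_eq_one ha0

end Model

section Induction

variable {R K L : Type} [CommRing R] [IsDomain R] [IsPrincipalIdealRing R] [Field K] [Field L]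
  [Algebra R K] [IsFractionRing R K] [Algebra K L] [Algebra R L] [IsScalarTower R K L]
  [IsGalois K L] [CharZero L]
  {Γ₀ : Type} [LinearOrderedCommGroupWithZero Γ₀] {v : Valuation L Γ₀}

/-- In a connected model over a base of ramification index one, on which every element satisfies
`((g - 1) (g - χ g)) ^ N = 0`, an element with `χ ≠ 1` fixes only the origin. -/
theorem eq_zero_of_connected_of_tame_fixed (hp2 : p ≠ 2) (hR : ∀ r, v (algebraMap R L r) ≤ 1)
    (hp0 : v (p : L) ≠ 0) (hp1 : v (p : L) < 1)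
    (hdisc : ∀ z : L, (∀ σ : L ≃ₐ[K] L, σ z = z) → v z < 1 → v z ≤ v (p : L))
    {ζ : L} (hζ : IsPrimitiveRoot ζ p) {s₀ : L ≃ₐ[K] L} (hs₀ : s₀ ζ ≠ ζ) [Finite M]
    {act : (L ≃ₐ[K] L) → M → M} {B : Subalgebra R (M → L)} (hB : IsModel K act B)
    (hconn : ∀ x, ∀ f ∈ B, v (f x - f 0) < 1) {n : ℕ} (hpn : ∀ x : M, p ^ n • x = 0)
    (hfac : ∀ (g : L ≃ₐ[K] L) (c : ℕ), g ζ = ζ ^ c → ∀ x : M, ∃ N, (facOp (act g) c)^[N] x = 0)
    {x : M} (hfix : act s₀ x = x) : x = 0 := by
  induction hk : Nat.card M using Nat.strong_induction_on generalizing M with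
  | _ k ih =>
    by_contra hx0
    set W := tameSub hB ζ p
    have hW0 : ∀ w ∈ W, act s₀ w = w → w = 0 := fun w hw hwfix =>
      hB.eq_zero_of_mem_reductionKernel_of_fixed (I := Set.univ) hR Fact.out hp2 hp0 hp1
        (fun z hz => hdisc z fun σ => hz σ (Set.mem_univ σ)) (fun f hf => hconn w f hf) (hpn w)
        fun σ _ => act_eq_self_of_mem_tameSub hζ hB hfac hs₀ hw hwfix σ
    obtain ⟨w, hw, hwne⟩ := exists_ne_zero_mem_tameSub hB hpn hfac hx0
    let actQ : (L ≃ₐ[K] L) → M ⧸ W → M ⧸ W := fun g =>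
      QuotientAddGroup.map W W (AddMonoidHom.mk' (act g) (hB.act_add g))
        fun y hy => act_mem_tameSub hζ hB g hy
    have hBQ : IsModel K actQ (B.comap (pull R L (QuotientAddGroup.mk' W))) :=
      hB.comap_of_surjective (QuotientAddGroup.mk' W) (QuotientAddGroup.mk'_surjective W)
        fun g y => rfl
    have hsemi : ∀ g c, Function.Semiconj (QuotientAddGroup.mk' W) (facOp (act g) c)
        (facOp (actQ g) c) := fun g c y => by
      simp only [facOp, map_sub]
      rfl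
    have hlt : Nat.card (M ⧸ W) < k := by
      have h := AddSubgroup.card_eq_card_quotient_mul_card_addSubgroup W
      have h1 : 1 < Nat.card W :=
        Finite.one_lt_card_iff_nontrivial.mpr ⟨⟨⟨w, hw⟩, 0, fun h => hwne (congrArg Subtype.val h)⟩⟩
      rw [← hk, h]
      exact lt_mul_of_one_lt_right Nat.card_pos h1
    have hq : QuotientAddGroup.mk' W x = 0 := by
      refine ih _ hlt hBQ ?_ ?_ ?_ (congrArg (QuotientAddGroup.mk' W) hfix) rfl
      · intro y f hf
        obtain ⟨y, rfl⟩ := QuotientAddGroup.mk'_surjective W y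
        exact hconn y _ hf
      · intro y
        obtain ⟨y, rfl⟩ := QuotientAddGroup.mk'_surjective W y
        rw [← map_nsmul, hpn, map_zero]
      · intro g c hg y
        obtain ⟨y, rfl⟩ := QuotientAddGroup.mk'_surjective W y
        obtain ⟨N, hN⟩ := hfac g c hg y
        exact ⟨N, by rw [← (hsemi g c).iterate_right N y, hN, map_zero]⟩
    exact hx0 (hW0 x ((QuotientAddGroup.eq_zero_iff x).mp hq) hfix)

end Induction

end Fermat.Agent.BAD.Ordinary
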