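import Fermat.Agent.BAD.Ordinary.ConnCore
import Fermat.Agent.FFG.OrderL.Connected
import Fermat.Agent.ECFormal.InertiaFixed

/-!
# Nothing in the connected part is fixed by a tame inertia element

For a model over `ℤ_(p)`, `p` odd, and a subgroup `U` of the connected part at a place `A`, stable
under inertia and on which inertia has the characters `1` and `χ` only, an inertia element moving
the `p`-th roots of unity fixes only the origin of `U`. The model is extended to the valuation ring
of the fixed field of inertia, where the ramification index is one.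
-/

set_option autoImplicit false

noncomputable section

open Fermat.Agent.FFG
open Fermat.Agent.Galois (Qbar GalQ)

namespace Fermat.Agent.BAD.Ordinary

section BaseChange

variable {R R' K K' L : Type} [CommRing R] [CommRing R'] [Field K] [Field K'] [Field L]
  [Algebra K K'] [Algebra K L] [Algebra K' L] [IsScalarTower K K' L] [Algebra R L] [Algebra R' L]
  {M : Type} [AddCommGroup M] {act : (L ≃ₐ[K] L) → M → M} {B : Subalgebra R (M → L)}

/-- A model extends to a larger base inside a field extension. -/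
theorem isModel_adjoin (hB : IsModel K act B)
    (hscal : ∀ r, ∃ r', algebraMap R' L r' = algebraMap R L r)
    (hbase : ∀ r', ∃ c : K', algebraMap K' L c = algebraMap R' L r') :
    IsModel K' (fun σ => act (σ.restrictScalars K))
      (Algebra.adjoin R' (B : Set (M → L))) where
  finite := by
    obtain ⟨s, hs⟩ := hB.finite.fg_top
    refine (Module.Finite.iff_fg
      (N := Subalgebra.toSubmodule (Algebra.adjoin R' (B : Set (M → L))))).mpr (Submodule.fg_def.mpr
      ⟨(fun b : B => (b : M → L)) '' (s : Set B), s.finite_toSet.image _, ?_⟩)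
    rw [Algebra.adjoin_eq_span]
    have hmon : (Submonoid.closure (B : Set (M → L)) : Set (M → L)) = B :=
      congrArg SetLike.coe B.toSubmonoid.closure_eq
    rw [hmon]
    refine le_antisymm (Submodule.span_mono ?_) (Submodule.span_le.mpr fun f hf => ?_)
    · rintro _ ⟨b, -, rfl⟩
      exact b.2
    · have hmem : (⟨f, hf⟩ : B) ∈ Submodule.span R (s : Set B) := hs ▸ Submodule.mem_top
      suffices h : ∀ b ∈ Submodule.span R (s : Set B),
          (b : M → L) ∈ Submodule.span R' ((fun b : B => (b : M → L)) '' (s : Set B)) from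
        h _ hmem
      intro b hb
      induction hb using Submodule.span_induction with
      | mem b hb => exact Submodule.subset_span ⟨b, hb, rfl⟩
      | zero => exact Submodule.zero_mem _
      | add b b' _ _ h h' => exact Submodule.add_mem _ h h'
      | smul r b _ h =>
        obtain ⟨r', hr'⟩ := hscal r
        have : ((r • b : B) : M → L) = r' • (b : M → L) := by
          funext x
          change r • (b : M → L) x = r' • (b : M → L) x
          rw [Algebra.smul_def, Algebra.smul_def, hr']
        rw [this]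
        exact Submodule.smul_mem _ _ h
  equivariant f hf := by
    intro σ x
    induction hf using Algebra.adjoin_induction with
    | mem g hg => exact hB.equivariant g hg (σ.restrictScalars K) x
    | algebraMap r =>
      obtain ⟨c, hc⟩ := hbase r
      rw [Pi.algebraMap_apply, Pi.algebraMap_apply, ← hc, AlgEquiv.commutes]
    | add g g' _ _ h h' => simp [h, h']
    | mul g g' _ _ h h' => simp [h, h']
  separates x y h := hB.separates x y fun f hf => h f (Algebra.subset_adjoin hf)
  comul_mem f hf := by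
    suffices hle : Algebra.adjoin R' (B : Set (M → L)) ≤
        (prodAlg (Algebra.adjoin R' (B : Set (M → L)))
          (Algebra.adjoin R' (B : Set (M → L)))).comap
            (pull R' L (fun z : M × M => z.1 + z.2)) from hle hf
    refine Algebra.adjoin_le fun g hg => ?_
    obtain ⟨t, ht⟩ := hB.exists_tensor hg
    have key : ∀ u : TensorProduct R B B, (tmap B.val B.val u : M × M → L) ∈
        prodAlg (Algebra.adjoin R' (B : Set (M → L))) (Algebra.adjoin R' (B : Set (M → L))) := by
      intro u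
      induction u using TensorProduct.induction_on with
      | zero => rw [map_zero]; exact zero_mem _
      | tmul a b =>
        have e : (tmap B.val B.val (a ⊗ₜ[R] b) : M × M → L) =
            pull R' L Prod.fst (a : M → L) * pull R' L Prod.snd (b : M → L) := by
          funext ⟨z, w⟩
          simp
        rw [e]
        exact mul_mem
          (Algebra.mem_sup_left ⟨_, Algebra.subset_adjoin a.2, rfl⟩)
          (Algebra.mem_sup_right ⟨_, Algebra.subset_adjoin b.2, rfl⟩)
      | add a b ha hb => rw [map_add]; exact add_mem ha hb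
    have e : pull R' L (fun z : M × M => z.1 + z.2) g = tmap B.val B.val t := by
      funext ⟨z, w⟩
      exact (ht z w).symm
    rw [SetLike.mem_coe, Subalgebra.mem_comap, e]
    exact key t

/-- Congruence to the origin of a model passes to the larger base. -/
theorem congr_adjoin {Γ₀ : Type} [LinearOrderedCommGroupWithZero Γ₀] {v : Valuation L Γ₀}
    (hR' : ∀ r', v (algebraMap R' L r') ≤ 1) (hint : ∀ f ∈ B, ∀ x, v (f x) ≤ 1) {x : M}
    (h : ∀ f ∈ B, v (f x - f 0) < 1) {f : M → L}
    (hf : f ∈ Algebra.adjoin R' (B : Set (M → L))) : v (f x - f 0) < 1 := by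
  suffices key : (∀ y, v (f y) ≤ 1) ∧ v (f x - f 0) < 1 from key.2
  induction hf using Algebra.adjoin_induction with
  | mem g hg => exact ⟨hint g hg, h g hg⟩
  | algebraMap r => exact ⟨fun y => hR' r, by simp⟩
  | add g g' _ _ hg hg' =>
    refine ⟨fun y => v.map_add_le (hg.1 y) (hg'.1 y), ?_⟩
    rw [Pi.add_apply, Pi.add_apply, add_sub_add_comm]
    exact v.map_add_lt hg.2 hg'.2
  | mul g g' _ _ hg hg' =>
    refine ⟨fun y => by rw [Pi.mul_apply, map_mul]; exact mul_le_one' (hg.1 y) (hg'.1 y), ?_⟩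
    rw [Pi.mul_apply, Pi.mul_apply,
      show g x * g' x - g 0 * g' 0 = (g x - g 0) * g' x + g 0 * (g' x - g' 0) by ring]
    refine v.map_add_lt ?_ ?_
    · rw [map_mul]
      exact (mul_le_of_le_one_right' (hg'.1 x)).trans_lt hg.2
    · rw [map_mul]
      exact (mul_le_of_le_one_left' (hg.1 0)).trans_lt hg'.2

end BaseChange

variable {p : ℕ} [Fact p.Prime] {A : ValuationSubring Qbar}

/-- The fixed field of inertia. -/
abbrev inertiaFixed (A : ValuationSubring Qbar) : IntermediateField ℚ Qbar :=
  IntermediateField.fixedField (A.inertiaSubgroupIn ℚ)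

theorem apply_eq_self_of_mem_inertiaFixed {z : Qbar} (hz : z ∈ inertiaFixed A) {σ : GalQ}
    (hσ : σ ∈ A.inertiaSubgroupIn ℚ) : σ z = z :=
  (IntermediateField.mem_fixedField_iff _ z).mp hz σ hσ

theorem restrictScalars_mem_inertia (σ : Qbar ≃ₐ[inertiaFixed A] Qbar) :
    σ.restrictScalars ℚ ∈ A.inertiaSubgroupIn ℚ := by
  have h : σ.restrictScalars ℚ ∈ (inertiaFixed A).fixingSubgroup :=
    (IntermediateField.mem_fixingSubgroup_iff _ _).mpr fun z hz => σ.commutes ⟨z, hz⟩
  have e := InfiniteGalois.fixingSubgroup_fixedField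
    (⟨A.inertiaSubgroupIn ℚ, Galois.isClosed_inertia A⟩ : ClosedSubgroup GalQ)
  exact (SetLike.ext_iff.mp e _).mp h

/-- The valuation ring of the fixed field of inertia is principal. -/
theorem isPrincipalIdealRing_inertiaFixed (hA : A.LiesOverPrime p) :
    IsPrincipalIdealRing (A.comap (algebraMap (inertiaFixed A) Qbar)) := by
  have hp : p.Prime := Fact.out
  set O := A.comap (algebraMap (inertiaFixed A) Qbar)
  have hp0 : A.valuation (p : Qbar) ≠ 0 := ECFormal.valuation_natPrime_ne_zero hp A
  have hp1 : A.valuation (p : Qbar) < 1 := ECFormal.valuation_natPrime_lt_one hA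
  have hexp : ∀ x : O, x ≠ 0 → ∃ m : ℕ,
      A.valuation ((x : inertiaFixed A) : Qbar) = A.valuation (p : Qbar) ^ m := by
    intro x hx
    have hx0 : ((x : inertiaFixed A) : Qbar) ≠ 0 := fun h => hx (Subtype.ext (Subtype.ext h))
    obtain ⟨m, hm⟩ := ECFormal.valuation_eq_zpow_of_fixed hA hp hx0 fun σ hσ =>
      apply_eq_self_of_mem_inertiaFixed (x : inertiaFixed A).2 hσ
    have hle : A.valuation ((x : inertiaFixed A) : Qbar) ≤ 1 :=
      (A.valuation_le_one_iff _).mpr x.2
    obtain ⟨k, rfl⟩ := Int.eq_ofNat_of_zero_le (show 0 ≤ m by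
      by_contra hneg
      push Not at hneg
      rw [hm] at hle
      exact absurd hle (not_le.mpr (one_lt_zpow_of_neg₀ (zero_lt_iff.mpr hp0) hp1 hneg)))
    exact ⟨k, by rw [hm, zpow_natCast]⟩
  refine ⟨fun J => ?_⟩
  classical
  by_cases hJ : J = ⊥
  · subst hJ
    infer_instance
  have hex : ∃ m, ∃ x ∈ J, x ≠ 0 ∧
      A.valuation ((x : inertiaFixed A) : Qbar) = A.valuation (p : Qbar) ^ m := by
    obtain ⟨x, hx, hx0⟩ := Submodule.exists_mem_ne_zero_of_ne_bot hJ
    obtain ⟨m, hm⟩ := hexp x hx0
    exact ⟨m, x, hx, hx0, hm⟩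
  obtain ⟨x, hx, hx0, hxv⟩ := Nat.find_spec hex
  refine ⟨⟨x, le_antisymm (fun y hy => ?_) (Ideal.span_le.mpr (by simpa using hx))⟩⟩
  rw [Submodule.mem_span_singleton]
  by_cases hy0 : y = 0
  · exact ⟨0, by rw [hy0, zero_smul]⟩
  obtain ⟨m, hm⟩ := hexp y hy0
  have hle : Nat.find hex ≤ m := Nat.find_min' hex ⟨y, hy, hy0, hm⟩
  have hq : (y : inertiaFixed A) / (x : inertiaFixed A) ∈ O := by
    change algebraMap (inertiaFixed A) Qbar _ ∈ A
    rw [← A.valuation_le_one_iff, map_div₀, map_div₀]
    change A.valuation ((y : inertiaFixed A) : Qbar) / A.valuation ((x : inertiaFixed A) : Qbar) ≤ 1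
    rw [hm, hxv, div_le_one₀ (zero_lt_iff.mpr (pow_ne_zero _ hp0))]
    exact pow_le_pow_right_of_le_one' hp1.le hle
  refine ⟨⟨_, hq⟩, Subtype.ext ?_⟩
  exact div_mul_cancel₀ _ fun h => hx0 (Subtype.ext h)

/-- In the connected part of a model over `ℤ_(p)` an inertia element moving the `p`-th roots of
unity fixes only the origin of a subgroup with the inertia characters `1` and `χ`. -/
theorem eq_zero_of_connected_of_fixed {M : Type} [AddCommGroup M] [Finite M]
    {act : GalQ → M → M} {B : Subalgebra (GaloisRep.ratLocalizedAt p) (M → Qbar)} (hp2 : p ≠ 2)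
    (hB : IsModel ℚ act B) (hA : A.LiesOverPrime p) {n : ℕ} (U : AddSubgroup M)
    (hpn : ∀ x ∈ U, p ^ n • x = 0) (hconn : ∀ x ∈ U, ∀ f ∈ B, f x - f 0 ∈ A.nonunits)
    (hUI : ∀ g ∈ A.inertiaSubgroupIn ℚ, ∀ x ∈ U, act g x ∈ U)
    {ζ : Qbar} (hζ : IsPrimitiveRoot ζ p)
    (hfac : ∀ g ∈ A.inertiaSubgroupIn ℚ, ∀ c : ℕ, g ζ = ζ ^ c → ∀ x ∈ U,
      ∃ N, (facOp (act g) c)^[N] x = 0)
    {s₀ : GalQ} (hs₀ : s₀ ∈ A.inertiaSubgroupIn ℚ) (hs₀ζ : s₀ ζ ≠ ζ)
    {x : M} (hx : x ∈ U) (hfix : act s₀ x = x) : x = 0 := by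
  have hp : p.Prime := Fact.out
  set K' := inertiaFixed A
  set R' := A.comap (algebraMap K' Qbar)
  have : IsPrincipalIdealRing R' := isPrincipalIdealRing_inertiaFixed hA
  have hR : ∀ r, A.valuation (algebraMap (GaloisRep.ratLocalizedAt p) Qbar r) ≤ 1 := fun r => by
    rw [A.valuation_le_one_iff, IsScalarTower.algebraMap_apply (GaloisRep.ratLocalizedAt p) ℚ Qbar,
      eq_ratCast]
    exact FFG.OrderL.ratLocalized_mem hA r
  have hR' : ∀ r : R', A.valuation (algebraMap R' Qbar r) ≤ 1 := fun r =>
    (A.valuation_le_one_iff _).mpr r.2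
  have hB' := isModel_adjoin (R' := R') (K' := K') hB
    (fun r => ⟨⟨algebraMap ℚ K' (algebraMap (GaloisRep.ratLocalizedAt p) ℚ r), by
      change algebraMap ℚ Qbar (algebraMap (GaloisRep.ratLocalizedAt p) ℚ r) ∈ A
      rw [← A.valuation_le_one_iff]
      exact hR r⟩,
      ((IsScalarTower.algebraMap_apply ℚ K' Qbar _).symm.trans
        (IsScalarTower.algebraMap_apply (GaloisRep.ratLocalizedAt p) ℚ Qbar r).symm)⟩)
    fun r' => ⟨r', rfl⟩
  let actU : (Qbar ≃ₐ[K'] Qbar) → U → U := fun σ y =>
    ⟨act (σ.restrictScalars ℚ) y, hUI _ (restrictScalars_mem_inertia σ) y y.2⟩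
  have hBU := hB'.map_of_injective (actN := actU) U.subtype Subtype.val_injective fun σ y => rfl
  let t₀ : Qbar ≃ₐ[K'] Qbar :=
    AlgEquiv.ofRingEquiv (f := s₀.toRingEquiv) fun z => apply_eq_self_of_mem_inertiaFixed z.2 hs₀
  have ht₀ : t₀.restrictScalars ℚ = s₀ := AlgEquiv.ext fun _ => rfl
  have hdisc : ∀ z : Qbar, (∀ σ : Qbar ≃ₐ[K'] Qbar, σ z = z) → A.valuation z < 1 →
      A.valuation z ≤ A.valuation (p : Qbar) := by
    intro z hz hlt
    rcases eq_or_ne z 0 with rfl | hz0
    · simp
    obtain ⟨c, rfl⟩ := (InfiniteGalois.mem_range_algebraMap_iff_fixed z).mpr hz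
    obtain ⟨m, hm⟩ := ECFormal.valuation_eq_zpow_of_fixed hA hp hz0 fun σ hσ =>
      apply_eq_self_of_mem_inertiaFixed c.2 hσ
    rw [hm] at hlt ⊢
    have hpos := zero_lt_iff.mpr (ECFormal.valuation_natPrime_ne_zero hp A)
    have hp1 := ECFormal.valuation_natPrime_lt_one hA
    have hm1 : 1 ≤ m := by
      by_contra hneg
      push Not at hneg
      exact absurd hlt (not_lt.mpr (one_le_zpow_of_nonpos₀ hpos hp1.le (by omega)))
    conv_rhs => rw [← zpow_one (A.valuation (p : Qbar))]
    exact zpow_le_zpow_right_of_le_one₀ hpos hp1.le hm1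
  have hsemi : ∀ (σ : Qbar ≃ₐ[K'] Qbar) (c : ℕ),
      Function.Semiconj U.subtype (facOp (actU σ) c) (facOp (act (σ.restrictScalars ℚ)) c) :=
    fun σ c y => rfl
  have hzero : (⟨x, hx⟩ : U) = 0 := by
    refine eq_zero_of_connected_of_tame_fixed (v := A.valuation) hp2 hR'
      (ECFormal.valuation_natPrime_ne_zero hp A) (ECFormal.valuation_natPrime_lt_one hA) hdisc hζ
      (s₀ := t₀) hs₀ζ hBU ?_ (fun y => Subtype.ext (hpn y y.2)) ?_
      (Subtype.ext (by change act (t₀.restrictScalars ℚ) x = x; rw [ht₀, hfix]))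
    · rintro y _ ⟨g, hg, rfl⟩
      exact congr_adjoin hR' (fun f hf z => hB.valuation_le_one hR hf z)
        (fun f hf => A.mem_nonunits_iff.mp (hconn y y.2 f hf)) hg
    · intro σ c hc y
      obtain ⟨N, hN⟩ := hfac _ (restrictScalars_mem_inertia σ) c hc y y.2
      exact ⟨N, Subtype.ext (((hsemi σ c).iterate_right N y).trans hN)⟩
  exact congrArg Subtype.val hzero

end Fermat.Agent.BAD.Ordinary
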