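import Fermat.Agent.BAD.Ordinary.ConnFixed

/-!
# Constant fields with discrete valuation and full residue field

Finite extensions, inside the algebraic numbers, of the fixed field of inertia.
-/

set_option autoImplicit false

noncomputable section

open IsLocalRing

namespace Fermat.Agent.BAD.Ordinary

/-- A field of constants on which the place is discrete, with the full residue field. -/
structure Consts {L : Type} [Field L] (A : ValuationSubring L) where
  K : Subfield L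
  ϖ : L
  ϖ_mem : ϖ ∈ K
  ϖ_ne : ϖ ≠ 0
  ϖ_lt : A.valuation ϖ < 1
  exists_eq : ∀ x ∈ K, x ≠ 0 → ∃ i : ℤ, A.valuation x = A.valuation ϖ ^ i
  exists_res : ∀ y : ResidueField A, ∃ a : A, (a : L) ∈ K ∧ residue A a = y

open Fermat.Agent.Galois (Qbar GalQ)

variable {p : ℕ} [Fact p.Prime] {A : ValuationSubring Qbar}

/-- Residues lift to elements fixed by inertia. -/
theorem exists_fixed_residue (hA : A.LiesOverPrime p) (y : ResidueField A) :
    ∃ a : A, (∀ σ ∈ A.inertiaSubgroupIn ℚ, σ (a : Qbar) = a) ∧ residue A a = y := by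
  classical
  have hp : p.Prime := Fact.out
  have := Galois.place_charP_residueField hA hp
  rcases eq_or_ne y 0 with rfl | hy
  · exact ⟨0, fun σ _ => map_zero σ, map_zero _⟩
  obtain ⟨k, hk, hy'⟩ := Galois.place_exists_pow_eq hA hp y
  have hq : 2 ≤ p ^ k := hp.two_le.trans (Nat.le_self_pow (by omega) p)
  set m := p ^ k - 1
  have hm : ¬ p ∣ m := by
    intro h
    have h1 := Nat.dvd_sub (dvd_pow_self p (show k ≠ 0 by omega)) h
    rw [show p ^ k - m = 1 by omega, Nat.dvd_one] at h1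
    exact hp.ne_one h1
  have hym : y ^ m = 1 := by
    refine mul_right_cancel₀ hy ?_
    rw [← pow_succ, show m + 1 = p ^ k by omega, hy', one_mul]
  have hm0 : 0 < m := by omega
  have : NeZero (m : Qbar) := ⟨Nat.cast_ne_zero.mpr hm0.ne'⟩
  obtain ⟨ω, hω⟩ := HasEnoughRootsOfUnity.exists_primitiveRoot Qbar m
  have hωA : ω ∈ A := Galois.rootOfUnity_mem_place A hm0.ne' hω.pow_eq_one
  have hinj : ∀ i < m, ∀ j < m,
      residue A (⟨ω, hωA⟩ : A) ^ i = residue A (⟨ω, hωA⟩ : A) ^ j → i = j := by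
    intro i hi j hj h
    rw [← map_pow, ← map_pow, Galois.residue_eq_residue_iff] at h
    refine hω.pow_inj hi hj (Galois.rootOfUnity_eq_of_sub_mem_nonunits hA hp hm ?_ ?_ ?_)
    · rw [← pow_mul, mul_comm, pow_mul, hω.pow_eq_one, one_pow]
    · rw [← pow_mul, mul_comm, pow_mul, hω.pow_eq_one, one_pow]
    · simpa using h
  have hprim : IsPrimitiveRoot (residue A (⟨ω, hωA⟩ : A)) m := by
    refine IsPrimitiveRoot.mk_of_lt _ hm0 ?_ fun l hl hlm h => ?_
    · rw [← map_pow, show (⟨ω, hωA⟩ : A) ^ m = 1 from Subtype.ext hω.pow_eq_one, map_one]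
    · exact hl.ne' (hinj l hlm 0 hm0 (by rw [h, pow_zero]))
  have : NeZero m := ⟨hm0.ne'⟩
  obtain ⟨i, -, hi⟩ := hprim.eq_pow_of_pow_eq_one hym
  refine ⟨(⟨ω, hωA⟩ : A) ^ i, fun σ hσ => ?_, by rw [map_pow, hi]⟩
  change σ (ω ^ i) = ω ^ i
  rw [map_pow, Galois.inertia_apply_rootOfUnity hA hp hσ hm hω.pow_eq_one]

/-- A finite set of algebraic numbers lies in a field of constants stable under inertia. -/
theorem exists_consts (hA : A.LiesOverPrime p) {s : Set Qbar} (hs : s.Finite) :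
    ∃ Q : Consts A, s ⊆ Q.K ∧ (∀ z : Qbar, (∀ σ ∈ A.inertiaSubgroupIn ℚ, σ z = z) → z ∈ Q.K) ∧
      ∀ σ ∈ A.inertiaSubgroupIn ℚ, ∀ x ∈ Q.K, σ x ∈ Q.K := by
  classical
  have hp : p.Prime := Fact.out
  have := hs.to_subtype
  obtain ⟨L₀, hN, hFD, hsL⟩ := ECFormal.exists_normal_level s
  set I := A.inertiaSubgroupIn ℚ
  set K : IntermediateField ℚ Qbar := inertiaFixed A ⊔ L₀
  let r : GalQ →* (L₀ ≃ₐ[ℚ] L₀) := AlgEquiv.restrictNormalHom L₀
  have hagree : ∀ σ ∈ I, ∀ τ ∈ I, r σ = r τ → ∀ x ∈ K, σ x = τ x := by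
    intro σ hσ τ hτ h x hx
    have hmem : τ⁻¹ * σ ∈ K.fixingSubgroup := by
      rw [IntermediateField.fixingSubgroup_sup, Subgroup.mem_inf]
      refine ⟨(IntermediateField.mem_fixingSubgroup_iff _ _).mpr fun z hz =>
        apply_eq_self_of_mem_inertiaFixed hz (mul_mem (inv_mem hτ) hσ), ?_⟩
      refine (IntermediateField.mem_fixingSubgroup_iff _ _).mpr fun z hz => ?_
      have h1 : r (τ⁻¹ * σ) = 1 := by rw [map_mul, map_inv, h, inv_mul_cancel]
      have h2 := AlgEquiv.restrictNormal_commutes (τ⁻¹ * σ) L₀ ⟨z, hz⟩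
      rw [show (τ⁻¹ * σ).restrictNormal L₀ = 1 from h1] at h2
      exact h2.symm
    have h3 := (IntermediateField.mem_fixingSubgroup_iff _ _).mp hmem x hx
    rw [AlgEquiv.mul_apply, AlgEquiv.aut_inv, AlgEquiv.symm_apply_eq] at h3
    exact h3
  let H := I.map r
  have hlift : ∀ h : H, ∃ σ ∈ I, r σ = h := fun h => Subgroup.mem_map.mp h.2
  choose lift hliftI hliftr using hlift
  have : Fintype H := Fintype.ofFinite H
  have hv : ∀ x ∈ K, x ≠ 0 →
      ∃ m : ℤ, A.valuation x ^ Fintype.card H = A.valuation (p : Qbar) ^ m := by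
    intro x hx hx0
    have hfix : ∀ τ ∈ I, τ (∏ h, lift h x) = ∏ h, lift h x := by
      intro τ hτ
      rw [map_prod]
      refine Fintype.prod_equiv (Equiv.mulLeft (⟨r τ, Subgroup.mem_map_of_mem r hτ⟩ : H)) _ _
        fun h => ?_
      rw [← AlgEquiv.mul_apply]
      exact hagree _ (mul_mem hτ (hliftI h)) _ (hliftI _)
        (by rw [map_mul, hliftr, hliftr]; rfl) x hx
    obtain ⟨m, hm⟩ := ECFormal.valuation_eq_zpow_of_fixed hA hp
      (Finset.prod_ne_zero_iff.mpr fun h _ => (map_ne_zero (lift h)).mpr hx0) hfix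
    refine ⟨m, ?_⟩
    rw [← hm, map_prod, Finset.prod_congr rfl fun h _ =>
      ECFormal.valuation_apply_of_mem_decomposition
        (Galois.inertia_le_decomposition A (hliftI h)) hA hp x, Finset.prod_const, Finset.card_univ]
  have hp0 : A.valuation (p : Qbar) ≠ 0 := ECFormal.valuation_natPrime_ne_zero hp A
  have hp1 : A.valuation (p : Qbar) < 1 := ECFormal.valuation_natPrime_lt_one hA
  have hex : ∃ m : ℕ, 0 < m ∧ ∃ x ∈ K, x ≠ 0 ∧
      A.valuation x ^ Fintype.card H = A.valuation (p : Qbar) ^ (m : ℤ) :=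
    ⟨Fintype.card H, Fintype.card_pos, (p : Qbar), natCast_mem K p, Nat.cast_ne_zero.mpr hp.ne_zero,
      (zpow_natCast _ _).symm⟩
  obtain ⟨hm0, ϖ, hϖ, hϖ0, hϖv⟩ := Nat.find_spec hex
  set m₀ := Nat.find hex
  have hd : Fintype.card H ≠ 0 := Fintype.card_ne_zero
  have hϖlt : A.valuation ϖ < 1 := (pow_lt_one_iff hd).mp (by
    rw [hϖv, zpow_natCast]
    exact pow_lt_one' hp1 hm0.ne')
  refine ⟨{ K := K.toSubfield, ϖ := ϖ, ϖ_mem := hϖ, ϖ_ne := hϖ0, ϖ_lt := hϖlt,
            exists_eq := ?_, exists_res := ?_ }, ?_, ?_, ?_⟩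
  · intro x hx hx0
    obtain ⟨m, hm⟩ := hv x hx hx0
    refine ⟨m / m₀, ?_⟩
    set z := x / ϖ ^ (m / m₀)
    have hz : z ∈ K := div_mem hx (zpow_mem hϖ _)
    have hzv : A.valuation z ^ Fintype.card H = A.valuation (p : Qbar) ^ (m % (m₀ : ℤ)) := by
      have hswap : ∀ (a : A.ValueGroup) (i : ℤ),
          (a ^ i) ^ Fintype.card H = (a ^ Fintype.card H) ^ i := fun a i => by
        rw [← zpow_natCast, ← zpow_natCast, ← zpow_mul, ← zpow_mul, mul_comm]
      rw [map_div₀, map_zpow₀, div_pow, hm, hswap, hϖv, ← zpow_mul, ← zpow_sub₀ hp0]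
      congr 1
      linarith [Int.emod_add_mul_ediv m (m₀ : ℤ)]
    have hr := Int.emod_nonneg m (Int.natCast_ne_zero.mpr hm0.ne')
    have hr' := Int.emod_lt_of_pos m (show (0 : ℤ) < m₀ by exact_mod_cast hm0)
    obtain ⟨r', hr''⟩ := Int.eq_ofNat_of_zero_le hr
    have hr0 : r' = 0 := by
      by_contra h
      refine Nat.find_min hex (show r' < m₀ by omega) ⟨Nat.pos_of_ne_zero h, z, hz, ?_, ?_⟩
      · exact div_ne_zero hx0 (zpow_ne_zero _ hϖ0)
      · rw [hzv, hr'']
    rw [hr'', hr0, Nat.cast_zero, zpow_zero] at hzv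
    have h1 : A.valuation z = 1 := (pow_eq_one_iff.mp hzv).resolve_right hd
    rwa [map_div₀, map_zpow₀, div_eq_one_iff_eq
      (zpow_ne_zero _ ((map_ne_zero _).mpr hϖ0))] at h1
  · intro y
    obtain ⟨a, ha, hay⟩ := exists_fixed_residue hA y
    exact ⟨a, le_sup_left (b := L₀) ((IntermediateField.mem_fixedField_iff _ _).mpr ha), hay⟩
  · exact fun x hx => le_sup_right (a := inertiaFixed A) (hsL hx)
  · exact fun z hz => le_sup_left (b := L₀) ((IntermediateField.mem_fixedField_iff _ _).mpr hz)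
  · intro σ hσ x hx
    have hle : K ≤ K.comap (σ : Qbar →ₐ[ℚ] Qbar) := sup_le
      (fun z hz => le_sup_left (b := L₀) (by
        change (σ : Qbar →ₐ[ℚ] Qbar) z ∈ inertiaFixed A
        rw [AlgEquiv.coe_toAlgHom, apply_eq_self_of_mem_inertiaFixed hz hσ]
        exact hz))
      (fun z hz => le_sup_right (a := inertiaFixed A) (ECFormal.apply_mem_level σ hz))
    exact hle hx

end Fermat.Agent.BAD.Ordinary
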