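import Mathlib.RingTheory.Valuation.ValuationSubring
import Mathlib.RingTheory.RootsOfUnity.PrimitiveRoots
import Mathlib.Algebra.CharP.Lemmas
import Mathlib.RingTheory.RootsOfUnity.Lemmas
import Mathlib.FieldTheory.KummerPolynomial

/-!
# Congruences in a discretely valued field with a residue map

`x` congruent to `1` modulo powers of the uniformiser, and the behaviour of `p`-th powers around
the level of `ζ - 1`.
-/

set_option autoImplicit false

noncomputable section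

namespace Fermat.Agent.BAD.Ordinary

variable {𝔉 κ : Type*} [Field 𝔉] [Field κ]

/-- A discretely valued field together with a residue map. -/
structure DiscRed (𝔉 κ : Type*) [Field 𝔉] [Field κ] where
  O : ValuationSubring 𝔉
  res : O →+* κ
  ϖ : 𝔉
  ϖ_mem : ϖ ∈ O
  ϖ_ne_zero : ϖ ≠ 0
  res_ϖ : res ⟨ϖ, ϖ_mem⟩ = 0
  exists_eq : ∀ x : 𝔉, x ≠ 0 → ∃ (i : ℤ) (u : O), res u ≠ 0 ∧ x = ϖ ^ i * u

namespace DiscRed

variable (D : DiscRed 𝔉 κ)

open Classical in
/-- The residue, extended by zero. -/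
def red (x : 𝔉) : κ := if h : x ∈ D.O then D.res ⟨x, h⟩ else 0

variable {D}

theorem red_coe (x : D.O) : D.red (x : 𝔉) = D.res x := by rw [red, dif_pos x.2]

theorem red_of_mem {x : 𝔉} (h : x ∈ D.O) : D.red x = D.res ⟨x, h⟩ := dif_pos h

theorem red_ϖ : D.red D.ϖ = 0 := by rw [red_of_mem D.ϖ_mem, D.res_ϖ]

@[simp] theorem red_zero : D.red 0 = 0 := by rw [red_of_mem (zero_mem D.O)]; exact map_zero D.res

@[simp] theorem red_one : D.red 1 = 1 := by rw [red_of_mem (one_mem D.O)]; exact map_one D.res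

theorem red_natCast (n : ℕ) : D.red (n : 𝔉) = n := by
  rw [red_of_mem (natCast_mem D.O n)]
  exact map_natCast D.res n

variable {x y : 𝔉}

theorem red_add (hx : x ∈ D.O) (hy : y ∈ D.O) : D.red (x + y) = D.red x + D.red y := by
  rw [red_of_mem hx, red_of_mem hy, red_of_mem (add_mem hx hy), ← map_add]; rfl

theorem red_sub (hx : x ∈ D.O) (hy : y ∈ D.O) : D.red (x - y) = D.red x - D.red y := by
  rw [red_of_mem hx, red_of_mem hy, red_of_mem (sub_mem hx hy), ← map_sub]; rfl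

theorem red_mul (hx : x ∈ D.O) (hy : y ∈ D.O) : D.red (x * y) = D.red x * D.red y := by
  rw [red_of_mem hx, red_of_mem hy, red_of_mem (mul_mem hx hy), ← map_mul]; rfl

theorem red_pow (hx : x ∈ D.O) (n : ℕ) : D.red (x ^ n) = D.red x ^ n := by
  rw [red_of_mem hx, red_of_mem (pow_mem hx n), ← map_pow]; rfl

theorem inv_mem (hx : x ∈ D.O) (h : D.red x ≠ 0) : x⁻¹ ∈ D.O := by
  have hx0 : x ≠ 0 := fun h0 => h (by rw [h0, red_zero])
  obtain ⟨i, u, hu, hxu⟩ := D.exists_eq x⁻¹ (inv_ne_zero hx0)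
  rcases Int.eq_nat_or_neg i with ⟨n, rfl | rfl⟩
  · rw [hxu, zpow_natCast]; exact mul_mem (pow_mem D.ϖ_mem n) u.2
  · rcases n.eq_zero_or_pos with rfl | hn
    · simp [hxu]
    · have hmul : x * (u : 𝔉) = D.ϖ ^ n := by
        rw [← eq_inv_mul_iff_mul_eq₀ hx0, hxu, zpow_neg, zpow_natCast]
        field_simp [pow_ne_zero n D.ϖ_ne_zero]
      have := red_mul hx u.2
      rw [hmul, red_pow D.ϖ_mem, red_ϖ, zero_pow hn.ne', red_coe] at this
      exact absurd this.symm (mul_ne_zero h hu)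

theorem red_inv (hx : x ∈ D.O) (h : D.red x ≠ 0) : D.red x⁻¹ = (D.red x)⁻¹ := by
  have hx0 : x ≠ 0 := fun h0 => h (by rw [h0, red_zero])
  refine eq_inv_of_mul_eq_one_left ?_
  rw [← red_mul (inv_mem hx h) hx, inv_mul_cancel₀ hx0, red_one]

variable (D) in
/-- `x` is divisible by the `j`-th power of the uniformiser. -/
def Cong (j : ℕ) (x : 𝔉) : Prop := x / D.ϖ ^ j ∈ D.O

variable (D) in
/-- `x` is congruent to `1` modulo the `j`-th power of the uniformiser. -/
def One (j : ℕ) (x : 𝔉) : Prop := D.Cong j (x - 1)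

variable {i j : ℕ}

theorem pow_ne (j : ℕ) : D.ϖ ^ j ≠ 0 := pow_ne_zero _ D.ϖ_ne_zero

theorem cong_zero_iff : D.Cong 0 x ↔ x ∈ D.O := by simp [Cong]

theorem cong_zero (j : ℕ) : D.Cong j (0 : 𝔉) := by simp [Cong, zero_mem]

theorem cong_pow_mul (hy : y ∈ D.O) (j : ℕ) : D.Cong j (D.ϖ ^ j * y) := by
  simpa [Cong, D.ϖ_ne_zero] using hy

theorem Cong.exists_eq (h : D.Cong j x) : ∃ y ∈ D.O, x = D.ϖ ^ j * y :=
  ⟨_, h, by field_simp [pow_ne (D := D) j]⟩

theorem Cong.mem (h : D.Cong j x) : x ∈ D.O := by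
  obtain ⟨y, hy, rfl⟩ := h.exists_eq
  exact mul_mem (pow_mem D.ϖ_mem j) hy

theorem Cong.mono (h : D.Cong j x) (hij : i ≤ j) : D.Cong i x := by
  obtain ⟨y, hy, rfl⟩ := h.exists_eq
  obtain ⟨d, rfl⟩ := Nat.exists_eq_add_of_le hij
  rw [pow_add, mul_assoc]
  exact cong_pow_mul (mul_mem (pow_mem D.ϖ_mem d) hy) i

theorem Cong.add (hx : D.Cong j x) (hy : D.Cong j y) : D.Cong j (x + y) := by
  simpa [Cong, add_div] using add_mem hx hy

theorem Cong.neg (hx : D.Cong j x) : D.Cong j (-x) := by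
  simpa [Cong, neg_div] using neg_mem hx

theorem Cong.sub (hx : D.Cong j x) (hy : D.Cong j y) : D.Cong j (x - y) := by
  simpa [sub_eq_add_neg] using hx.add hy.neg

theorem Cong.mul (hx : D.Cong i x) (hy : D.Cong j y) : D.Cong (i + j) (x * y) := by
  obtain ⟨a, ha, rfl⟩ := hx.exists_eq
  obtain ⟨b, hb, rfl⟩ := hy.exists_eq
  rw [show D.ϖ ^ i * a * (D.ϖ ^ j * b) = D.ϖ ^ (i + j) * (a * b) by ring]
  exact cong_pow_mul (mul_mem ha hb) _

theorem Cong.mul_right (hx : D.Cong j x) (hy : y ∈ D.O) : D.Cong j (x * y) :=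
  hx.mul (cong_zero_iff.mpr hy)

theorem Cong.mul_left (hx : D.Cong j x) (hy : y ∈ D.O) : D.Cong j (y * x) :=
  mul_comm x y ▸ hx.mul_right hy

theorem Cong.pow (hx : D.Cong j x) (n : ℕ) : D.Cong (n * j) (x ^ n) := by
  induction n with
  | zero => simp [cong_zero_iff, one_mem]
  | succ n ih => rw [Nat.succ_mul, pow_succ]; exact ih.mul hx

theorem cong_sum {ι : Type*} (s : Finset ι) (f : ι → 𝔉) (h : ∀ k ∈ s, D.Cong j (f k)) :
    D.Cong j (∑ k ∈ s, f k) :=
  Finset.sum_induction _ _ (fun _ _ => Cong.add) (cong_zero j) h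

theorem Cong.red_eq_zero (hx : D.Cong j x) (hj : j ≠ 0) : D.red x = 0 := by
  obtain ⟨y, hy, rfl⟩ := hx.exists_eq
  rw [red_mul (pow_mem D.ϖ_mem j) hy, red_pow D.ϖ_mem, red_ϖ, zero_pow hj, zero_mul]

theorem cong_one_of_red_eq_zero (hx : x ∈ D.O) (h : D.red x = 0) : D.Cong 1 x := by
  rcases eq_or_ne x 0 with rfl | hx0
  · exact cong_zero 1
  obtain ⟨i, u, hu, rfl⟩ := D.exists_eq x hx0
  rcases Int.eq_nat_or_neg i with ⟨n, rfl | rfl⟩
  · rcases n.eq_zero_or_pos with rfl | hn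
    · exact absurd (by simpa [red_coe] using h) hu
    · rw [zpow_natCast]
      exact (cong_pow_mul u.2 n).mono hn
  · rcases n.eq_zero_or_pos with rfl | hn
    · exact absurd (by simpa [red_coe] using h) hu
    · have hmul : D.ϖ ^ (-(n : ℤ)) * (u : 𝔉) * D.ϖ ^ n = (u : 𝔉) := by
        rw [zpow_neg, zpow_natCast]
        field_simp [pow_ne (D := D) n]
      have := red_mul hx (pow_mem D.ϖ_mem n)
      rw [hmul, h, zero_mul, red_coe] at this
      exact absurd this hu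

theorem Cong.succ (hx : D.Cong j x) (h : D.red (x / D.ϖ ^ j) = 0) : D.Cong (j + 1) x := by
  obtain ⟨y, hy, hxy⟩ := (cong_one_of_red_eq_zero hx h).exists_eq
  have : x = D.ϖ ^ (j + 1) * y := by
    rw [pow_succ, mul_assoc, ← pow_one D.ϖ, ← pow_mul, one_mul, pow_one]
    calc x = D.ϖ ^ j * (x / D.ϖ ^ j) := by field_simp [pow_ne (D := D) j]
      _ = _ := by rw [hxy, pow_one]
  exact this ▸ cong_pow_mul hy _

theorem cong_of_mul_unit {u : 𝔉} (hu : u ∈ D.O) (hu0 : D.red u ≠ 0) (h : D.Cong j (x * u)) :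
    D.Cong j x := by
  have h0 : u ≠ 0 := fun h0 => hu0 (by rw [h0, red_zero])
  simpa [mul_assoc, mul_inv_cancel₀ h0] using h.mul_right (inv_mem hu hu0)

theorem cong_of_pow_mul (h : D.Cong (i + j) (D.ϖ ^ i * x)) : D.Cong j x := by
  obtain ⟨y, hy, hxy⟩ := h.exists_eq
  rw [pow_add, mul_assoc] at hxy
  exact mul_left_cancel₀ (pow_ne i) hxy ▸ cong_pow_mul hy j

theorem one_one (j : ℕ) : D.One j (1 : 𝔉) := by simp [One, cong_zero]

theorem one_zero_iff : D.One 0 x ↔ x ∈ D.O := by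
  rw [One, cong_zero_iff]
  exact ⟨fun h => sub_add_cancel x 1 ▸ add_mem h (one_mem _), fun h => sub_mem h (one_mem _)⟩

theorem One.mem (hx : D.One j x) : x ∈ D.O :=
  sub_add_cancel x 1 ▸ add_mem (Cong.mem hx) (one_mem _)

theorem One.mono (hx : D.One j x) (hij : i ≤ j) : D.One i x := Cong.mono hx hij

theorem One.red_eq_one (hx : D.One j x) (hj : j ≠ 0) : D.red x = 1 := by
  have h := Cong.red_eq_zero hx hj
  rwa [red_sub hx.mem (one_mem _), red_one, sub_eq_zero] at h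

theorem one_one_of_red_eq_one (hx : x ∈ D.O) (h : D.red x = 1) : D.One 1 x :=
  cong_one_of_red_eq_zero (sub_mem hx (one_mem _))
    (by rw [red_sub hx (one_mem _), h, red_one, sub_self])

theorem One.mul (hx : D.One j x) (hy : D.One j y) : D.One j (x * y) := by
  have h := (Cong.mul_right hx (One.mem hy)).add hy
  rw [One]
  rwa [show (x - 1) * y + (y - 1) = x * y - 1 by ring] at h

theorem One.ne_zero (hx : D.One j x) (hj : j ≠ 0) : x ≠ 0 := fun h =>
  one_ne_zero (α := κ) (by rw [← hx.red_eq_one hj, h, red_zero])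

theorem One.inv (hx : D.One j x) (hj : j ≠ 0) : D.One j x⁻¹ := by
  have h1 := hx.red_eq_one hj
  have h := (Cong.mul_right hx (inv_mem hx.mem (by rw [h1]; exact one_ne_zero))).neg
  rw [One]
  rwa [show -((x - 1) * x⁻¹) = x⁻¹ - 1 by
    rw [sub_mul, mul_inv_cancel₀ (hx.ne_zero hj), one_mul, neg_sub]] at h

theorem One.div (hx : D.One j x) (hy : D.One j y) (hj : j ≠ 0) : D.One j (x / y) :=
  div_eq_mul_inv x y ▸ hx.mul (hy.inv hj)

theorem One.pow (hx : D.One j x) (n : ℕ) : D.One j (x ^ n) := by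
  induction n with
  | zero => simpa using one_one j
  | succ n ih => rw [pow_succ]; exact ih.mul hx

variable (D) in
/-- A primitive `p`-th root of unity whose distance to `1` has level `l`. -/
structure RootLevel (p : ℕ) where
  l : ℕ
  l_pos : 0 < l
  ζ : 𝔉
  ζ_prim : IsPrimitiveRoot ζ p
  unit : 𝔉
  unit_mem : unit ∈ D.O
  unit_ne : D.red unit ≠ 0
  sub_one : ζ - 1 = D.ϖ ^ l * unit

namespace RootLevel

variable {p : ℕ} [Fact p.Prime] [CharP κ p] (R : D.RootLevel p)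

omit [CharP κ p] [Fact p.Prime] in
theorem ζ_one : D.One R.l R.ζ := by
  rw [One, R.sub_one]; exact cong_pow_mul R.unit_mem _

omit [CharP κ p] [Fact p.Prime] in
theorem red_geom (c : ℕ) : D.red (∑ k ∈ Finset.range c, R.ζ ^ k) = c := by
  induction c with
  | zero => simp
  | succ c ih =>
    have hm : (∑ k ∈ Finset.range c, R.ζ ^ k) ∈ D.O := sum_mem fun k _ => pow_mem R.ζ_one.mem k
    rw [Finset.sum_range_succ, red_add hm (pow_mem R.ζ_one.mem c), ih,
      (R.ζ_one.pow c).red_eq_one R.l_pos.ne', Nat.cast_succ]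

omit [CharP κ p] [Fact p.Prime] in
/-- The differences `x - ζ ^ i`, `0 < i < p`, have exact level `l` when `x` is closer to `1`. -/
theorem sub_pow {c : ℕ} (hx : D.One (R.l + 1) x) :
    ∃ w ∈ D.O, D.red w = - ((c : κ) * D.red R.unit) ∧ x - R.ζ ^ c = D.ϖ ^ R.l * w := by
  obtain ⟨y, hy, hxy⟩ := Cong.exists_eq hx
  have hg : (∑ k ∈ Finset.range c, R.ζ ^ k) ∈ D.O := sum_mem fun k _ => pow_mem R.ζ_one.mem k
  refine ⟨D.ϖ * y - (∑ k ∈ Finset.range c, R.ζ ^ k) * R.unit,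
    sub_mem (mul_mem D.ϖ_mem hy) (mul_mem hg R.unit_mem), ?_, ?_⟩
  · rw [red_sub (mul_mem D.ϖ_mem hy) (mul_mem hg R.unit_mem), red_mul D.ϖ_mem hy, red_ϖ,
      red_mul hg R.unit_mem, R.red_geom, zero_mul, zero_sub]
  · have hgeom := geom_sum_mul R.ζ c
    rw [R.sub_one] at hgeom
    rw [pow_succ] at hxy
    linear_combination hxy + hgeom

/-- The level of `p`. -/
abbrev e : ℕ := (p - 1) * R.l

/-- For `x` closer to `1` than `ζ`, the map `x ↦ x ^ p` shifts the level by that of `p`. -/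
theorem pow_sub_one :
    ∃ u ∈ D.O, D.red u ≠ 0 ∧ (p : 𝔉) = D.ϖ ^ R.e * u ∧
      ∀ x, D.One (R.l + 1) x →
        ∃ w ∈ D.O, D.red w = D.red u ∧ x ^ p - 1 = (x - 1) * (D.ϖ ^ R.e * w) := by
  have hp : p.Prime := Fact.out
  obtain ⟨n, hn⟩ : ∃ n, p = n + 1 := ⟨p - 1, by have := hp.one_le; omega⟩
  have he : R.e = n * R.l := congrArg (· * R.l) (by omega)
  have hev : ∀ x : 𝔉, x ^ p - 1 = (x - 1) * ∏ i ∈ Finset.range n, (x - R.ζ ^ (i + 1)) := by
    intro x
    have h := congrArg (Polynomial.eval x)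
      (X_pow_sub_C_eq_prod R.ζ_prim hp.pos (one_pow p : (1 : 𝔉) ^ p = 1))
    simp only [Polynomial.eval_prod, Polynomial.eval_sub, Polynomial.eval_pow, Polynomial.eval_X,
      Polynomial.eval_C, mul_one] at h
    rw [h, show Finset.range p = Finset.range (n + 1) from congrArg Finset.range hn,
      Finset.prod_range_succ', pow_zero, mul_comm]
  have key : ∀ x, D.One (R.l + 1) x → ∃ w ∈ D.O,
      D.red w = ∏ i ∈ Finset.range n, - (((i + 1 : ℕ) : κ) * D.red R.unit) ∧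
      ∏ i ∈ Finset.range n, (x - R.ζ ^ (i + 1)) = D.ϖ ^ R.e * w := by
    intro x hx
    choose w hw hred heq using fun i : ℕ => R.sub_pow (c := i + 1) hx
    refine ⟨∏ i ∈ Finset.range n, w i, prod_mem fun i _ => hw i, ?_, ?_⟩
    · have hprod : ∀ t : Finset ℕ, D.red (∏ i ∈ t, w i) = ∏ i ∈ t, D.red (w i) := by
        intro t
        induction t using Finset.induction_on with
        | empty => simp
        | insert a t ha ih =>
          rw [Finset.prod_insert ha, Finset.prod_insert ha,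
            red_mul (hw a) (prod_mem fun i _ => hw i), ih]
      rw [hprod]
      exact Finset.prod_congr rfl fun i _ => hred i
    · rw [Finset.prod_congr rfl fun i _ => heq i, Finset.prod_mul_distrib, Finset.prod_const,
        Finset.card_range, ← pow_mul, mul_comm R.l, he]
  have hne : ∏ i ∈ Finset.range n, - (((i + 1 : ℕ) : κ) * D.red R.unit) ≠ 0 := by
    refine Finset.prod_ne_zero_iff.mpr fun i hi => neg_ne_zero.mpr (mul_ne_zero ?_ R.unit_ne)
    rw [Ne, CharP.cast_eq_zero_iff κ p]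
    intro hd
    have := Nat.le_of_dvd (Nat.succ_pos i) hd
    have := Finset.mem_range.mp hi
    omega
  obtain ⟨u, hu, hured, hueq⟩ := key 1 (one_one _)
  refine ⟨u, hu, hured ▸ hne, ?_, fun x hx => ?_⟩
  · rw [← hueq, IsPrimitiveRoot.prod_one_sub_pow_eq_order (hn ▸ R.ζ_prim),
      show (p : 𝔉) = ((n + 1 : ℕ) : 𝔉) from congrArg Nat.cast hn, Nat.cast_add, Nat.cast_one]
  · obtain ⟨w, hw, hwred, hweq⟩ := key x hx
    exact ⟨w, hw, hwred.trans hured.symm, by rw [hev, hweq]⟩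

/-- Below the level of `ζ - 1` a `p`-th power multiplies the level by `p`. -/
theorem one_pow_of_lt (hj : j < R.l) (hx : D.One j x) :
    D.Cong (p * j) (x ^ p - 1) ∧
      D.red ((x ^ p - 1) / D.ϖ ^ (p * j)) = D.red ((x - 1) / D.ϖ ^ j) ^ p := by
  have hp : p.Prime := Fact.out
  obtain ⟨y, hy, hxy⟩ := Cong.exists_eq hx
  obtain ⟨u, hu, -, hpu, -⟩ := R.pow_sub_one
  obtain ⟨r, hr⟩ := exists_add_pow_prime_eq hp (1 : D.O) ⟨x - 1, Cong.mem hx⟩
  have hr' := congrArg Subtype.val hr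
  push_cast at hr'
  rw [add_sub_cancel, one_pow, mul_one] at hr'
  obtain ⟨d, hd⟩ : ∃ d, R.e + j = p * j + 1 + d := by
    have h1 : (p - 1) * (j + 1) ≤ (p - 1) * R.l := Nat.mul_le_mul_left _ hj
    have h2 : p * j = (p - 1) * j + j := by
      rw [← Nat.succ_mul, Nat.succ_eq_add_one, Nat.sub_add_cancel hp.one_le]
    have h3 : 1 ≤ p - 1 := by have := hp.two_le; omega
    exact Nat.exists_eq_add_of_le (by rw [RootLevel.e]; rw [Nat.mul_succ] at h1; omega)
  set z := y ^ p + D.ϖ * (D.ϖ ^ d * u * y * r) with hz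
  have hmem : D.ϖ ^ d * u * y * (r : 𝔉) ∈ D.O :=
    mul_mem (mul_mem (mul_mem (pow_mem D.ϖ_mem d) hu) hy) r.2
  have hzO : z ∈ D.O := add_mem (pow_mem hy p) (mul_mem D.ϖ_mem hmem)
  have heq : x ^ p - 1 = D.ϖ ^ (p * j) * z := by
    have e1 : D.ϖ ^ R.e * D.ϖ ^ j = D.ϖ ^ (p * j) * D.ϖ * D.ϖ ^ d := by
      rw [← pow_add, hd, pow_add, pow_succ]
    rw [hr', hxy, hpu, hz, mul_pow, ← pow_mul, mul_comm j p]
    linear_combination (u * y * (r : 𝔉)) * e1
  refine ⟨heq ▸ cong_pow_mul hzO _, ?_⟩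
  rw [heq, hxy, mul_div_cancel_left₀ _ (pow_ne _), mul_div_cancel_left₀ _ (pow_ne _), hz,
    red_add (pow_mem hy p) (mul_mem D.ϖ_mem hmem), red_mul D.ϖ_mem hmem, red_ϖ, zero_mul,
    add_zero, red_pow hy]

/-- Raising to the `p`-th power above the level of `ζ - 1`. -/
theorem one_pow (hj : R.l + 1 ≤ j) (hx : D.One j x) : D.One (R.e + j) (x ^ p) := by
  obtain ⟨u, -, -, -, h⟩ := R.pow_sub_one
  obtain ⟨w, hw, -, hweq⟩ := h x (hx.mono hj)
  rw [One, hweq, add_comm]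
  exact Cong.mul hx (cong_pow_mul hw _)

/-- A root close to `1` of an element congruent to `1`. -/
theorem one_of_pow_one (hx : D.One (R.l + 1) x) (h : D.One (R.e + j) (x ^ p)) : D.One j x := by
  obtain ⟨u, -, hu0, -, hall⟩ := R.pow_sub_one
  obtain ⟨w, hw, hwu, hweq⟩ := hall x hx
  rw [One, hweq, mul_left_comm] at h
  exact cong_of_mul_unit hw (hwu ▸ hu0) (cong_of_pow_mul h)

/-- The residual form of `one_pow`. -/
theorem red_pow_sub_one (hj : R.l + 1 ≤ j) (hx : D.One j x) :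
    D.red ((x ^ p - 1) / ((p : 𝔉) * D.ϖ ^ j)) = D.red ((x - 1) / D.ϖ ^ j) := by
  obtain ⟨u, hu, hu0, hpu, hall⟩ := R.pow_sub_one
  obtain ⟨w, hw, hwu, hweq⟩ := hall x (hx.mono hj)
  have hune : u ≠ 0 := fun h0 => hu0 (by rw [h0, red_zero])
  rw [hweq, hpu, show (x - 1) * (D.ϖ ^ R.e * w) / (D.ϖ ^ R.e * u * D.ϖ ^ j) =
      (x - 1) / D.ϖ ^ j * (w * u⁻¹) by field_simp [pow_ne (D := D) R.e, pow_ne (D := D) j],
    red_mul hx (mul_mem hw (inv_mem hu hu0)), red_mul hw (inv_mem hu hu0), red_inv hu hu0, hwu,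
    mul_inv_cancel₀ hu0, mul_one]

omit [CharP κ p] [Fact p.Prime] in
/-- An automorphism acting trivially on residues and by `c` on `ζ` moves `x` closer to `1` after
correction by the power `q` with `c + q ≡ 0`. -/
theorem one_twist (σ : 𝔉 →+* 𝔉) (hσ : ∀ x ∈ D.O, σ x ∈ D.O ∧ D.red (σ x) = D.red x) {c q : ℕ}
    (hζ : σ R.ζ = R.ζ ^ c) (hcq : ((c + q : ℕ) : κ) = 0) (hx : D.One R.l x) :
    D.One (R.l + 1) (σ x * x ^ q) := by
  obtain ⟨y, hy, hxy⟩ := Cong.exists_eq hx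
  have hu0 : R.unit ≠ 0 := fun h => R.unit_ne (by rw [h, red_zero])
  set y' := y * R.unit⁻¹
  have hy' : y' ∈ D.O := mul_mem hy (inv_mem R.unit_mem R.unit_ne)
  have hxl : x = 1 + (R.ζ - 1) * y' := by
    rw [R.sub_one]
    calc x = 1 + D.ϖ ^ R.l * y := by rw [← hxy]; ring
      _ = _ := by simp only [y']; field_simp
  set g := ∑ k ∈ Finset.range c, R.ζ ^ k
  have hg : g ∈ D.O := sum_mem fun k _ => pow_mem R.ζ_one.mem k
  have hsx : σ x = 1 + (R.ζ - 1) * (g * σ y') := by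
    rw [hxl, map_add, map_one, map_mul, map_sub, map_one, hζ, ← geom_sum_mul R.ζ c]
    ring
  have hlam : D.Cong R.l (R.ζ - 1) := R.ζ_one
  have hpow : ∀ q : ℕ, ∃ r ∈ D.O,
      x ^ q = 1 + (R.ζ - 1) * ((q : 𝔉) * y' + (R.ζ - 1) * r) := by
    intro q
    induction q with
    | zero => exact ⟨0, zero_mem _, by simp⟩
    | succ q ih =>
      obtain ⟨r, hr, hrq⟩ := ih
      refine ⟨r + (q : 𝔉) * y' * y' + (R.ζ - 1) * r * y',
        add_mem (add_mem hr (mul_mem (mul_mem (natCast_mem _ q) hy') hy'))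
          (mul_mem (mul_mem hlam.mem hr) hy'), ?_⟩
      rw [pow_succ, hrq, hxl]
      push_cast
      ring
  obtain ⟨r, hr, hrq⟩ := hpow q
  obtain ⟨hs, hsred⟩ := hσ y' hy'
  have h1 : g * σ y' + (q : 𝔉) * y' ∈ D.O :=
    add_mem (mul_mem hg hs) (mul_mem (natCast_mem _ q) hy')
  have h2 : r + g * σ y' * ((q : 𝔉) * y' + (R.ζ - 1) * r) ∈ D.O :=
    add_mem hr (mul_mem (mul_mem hg hs)
      (add_mem (mul_mem (natCast_mem _ q) hy') (mul_mem hlam.mem hr)))
  have hz : D.Cong 1 (g * σ y' + (q : 𝔉) * y' +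
      (R.ζ - 1) * (r + g * σ y' * ((q : 𝔉) * y' + (R.ζ - 1) * r))) := by
    refine (cong_one_of_red_eq_zero h1 ?_).add ((hlam.mul_right h2).mono R.l_pos)
    rw [red_add (mul_mem hg hs) (mul_mem (natCast_mem _ q) hy'), red_mul hg hs, hsred,
      R.red_geom, red_mul (natCast_mem _ q) hy', red_natCast, ← add_mul, ← Nat.cast_add, hcq,
      zero_mul]
  have h := hlam.mul hz
  rw [One]
  convert h using 1
  rw [hsx, hrq]
  ring

end RootLevel

/-- A map that moves congruences one step up has iterates converging to `1`. -/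
theorem exists_pow_mul_eq (N : 𝔉 →* 𝔉) (hN : ∀ i x, 1 ≤ i → D.One i x → D.One (i + 1) (N x))
    {p : ℕ} {f₀ f₁ G₀ G₁ : 𝔉} (hG₀ : G₀ ≠ 0) (hG₁ : G₁ ≠ 0) (h₀ : f₀ * N f₁ = G₀ ^ p)
    (h₁ : f₁ * N f₀ = G₁ ^ p) (hf : D.One 1 f₀) (M : ℕ) :
    ∃ H : 𝔉, H ≠ 0 ∧ D.One M (f₀ / H ^ p) := by
  have hN0 : ∀ z : 𝔉, z ≠ 0 → N z ≠ 0 := fun z hz hNz => by
    have := map_mul N z z⁻¹
    rw [mul_inv_cancel₀ hz, map_one, hNz, zero_mul] at this
    exact one_ne_zero this
  have hiter : ∀ n, D.One (2 * n + 1) ((fun z => N (N z))^[n] f₀) := by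
    intro n
    induction n with
    | zero => simpa using hf
    | succ n ih =>
      rw [Function.iterate_succ_apply']
      exact hN _ _ (by omega) (hN _ _ (by omega) ih)
  have hNN : ∃ H : 𝔉, H ≠ 0 ∧ f₀ = N (N f₀) * H ^ p := by
    refine ⟨G₀ / N G₁, div_ne_zero hG₀ (hN0 _ hG₁), ?_⟩
    have h2 : N f₁ * N (N f₀) = N G₁ ^ p := by rw [← map_mul, h₁, map_pow]
    rw [div_pow, ← h₀, ← h2]
    field_simp [hN0 _ (hN0 _ (hf.ne_zero one_ne_zero))]
    have : N f₁ ≠ 0 := by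
      intro h
      rw [h, mul_zero] at h₀
      exact pow_ne_zero _ hG₀ h₀.symm
    field_simp
  have hexp : ∀ n, ∃ H : 𝔉, H ≠ 0 ∧ f₀ = (fun z => N (N z))^[n] f₀ * H ^ p := by
    intro n
    induction n with
    | zero => exact ⟨1, one_ne_zero, by simp⟩
    | succ n ih =>
      obtain ⟨H, hH, hHn⟩ := ih
      obtain ⟨K, hK, hKeq⟩ := hNN
      refine ⟨(fun z => N (N z))^[n] K * H, mul_ne_zero ?_ hH, ?_⟩
      · clear hHn
        induction n with
        | zero => simpa using hK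
        | succ n ihn => rw [Function.iterate_succ_apply']; exact hN0 _ (hN0 _ ihn)
      · have hom : ∀ n a b, (fun z => N (N z))^[n] (a * b ^ p) =
            (fun z => N (N z))^[n] a * ((fun z => N (N z))^[n] b) ^ p := by
          intro n
          induction n with
          | zero => simp
          | succ n ihn =>
            intro a b
            simp only [Function.iterate_succ_apply', ihn, map_mul, map_pow]
        rw [mul_pow, ← mul_assoc, Function.iterate_succ_apply, ← hom]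
        simp only [← hKeq]
        exact hHn
  obtain ⟨H, hH, hHM⟩ := hexp M
  refine ⟨H, hH, ?_⟩
  rw [hHM, mul_div_assoc, div_self (pow_ne_zero _ hH), mul_one]
  exact (hiter M).mono (by omega)

end DiscRed

end Fermat.Agent.BAD.Ordinary
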