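import Fermat.Agent.BAD.Core.Curve
import Fermat.Agent.BAD.Gauss
import Fermat.Agent.RED.Specialization.NormExpansion
import Fermat.Prelude.Def_AlgebraicCurve_Correspondence

/-!
# Expansions of a two-branch curve at two cusps, with two degeneracy maps

The norm along a degeneracy map, expanded at one cusp, is the expansion at that cusp times the
product of the twisted expansions at the other one.
-/

set_option autoImplicit false
set_option linter.style.haveILetI false
set_option linter.unnecessarySimpa false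

noncomputable section

open AlgebraicCurve ModularCurve IsLocalRing Fermat.Agent.RED.Spec Fermat.Agent.HK.Corr

namespace Fermat.Agent.BAD.Ordinary

variable {L : Type} [Field L] [Algebra ℚ L] {A : ValuationSubring L} {F C : Type} [Field F]
  [Algebra L F] [Field C] [Algebra (ResidueField A) C]

/-- Two expansions of a two-branch curve with their Gauss reductions, and the two degeneracy
maps. -/
structure Expansions (p : ℕ) [NeZero p] (D : BadCurve (residue A) F C) (E : Type) [Field E]
    [Algebra L E] where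
  e : Fin 2 → F →ₐ[L] LaurentSeries L
  e_intField : ∀ i f, e i f ∈ Gauss.intField L
  ι : C →+* LaurentSeries (ResidueField A)
  mem_V : ∀ i f, f ∈ D.V i ↔ e i f ∈ Gauss.gaussRing (residue A)
  red : ∀ i f (h : e i f ∈ Gauss.gaussRing (residue A)), Gauss.gaussRed (residue A) ⟨_, h⟩ = ι (D.red i f)
  ubar_not_pow : ∀ b, qExpand (ResidueField A) p b ≠ ι D.ubar
  φ : Fin 2 → (E →ₐ[L] F)
  swap : ∀ i x, e (1 - i) (φ i x) = qExpand L p (e i (φ i x))
  jE : E
  e_j : ∀ i, e i (φ i jE) = jSer L
  integral : ∀ i, (φ i).toRingHom.IsIntegral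
  finite : ∀ i, FiniteAlong L (φ i)
  finrank : ∀ i, finrankAlong L (φ i) = p + 1
  norm : ∀ i, NormFormulaAlong L (φ i) (finite i)
  constE : ∀ x : E, x ≠ 0 → (∀ v : Place L E, v.ord x = 0) → ∃ c : L, x = algebraMap L E c

namespace Expansions

variable {p : ℕ} [NeZero p] {D : BadCurve (residue A) F C} {E : Type} [Field E] [Algebra L E]
  (X : Expansions p D E)

theorem one_sub_one_sub (i : Fin 2) : (1 : Fin 2) - (1 - i) = i := sub_sub_cancel 1 i

/-- The norm along a degeneracy map. -/
def normTo (i : Fin 2) (y : F) : E := letI := algebraAlong (X.φ i); Algebra.norm E y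

theorem qExpand_normTo [CharZero L] (hp : p.Prime) {ζ : Lˣ} (hζ : IsPrimitiveRoot ζ p)
    (i : Fin 2) (y : F) :
    qExpand L p (X.e i (X.φ i (X.normTo i y))) =
      qExpand L p (X.e i y) * ∏ j : Fin p, twist (ζ ^ (j : ℕ)) (X.e (1 - i) y) := by
  letI := algebraAlong (X.φ i)
  haveI : Module.Finite E F := X.finite i
  haveI : CharZero E := charZero_of_injective_algebraMap (algebraMap L E).injective
  let c : E →+* LaurentSeries L :=
    ((qExpand L p).comp (X.e i).toRingHom).comp (X.φ i).toRingHom
  let e : Option (Fin p) → (F →+* LaurentSeries L) := fun o =>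
    o.elim ((qExpand L p).comp (X.e i).toRingHom)
      fun j => (twist (ζ ^ (j : ℕ))).comp (X.e (1 - i)).toRingHom
  have hz : X.e i (X.φ (1 - i) X.jE) = qExpand L p (jSer L) := by
    have h := X.swap (1 - i) X.jE
    rwa [one_sub_one_sub, X.e_j] at h
  have key := map_norm_eq_prod c e ?_ (X.φ (1 - i) X.jE) ?_ ?_ y
  · refine key.trans ?_
    rw [Fintype.prod_option]
    rfl
  · rintro (_ | j) x
    · rfl
    · show twist (ζ ^ (j : ℕ)) (X.e (1 - i) (X.φ i x)) = qExpand L p (X.e i (X.φ i x))
      rw [X.swap, twist_qExpand]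
      rw [← pow_mul, mul_comm, pow_mul, hζ.pow_eq_one, one_pow]
  · intro o o' h
    apply separated_jSer hp ζ hζ
    rcases o with _ | j <;> rcases o' with _ | j' <;>
      simpa only [e, Option.elim, RingHom.comp_apply, AlgHom.toRingHom_eq_coe, RingHom.coe_coe, hz,
        X.e_j, qExpand_qExpand] using h
  · rw [Fintype.card_option, Fintype.card_fin]
    exact (X.finrank i).symm

/-- A function with divisor `p` times a divisor of principal pushforward has norm a `p`-th
power. -/
theorem exists_normTo_eq_pow [IsAlgClosed L] [HasPrincipalDivisors L F] (hp : 0 < p) {f : F}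
    (hf : f ≠ 0) {Z : Divisor L F} (hord : ∀ v, v.ord f = (p : ℤ) * Z v) (i : Fin 2)
    (hpush : Divisor.IsPrincipal (Divisor.pushforwardAlong (X.φ i) (X.integral i) Z)) :
    ∃ g : E, g ≠ 0 ∧ X.normTo i f = g ^ p := by
  letI := algebraAlong (X.φ i)
  haveI := isScalarTower_along (X.φ i)
  haveI := isIntegral_along (X.φ i) (X.integral i)
  haveI : Module.Finite E F := X.finite i
  obtain ⟨g, hg, hgD⟩ := hpush
  obtain ⟨Df, hDf, -⟩ := HasPrincipalDivisors.exists_divisor (K := L) f hf
  have hDfn : Df = (p : ℤ) • Z := Finsupp.ext fun v => by rw [hDf v, hord v]; simp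
  have hnorm0 : Algebra.norm E f ≠ 0 := Algebra.norm_ne_zero_iff.mpr hf
  have hordN : ∀ v : Place L E, v.ord (Algebra.norm E f) = (p : ℤ) * v.ord g := by
    intro v
    have h := X.norm i f hf Df hDf v
    rw [← h, hDfn, map_zsmul, Finsupp.smul_apply, smul_eq_mul, ← hgD v]
    rfl
  obtain ⟨c, hc⟩ := X.constE _ (div_ne_zero hnorm0 (pow_ne_zero p hg)) fun v => by
    rw [div_eq_mul_inv, v.ord_mul hnorm0 (inv_ne_zero (pow_ne_zero _ hg)), v.ord_inv,
      ← zpow_natCast, v.ord_zpow, hordN v]
    ring
  have hc' : Algebra.norm E f = algebraMap L E c * g ^ p := by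
    rw [← hc, div_mul_cancel₀ _ (pow_ne_zero _ hg)]
  have hc0 : c ≠ 0 := fun h => hnorm0 (by rw [hc', h, map_zero, zero_mul])
  obtain ⟨r, hr⟩ := IsAlgClosed.exists_pow_nat_eq c hp
  have hr0 : r ≠ 0 := fun h => hc0 (by rw [← hr, h, zero_pow hp.ne'])
  refine ⟨algebraMap L E r * g, mul_ne_zero ((map_ne_zero _).mpr hr0) hg, ?_⟩
  show Algebra.norm E f = _
  rw [hc', mul_pow, ← map_pow, hr]

end Expansions

end Fermat.Agent.BAD.Ordinary
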