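import Fermat.Agent.BAD.Ordinary.ConnFixed

/-!
# The separating subgroup of one torsion level

Points with power residues whose images in the target are connected. A tame inertia element fixes
none of them inside the part with exponents `1` and cyclotomic, provided it acts through the
cyclotomic character on those of order `p` with trivial image.
-/

set_option autoImplicit false

noncomputable section

open Fermat.Agent.FFG
open Fermat.Agent.Galois (Qbar GalQ)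

namespace Fermat.Agent.BAD.Ordinary

variable {p : ℕ} [Fact p.Prime] {A : ValuationSubring Qbar} {X M : Type} [AddCommGroup X]
  [AddCommGroup M] {ι : Type}

/-- On every level the subgroup of points with power residues and connected images separates. -/
theorem exists_separating [Finite M] (hp2 : p ≠ 2) (hA : A.LiesOverPrime p) {n : ℕ}
    (gal : GalQ → Module.End ℤ X) {act : GalQ → M → M}
    {B : Subalgebra (GaloisRep.ratLocalizedAt p) (M → Qbar)} (hB : IsModel ℚ act B)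
    (hX : ∀ x : X, p ^ n • x = 0) (π : ι → X →+ M)
    (hπ : ∀ i σ x, π i (gal σ x) = act σ (π i x)) (R : AddSubgroup X)
    (hRsub : ∀ σ ∈ A.inertiaSubgroupIn ℚ, ∀ x, gal σ x - x ∈ R)
    (hRmem : ∀ σ ∈ A.inertiaSubgroupIn ℚ, ∀ x ∈ R, gal σ x ∈ R)
    {ζ : Qbar} (hζ : IsPrimitiveRoot ζ p)
    (hnew : ∀ y ∈ R, p • y = 0 → (∀ i, π i y = 0) → ∀ σ ∈ A.inertiaSubgroupIn ℚ, ∀ c : ℕ,
      σ ζ = ζ ^ c → gal σ y = c • y) :
    ∃ K : AddSubgroup X,
      (∀ σ ∈ A.inertiaSubgroupIn ℚ, ∀ x, gal σ x - x ∈ K) ∧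
      (∀ σ ∈ A.inertiaSubgroupIn ℚ, ∀ x ∈ K, gal σ x ∈ K) ∧
      ∀ U : AddSubgroup X, (∀ σ ∈ A.inertiaSubgroupIn ℚ, ∀ x ∈ U, gal σ x ∈ U) →
        (∀ g ∈ A.inertiaSubgroupIn ℚ, ∀ c : ℕ, g ζ = ζ ^ c →
          ∀ x ∈ U, ∃ N : ℕ, (((gal g - 1) * (gal g - c)) ^ N) x = 0) →
        ∀ σ₀ ∈ A.inertiaSubgroupIn ℚ, σ₀ ζ ≠ ζ →
          ∀ x ∈ U, x ∈ K → gal σ₀ x = x → x = 0 := by
  have hp : p.Prime := Fact.out
  set C := OrderL.connPart hA hB
  set K := R ⊓ ⨅ i, C.comap (π i) with hKdef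
  have hK : ∀ x, x ∈ K ↔ x ∈ R ∧ ∀ i, π i x ∈ C := fun x => by
    simp [hKdef, AddSubgroup.mem_iInf]
  refine ⟨K, fun σ hσ x => (hK _).mpr ⟨hRsub σ hσ x, fun i => ?_⟩, fun σ hσ x hx =>
    (hK _).mpr ⟨hRmem σ hσ x ((hK x).mp hx).1, fun i => ?_⟩, ?_⟩
  · rw [map_sub, hπ]
    exact OrderL.act_sub_mem_connPart hA hB hσ _
  · rw [hπ]
    have h := C.add_mem (OrderL.act_sub_mem_connPart hA hB hσ (π i x)) (((hK x).mp hx).2 i)
    rwa [sub_add_cancel] at h
  intro U hU hfac σ₀ hσ₀ hσ₀ζ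
  have hπ0 : ∀ i, ∀ x ∈ U, x ∈ K → gal σ₀ x = x → π i x = 0 := by
    intro i x hxU hxK hfix
    refine eq_zero_of_connected_of_fixed hp2 hB hA (n := n) ((U ⊓ K).map (π i)) ?_ ?_ ?_ hζ ?_
      hσ₀ hσ₀ζ (x := π i x) ⟨x, ⟨hxU, hxK⟩, rfl⟩ (by rw [← hπ, hfix])
    · rintro _ ⟨y, -, rfl⟩
      rw [← map_nsmul, hX, map_zero]
    · rintro _ ⟨y, hy, rfl⟩
      exact (OrderL.mem_connPart_iff hA hB).mp (((hK y).mp hy.2).2 i)
    · rintro g hg _ ⟨y, hy, rfl⟩
      refine ⟨gal g y, ⟨hU g hg y hy.1, (hK _).mpr ⟨hRmem g hg y ((hK y).mp hy.2).1, fun j => ?_⟩⟩,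
        hπ i g y⟩
      rw [hπ]
      have h := C.add_mem (OrderL.act_sub_mem_connPart hA hB hg (π j y)) (((hK y).mp hy.2).2 j)
      rwa [sub_add_cancel] at h
    · rintro g hg c hc _ ⟨y, hy, rfl⟩
      obtain ⟨N, hN⟩ := hfac g hg c hc y hy.1
      have hsemi : Function.Semiconj (π i) (facOp (gal g) c) (facOp (act g) c) := fun z => by
        simp only [facOp]
        rw [map_sub (π i), hπ, map_sub (π i), map_nsmul, hπ]
      refine ⟨N, ?_⟩
      rw [← hsemi.iterate_right N y, facOp_iterate]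
      simp [hN]
  suffices h : ∀ k, ∀ x ∈ U, x ∈ K → gal σ₀ x = x → p ^ k • x = 0 → x = 0 from
    fun x hxU hxK hfix => h n x hxU hxK hfix (hX x)
  intro k
  induction k with
  | zero => exact fun x _ _ _ h => by simpa using h
  | succ k ih =>
    intro x hxU hxK hfix hx
    refine ih x hxU hxK hfix ?_
    set y := p ^ k • x with hy
    have hyfix : gal σ₀ y = y := by rw [hy, map_nsmul, hfix]
    have hpy : p • y = 0 := by rw [hy, ← mul_smul, ← pow_succ']; exact hx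
    obtain ⟨c, -, hc⟩ := hζ.eq_pow_of_pow_eq_one (ξ := σ₀ ζ) (by
      rw [← map_pow, hζ.pow_eq_one, map_one])
    have hyK : y ∈ K := K.nsmul_mem hxK _
    have hcy := (hnew y ((hK y).mp hyK).1 hpy
      (fun i => hπ0 i y (U.nsmul_mem hxU _) hyK hyfix) σ₀ hσ₀ c hc.symm).symm.trans hyfix
    have hc0 : 1 ≤ c := Nat.one_le_iff_ne_zero.mpr fun h0 => by
      rw [h0, pow_zero] at hc
      exact hζ.ne_one hp.one_lt (σ₀.injective (hc.symm.trans (map_one σ₀).symm))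
    have hcop : Nat.Coprime (c - 1) p := (hp.coprime_iff_not_dvd.mpr fun ⟨d, hd⟩ => hσ₀ζ (by
      rw [← hc, show c = p * d + 1 by omega, pow_succ, pow_mul, hζ.pow_eq_one, one_pow,
        one_mul])).symm
    have hzero : (c - 1) • y = 0 := by
      have h := hcy
      rw [show c = (c - 1) + 1 by omega, add_smul, one_smul] at h
      exact add_eq_right.mp h
    exact AddMonoid.addOrderOf_eq_one_iff.mp (Nat.dvd_one.mp (hcop ▸
      Nat.dvd_gcd (addOrderOf_dvd_of_nsmul_eq_zero hzero) (addOrderOf_dvd_of_nsmul_eq_zero hpy)))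

end Fermat.Agent.BAD.Ordinary
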