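import Fermat.Agent.BAD.Ordinary.TowerAlg
import Fermat.Agent.Galois.Decomposition
import Fermat.Agent.Galois.Cyclotomic
import Mathlib.RingTheory.Henselian
import Mathlib.Algebra.CharP.Lemmas
import Mathlib.LinearAlgebra.Determinant

/-!
# Ordinarity at `p` from a separating subgroup on every torsion level

If on every level inertia moves points into a stable subgroup `K`, and `K` meets the points fixed
by a tame inertia element trivially inside the part where inertia has exponents `1` and the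
cyclotomic character, then a representation compatible with the tower and residually ordinary is
ordinary.
-/

set_option autoImplicit false

noncomputable section

namespace Fermat.Agent.BAD.Ordinary

open Fermat.Agent.TraceFn

local notation "Qbar" => AlgebraicClosure ℚ
local notation "Γℚ" => AlgebraicClosure ℚ ≃ₐ[ℚ] AlgebraicClosure ℚ

variable {p : ℕ} [Fact p.Prime] {S : Finset ℕ} {R : Type} [CommRing R] {a : ℕ → R}
  (D : QuadraticTower p S R a)

/-- A subgroup receiving all inertia displacements and free of tame-fixed points on the part with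
exponents `1` and cyclotomic. -/
def Separates (P : ValuationSubring Qbar) : Prop :=
  ∀ n : ℕ, ∃ K : AddSubgroup (D.X n),
    (∀ σ ∈ P.inertiaSubgroupIn ℚ, ∀ x, D.gal n σ x - x ∈ K) ∧
    (∀ σ ∈ P.inertiaSubgroupIn ℚ, ∀ x ∈ K, D.gal n σ x ∈ K) ∧
    ∀ U : AddSubgroup (D.X n), (∀ σ ∈ P.inertiaSubgroupIn ℚ, ∀ x ∈ U, D.gal n σ x ∈ U) →
      (∀ g ∈ P.inertiaSubgroupIn ℚ, ∀ c : ℕ, g (zetaPow p 1) = zetaPow p 1 ^ c →
        ∀ x ∈ U, ∃ N : ℕ, (((D.gal n g - 1) * (D.gal n g - c)) ^ N) x = 0) →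
      ∀ σ₀ ∈ P.inertiaSubgroupIn ℚ, σ₀ (zetaPow p 1) ≠ zetaPow p 1 →
        ∀ x ∈ U, x ∈ K → D.gal n σ₀ x = x → x = 0

theorem conj_mem_inertia {P : ValuationSubring Qbar} {σ d : Γℚ}
    (hd : d ∈ P.decompositionSubgroup ℚ) (hσ : σ ∈ P.inertiaSubgroupIn ℚ) :
    d * σ * d⁻¹ ∈ P.inertiaSubgroupIn ℚ := by
  obtain ⟨τ, hτ, rfl⟩ := hσ
  refine ⟨⟨d, hd⟩ * τ * ⟨d, hd⟩⁻¹, ?_, rfl⟩
  rw [SetLike.mem_coe] at hτ ⊢
  exact (MonoidHom.normal_ker _).conj_mem τ hτ _

theorem exists_tame {P : ValuationSubring Qbar} (hP : P.LiesOverPrime p) (hp2 : p ≠ 2) :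
    ∃ σ ∈ P.inertiaSubgroupIn ℚ, σ (zetaPow p 1) ≠ zetaPow p 1 := by
  have hp : p.Prime := Fact.out
  have : NeZero (p ^ 1) := ⟨pow_ne_zero _ hp.ne_zero⟩
  have hn : Nat.card (rootsOfUnity (p ^ 1) Qbar) = p ^ 1 :=
    HasEnoughRootsOfUnity.natCard_rootsOfUnity Qbar (p ^ 1)
  have hu : IsUnit (-1 : ZMod (p ^ 1)) := isUnit_one.neg
  obtain ⟨σ, hσ, hχ⟩ :=
    Galois.exists_inertia_modularCyclotomicCharacter_eq hP hp 1 hn hu.unit
  refine ⟨σ, hσ, fun hfix => ?_⟩
  set t : rootsOfUnity (p ^ 1) Qbar :=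
    rootsOfUnity.mkOfPowEq (zetaPow p 1) (zetaPow_spec p 1).pow_eq_one
  have h := modularCyclotomicCharacter.spec Qbar hn (σ : Qbar ≃+* Qbar) t.2
  rw [hχ] at h
  have h' : zetaPow p 1 ^ (1 : ℕ) = zetaPow p 1 ^ ((-1 : ZMod (p ^ 1)).val) := by
    rw [pow_one]
    conv_lhs => rw [← hfix]
    simpa [t, IsUnit.unit_spec] using h
  have h1 := (ZMod.natCast_eq_natCast_iff _ _ _).mpr
    (modEq_of_primitive_pow_eq (zetaPow_spec p 1) h')
  rw [Nat.cast_one, ZMod.natCast_val, ZMod.cast_id', id_eq] at h1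
  have h2 : ((2 : ℕ) : ZMod (p ^ 1)) = 0 := by push_cast; linear_combination h1
  rw [ZMod.natCast_eq_zero_iff, pow_one] at h2
  exact hp2 ((Nat.prime_dvd_prime_iff_eq hp Nat.prime_two).mp h2)

/-- In a commutative ring where `p` is nilpotent, a residual unit plus a nilpotent has
`(p - 1) p ^ L`-th power `1` for large `L`. -/
theorem exists_pow_eq_one {B : Type*} [CommRing B] {n : ℕ} (hn : (p : B) ^ n = 0) {u : ℕ}
    (hu : ¬ p ∣ u) {ν : B} (hν : IsNilpotent ν) :
    ∃ L₀ : ℕ, ∀ L, L₀ ≤ L → ((u : B) + ν) ^ ((p - 1) * p ^ L) = 1 := by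
  have hp : p.Prime := Fact.out
  set η := ((u : B) + ν) ^ (p - 1) - 1 with hη
  have hnil : IsNilpotent η := by
    rcases subsingleton_or_nontrivial B with h | h
    · exact ⟨1, Subsingleton.elim _ _⟩
    have h1 : ((u ^ (p - 1) : ℕ) : ZMod p) = 1 := by
      rw [Nat.cast_pow]
      exact ZMod.pow_card_sub_one_eq_one (by rwa [Ne, ZMod.natCast_eq_zero_iff])
    obtain ⟨z, hz⟩ : (p : ℤ) ∣ (u ^ (p - 1) : ℕ) - 1 := by
      rw [← ZMod.intCast_zmod_eq_zero_iff_dvd, Int.cast_sub, Int.cast_natCast, h1, Int.cast_one,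
        sub_self]
    obtain ⟨w, hw⟩ := sub_dvd_pow_sub_pow ((u : B) + ν) (u : B) (p - 1)
    rw [add_sub_cancel_left] at hw
    have hzB : (u : B) ^ (p - 1) - 1 = p * (z : B) := by
      have := congrArg (Int.cast : ℤ → B) hz
      simpa using this
    rw [hη, show ((u : B) + ν) ^ (p - 1) - 1 = ν * w + p * (z : B) by
      rw [← hw, ← hzB]; ring]
    exact (Commute.all _ _).isNilpotent_add ((Commute.all ν w).isNilpotent_mul_right hν)
      ((Commute.all _ (z : B)).isNilpotent_mul_right ⟨n, hn⟩)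
  obtain ⟨N, hN⟩ := hnil
  refine ⟨N + n, fun L hL => ?_⟩
  obtain ⟨r, hr⟩ := exists_add_pow_prime_pow_eq hp (1 : B) η N
  rw [one_pow, pow_eq_zero_of_le (Nat.le_of_lt (Nat.lt_pow_self hp.one_lt)) hN, add_zero] at hr
  have hd : (p : B) ∣ (1 + η) ^ p ^ N - 1 := ⟨η * r, by rw [hr]; ring⟩
  have hd' := dvd_sub_pow_of_dvd_sub hd (L - N)
  rw [one_pow, pow_eq_zero_of_le (by omega) hn, zero_dvd_iff, sub_eq_zero, ← pow_mul, ← pow_add,
    Nat.add_sub_cancel' (by omega : N ≤ L)] at hd'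
  rw [pow_mul, show ((u : B) + ν) ^ (p - 1) = 1 + η by rw [hη]; ring, hd']

/-- The same for two commuting endomorphisms. -/
theorem exists_end_pow_eq_one {M : Type*} [AddCommGroup M] {n : ℕ}
    (hn : ∀ x : M, p ^ n • x = 0) {u : ℕ} (hu : ¬ p ∣ u) {ν : Module.End ℤ M}
    (hν : IsNilpotent ν) :
    ∃ L₀ : ℕ, ∀ L, L₀ ≤ L → ((u : Module.End ℤ M) + ν) ^ ((p - 1) * p ^ L) = 1 := by
  let φ : Polynomial ℤ →+* Module.End ℤ M := (Polynomial.aeval ν).toRingHom
  obtain ⟨N, hN⟩ := hν
  have hX : Ideal.Quotient.mk (RingHom.ker φ) Polynomial.X ^ N = 0 := by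
    rw [← map_pow, Ideal.Quotient.eq_zero_iff_mem, RingHom.mem_ker]
    simp [φ, hN]
  have hpn : (p : Polynomial ℤ ⧸ RingHom.ker φ) ^ n = 0 := by
    rw [← map_natCast (Ideal.Quotient.mk (RingHom.ker φ)), ← map_pow,
      Ideal.Quotient.eq_zero_iff_mem, RingHom.mem_ker, ← Nat.cast_pow, map_natCast]
    exact LinearMap.ext fun x => by rw [Module.End.natCast_apply, hn, LinearMap.zero_apply]
  obtain ⟨L₀, hL₀⟩ := exists_pow_eq_one hpn hu ⟨N, hX⟩
  refine ⟨L₀, fun L hL => ?_⟩
  have h := hL₀ L hL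
  rw [← map_natCast (Ideal.Quotient.mk (RingHom.ker φ)), ← map_add, ← map_pow,
    ← map_one (Ideal.Quotient.mk (RingHom.ker φ)), Ideal.Quotient.eq, RingHom.mem_ker, map_sub,
    map_pow, map_add, map_natCast, map_one, sub_eq_zero] at h
  simpa [φ] using h

theorem mem_span_of_apply_eq_zero {T V : Type*} [CommRing T] [AddCommGroup V] [Module T V]
    (b : Module.Basis (Fin 2) T V) {E : Module.End T V} {w : Fin 2 → V} (hb : ∀ i, b i = w i)
    (h0 : E (w 0) = 0) (h1 : E (w 1) = w 1) {v : V} (hv : E v = 0) : v ∈ T ∙ b 0 := by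
  have hrepr := b.sum_repr v
  rw [Fin.sum_univ_two] at hrepr
  have hE := congrArg E hrepr
  rw [map_add, map_smul, map_smul, hv, hb, hb, h0, h1, smul_zero, zero_add, ← hb] at hE
  rw [hE, add_zero] at hrepr
  exact Submodule.mem_span_singleton.mpr ⟨_, hrepr⟩

section Main

variable {T : Type} [CommRing T] [IsLocalRing T] {ρ : GaloisRepAdic T} {τ : R →+* T}
  (hpS : p ∈ S) (hρ : QuadraticTower.FrobCompatible (S := S) (a := a) ρ τ)
  (hpT : (p : T) ∈ IsLocalRing.maximalIdeal T)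
  (hres : (GaloisRepAdic.ofResidualGaloisRep ρ.residual).IsOrdinaryAt p)
  {P : ValuationSubring Qbar} (hP : P.LiesOverPrime p)

include hpS hρ hpT hres hP in
/-- Residual trace and determinant on inertia. -/
theorem trace_det_residue {g : Γℚ} (hg : g ∈ P.inertiaSubgroupIn ℚ) {c : ℕ}
    (hc : g (zetaPow p 1) = zetaPow p 1 ^ c) :
    IsLocalRing.residue T (LinearMap.det (ρ.ρ g)) = (c : IsLocalRing.ResidueField T) ∧
      IsLocalRing.residue T (LinearMap.trace T ρ.V (ρ.ρ g)) =
        (c : IsLocalRing.ResidueField T) + 1 := by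
  have hdet : IsLocalRing.residue T (LinearMap.det (ρ.ρ g)) =
      (c : IsLocalRing.ResidueField T) := by
    rw [det_residue_eq ρ τ hpS hρ hpT g, cycExp_eq_of_apply p 1 hc, ZMod.val_natCast]
    have hp0 : ((p ^ 1 : ℕ) : IsLocalRing.ResidueField T) = 0 := by
      rw [pow_one, ← map_natCast (IsLocalRing.residue T), IsLocalRing.residue_eq_zero_iff]
      exact hpT
    conv_rhs => rw [← Nat.mod_add_div c (p ^ 1), Nat.cast_add, Nat.cast_mul, hp0, zero_mul,
      add_zero]
  obtain ⟨L, hb, hLs, hLq⟩ := hres P hP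
  refine ⟨hdet, ?_⟩
  rw [← hdet]
  exact trace_residue_of_quotient_trivial hb
    (fun v hv => hLs g (Galois.inertia_le_decomposition P hg) v hv) (hLq g hg)

include hpS hρ hpT hres hP in
/-- On the image of a projector, `(g - 1)(g - c)` is locally nilpotent. -/
theorem exists_pow_prod_apply {n : ℕ} {e : R}
    (he : ∀ r : R, τ r ∈ IsLocalRing.maximalIdeal T → ∃ M : ℕ, D.act n (e * r ^ M) = 0) {g : Γℚ}
    (hg : g ∈ P.inertiaSubgroupIn ℚ) {c : ℕ} (hc : g (zetaPow p 1) = zetaPow p 1 ^ c)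
    (y : D.X n) :
    ∃ N : ℕ, (((D.gal n g - 1) * (D.gal n g - c)) ^ N) (D.act n e y) = 0 := by
  rcases Nat.eq_zero_or_pos n with rfl | hn
  · refine ⟨0, ?_⟩
    have h := D.torsion 0 (D.act 0 e y)
    rw [pow_zero, one_smul] at h
    rw [pow_zero, Module.End.one_apply, h]
  obtain ⟨r, hr, hrT⟩ := D.exists_trace_approx ρ τ hpS hρ 1 n g
  rw [pow_one] at hrT
  set χ := (cycExp p n g).val with hχ
  set E := Module.End ℤ (D.X n)
  have hr' : τ (r - (1 + (c : R))) ∈ IsLocalRing.maximalIdeal T := by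
    rw [← IsLocalRing.residue_eq_zero_iff] at hrT ⊢
    rw [map_sub, (trace_det_residue hpS hρ hpT hres hP hg hc).2] at hrT
    simp only [map_sub, map_add, map_one, map_natCast]
    linear_combination -hrT
  obtain ⟨M, hM⟩ := he _ hr'
  obtain ⟨z, hz⟩ : ∃ z : ℤ, (c : ℤ) - χ = p * z := by
    have h := cast_cycExp (p := p) hn g
    rw [cycExp_eq_of_apply p 1 hc, ← hχ] at h
    have h2 : ((χ : ℕ) : ZMod (p ^ 1)) = (c : ZMod (p ^ 1)) := h
    rw [ZMod.natCast_eq_natCast_iff, pow_one] at h2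
    exact h2.dvd
  have hid : (D.gal n g - 1) * (D.gal n g - (c : E)) =
      D.gal n g * D.act n (r - (1 + (c : R))) + ((p : E) * (z : E)) := by
    have hz' : (c : E) - (χ : E) = (p : E) * (z : E) := by
      have := congrArg (Int.cast : ℤ → E) hz
      simpa using this
    have hinv : D.gal n g * D.gal n g⁻¹ = 1 := by rw [← map_mul, mul_inv_cancel, map_one]
    have hgx : D.gal n g * ((χ : E) * D.gal n g⁻¹) = (χ : E) := by
      rw [← mul_assoc, ← (Nat.cast_commute χ (D.gal n g)).eq, mul_assoc, hinv, mul_one]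
    rw [← hz', map_sub, hr, QuadraticTower.trFun, map_add, map_one, map_natCast, ← hχ]
    simp only [sub_mul, mul_sub, one_mul, mul_add, mul_one, hgx]
    abel
  refine ⟨M + n, ?_⟩
  have hcomm : Commute (D.gal n g * D.act n (r - (1 + (c : R)))) ((p : E) * (z : E)) :=
    ((Nat.cast_commute p _).mul_left (Int.cast_commute z _)).symm
  rw [hid, hcomm.add_pow, LinearMap.sum_apply]
  refine Finset.sum_eq_zero fun i hi => ?_
  have hpn : (p : E) ^ n = 0 := LinearMap.ext fun x => by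
    rw [← Nat.cast_pow, Module.End.natCast_apply, D.torsion, LinearMap.zero_apply]
  rcases le_or_gt M i with hMi | hiM
  · obtain ⟨d, rfl⟩ := Nat.exists_eq_add_of_le hMi
    rw [(Nat.cast_commute _ _).symm.eq, (((D.commute n _ g).symm).mul_pow _), add_comm M d,
      pow_add (D.act n _), ← mul_assoc, ← mul_assoc]
    have hz0 : (D.act n (r - (1 + (c : R))) ^ M) (D.act n e y) = 0 := by
      rw [← map_pow, ← Module.End.mul_apply, ← map_mul, mul_comm, hM, LinearMap.zero_apply]
    have hcm2 : Commute (D.act n (r - (1 + (c : R))) ^ M) (((p : E) * (z : E)) ^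
        (M + n - (d + M))) :=
      (((Nat.cast_commute p _).mul_left (Int.cast_commute z _)).symm).pow_right _
    simp only [mul_assoc]
    rw [hcm2.eq]
    simp only [Module.End.mul_apply, hz0, map_zero]
  · have : ((p : E) * (z : E)) ^ (M + n - i) = 0 := by
      rw [(Nat.cast_commute p (z : E)).mul_pow, pow_eq_zero_of_le (by omega) hpn, zero_mul]
    rw [this, mul_zero, zero_mul, LinearMap.zero_apply]

include hpS hρ hpT hres hP in
/-- The group algebra element killing the image of a projector, for an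
operator with values in `K`. -/
theorem exists_kill_of_mapsTo {n : ℕ} [Finite (D.X n)] (K : AddSubgroup (D.X n))
    (hK2 : ∀ σ ∈ P.inertiaSubgroupIn ℚ, ∀ x ∈ K, D.gal n σ x ∈ K)
    (hK3 : ∀ U : AddSubgroup (D.X n),
      (∀ σ ∈ P.inertiaSubgroupIn ℚ, ∀ x ∈ U, D.gal n σ x ∈ U) →
      (∀ g ∈ P.inertiaSubgroupIn ℚ, ∀ c : ℕ, g (zetaPow p 1) = zetaPow p 1 ^ c →
        ∀ x ∈ U, ∃ N : ℕ, (((D.gal n g - 1) * (D.gal n g - c)) ^ N) x = 0) →
      ∀ σ₀ ∈ P.inertiaSubgroupIn ℚ, σ₀ (zetaPow p 1) ≠ zetaPow p 1 →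
        ∀ x ∈ U, x ∈ K → D.gal n σ₀ x = x → x = 0)
    {e : R}
    (he : ∀ r : R, τ r ∈ IsLocalRing.maximalIdeal T → ∃ M : ℕ, D.act n (e * r ^ M) = 0)
    {σ₀ : Γℚ} (hσ₀ : σ₀ ∈ P.inertiaSubgroupIn ℚ) {c₀ : ℕ} (hc₀ : 1 ≤ c₀)
    (hc : σ₀ (zetaPow p 1) = zetaPow p 1 ^ c₀) (hne : σ₀ (zetaPow p 1) ≠ zetaPow p 1) :
    ∃ L₀ : ℕ, ∀ L, L₀ ≤ L → ∀ F : Module.End ℤ (D.X n), Commute (D.act n e) F →
      (∀ y, F (D.act n e y) ∈ K) →
      (1 - (D.gal n σ₀ - 1) ^ ((p - 1) * p ^ L)) * F * D.act n e = 0 := by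
  classical
  set W : AddSubgroup (D.X n) := (D.act n e).toAddMonoidHom.range
  have hW : ∀ g x, x ∈ W → D.gal n g x ∈ W := by
    rintro g _ ⟨y, rfl⟩
    exact ⟨D.gal n g y, LinearMap.congr_fun (D.commute n e g) y⟩
  have hfac : ∀ g ∈ P.inertiaSubgroupIn ℚ, ∀ c : ℕ, g (zetaPow p 1) = zetaPow p 1 ^ c →
      ∀ x ∈ W, ∃ N : ℕ, (((D.gal n g - 1) * (D.gal n g - c)) ^ N) x = 0 := by
    rintro g hg c hgc _ ⟨y, rfl⟩
    exact exists_pow_prod_apply D hpS hρ hpT hres hP he hg hgc y
  let V : Submodule ℤ (D.X n) := AddSubgroup.toIntSubmodule (K ⊓ W)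
  have hV : ∀ x ∈ V, D.gal n σ₀ x ∈ V := fun x hx => ⟨hK2 σ₀ hσ₀ x hx.1, hW σ₀ x hx.2⟩
  let s : Module.End ℤ V := LinearMap.restrict (D.gal n σ₀) hV
  have hinj : Function.Injective ⇑(s - 1 : Module.End ℤ V) := by
    rw [injective_iff_map_eq_zero]
    intro x hx
    refine Subtype.ext (hK3 W (fun g _ x hx => hW g x hx) hfac σ₀ hσ₀ hne _ x.2.2 x.2.1 ?_)
    rw [LinearMap.sub_apply, Module.End.one_apply, sub_eq_zero] at hx
    exact congrArg Subtype.val hx
  have hnil : IsNilpotent (s - (c₀ : Module.End ℤ V)) := by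
    have : Fintype V := Fintype.ofFinite V
    have hloc : ∀ x : V, ∃ N : ℕ, ((s - (c₀ : Module.End ℤ V)) ^ N) x = 0 := by
      intro x
      obtain ⟨N, hN⟩ := hfac σ₀ hσ₀ c₀ hc x x.2.2
      refine ⟨N, ?_⟩
      have hcomm : Commute (s - 1) (s - (c₀ : Module.End ℤ V)) :=
        (((Commute.refl s).sub_left (Commute.one_left s)).sub_right (Nat.cast_commute c₀ _).symm)
      have h0 : (((s - 1) * (s - (c₀ : Module.End ℤ V))) ^ N) x = 0 := by
        apply Subtype.ext
        have key : ∀ (N : ℕ) (x : V), ((((s - 1) * (s - (c₀ : Module.End ℤ V))) ^ N) x : D.X n) =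
            (((D.gal n σ₀ - 1) * (D.gal n σ₀ - c₀)) ^ N) (x : D.X n) := by
          intro N
          induction N with
          | zero => intro x; rfl
          | succ N ih =>
            intro x
            rw [pow_succ, pow_succ, Module.End.mul_apply, Module.End.mul_apply, ih]
            congr 1
        rw [key, hN]; rfl
      rw [hcomm.mul_pow, Module.End.mul_apply] at h0
      have hinjN : Function.Injective ⇑((s - 1 : Module.End ℤ V) ^ N) := by
        rw [Module.End.coe_pow]; exact hinj.iterate N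
      exact hinjN (h0.trans (map_zero _).symm)
    choose Nf hNf using hloc
    refine ⟨Finset.univ.sup Nf, LinearMap.ext fun x => ?_⟩
    obtain ⟨d, hd⟩ := Nat.exists_eq_add_of_le (Finset.le_sup (f := Nf) (Finset.mem_univ x))
    rw [hd, add_comm, pow_add, Module.End.mul_apply, hNf, map_zero, LinearMap.zero_apply]
  have hu : ¬ p ∣ c₀ - 1 := by
    intro hd
    apply hne
    obtain ⟨d, hd⟩ := hd
    rw [hc, show c₀ = 1 + p * d by omega, pow_add, pow_mul]
    have := (zetaPow_spec p 1).pow_eq_one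
    rw [pow_one] at this
    rw [this, one_pow, pow_one, mul_one]
  obtain ⟨L₀, hL₀⟩ := exists_end_pow_eq_one (M := V) (n := n)
    (fun x => Subtype.ext (D.torsion n x)) hu hnil
  refine ⟨L₀, fun L hL F hF hFK => LinearMap.ext fun y => ?_⟩
  have hv : F (D.act n e y) ∈ V := ⟨hFK y, F y, LinearMap.congr_fun hF.eq y⟩
  have h1 := LinearMap.congr_fun (hL₀ L hL) ⟨_, hv⟩
  rw [show ((c₀ - 1 : ℕ) : Module.End ℤ V) + (s - (c₀ : Module.End ℤ V)) = s - 1 by
    rw [Nat.cast_sub hc₀, Nat.cast_one]; abel] at h1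
  have key : ∀ (N : ℕ) (x : V), (((s - 1) ^ N) x : D.X n) = ((D.gal n σ₀ - 1) ^ N) (x : D.X n) := by
    intro N
    induction N with
    | zero => intro x; rfl
    | succ N ih =>
      intro x
      rw [pow_succ, pow_succ, Module.End.mul_apply, Module.End.mul_apply, ih]
      congr 1
  have h2 := congrArg Subtype.val h1
  rw [key, Module.End.one_apply] at h2
  simp only [Module.End.mul_apply, LinearMap.sub_apply, Module.End.one_apply, LinearMap.zero_apply]
  rw [h2, sub_self]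

include hpS hρ hpT hres hP in
/-- The group algebra element killing the image of a projector. -/
theorem exists_kill (hsep : Separates D P) {n : ℕ} [Finite (D.X n)] {e : R}
    (he : ∀ r : R, τ r ∈ IsLocalRing.maximalIdeal T → ∃ M : ℕ, D.act n (e * r ^ M) = 0)
    {σ₀ : Γℚ} (hσ₀ : σ₀ ∈ P.inertiaSubgroupIn ℚ) {c₀ : ℕ} (hc₀ : 1 ≤ c₀)
    (hc : σ₀ (zetaPow p 1) = zetaPow p 1 ^ c₀) (hne : σ₀ (zetaPow p 1) ≠ zetaPow p 1) :
    ∃ L₀ : ℕ, ∀ L, L₀ ≤ L → ∀ σ ∈ P.inertiaSubgroupIn ℚ,
      (1 - (D.gal n σ₀ - 1) ^ ((p - 1) * p ^ L)) * (D.gal n σ - 1) * D.act n e = 0 := by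
  obtain ⟨K, hK1, hK2, hK3⟩ := hsep n
  obtain ⟨L₀, h⟩ := exists_kill_of_mapsTo D hpS hρ hpT hres hP K hK2 hK3 he hσ₀ hc₀ hc hne
  exact ⟨L₀, fun L hL σ hσ => h L hL _ ((D.commute n e σ).sub_right (Commute.one_right _))
    fun y => hK1 σ hσ _⟩

omit [Fact p.Prime] [IsLocalRing T] in
theorem one_add_pow_prime_pow_mem {I : Ideal T} (hpI : (p : T) ∈ I) {x : T} (hx : x - 1 ∈ I)
    (L : ℕ) : x ^ p ^ L - 1 ∈ I ^ (L + 1) := by
  induction L with
  | zero => simpa using hx
  | succ L ih =>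
    set y := x ^ p ^ L with hy
    rw [pow_succ p L, pow_mul, ← hy, ← geom_sum_mul, pow_succ' I (L + 1)]
    refine Ideal.mul_mem_mul ?_ ih
    have : ∑ i ∈ Finset.range p, y ^ i = (p : T) + ∑ i ∈ Finset.range p, (y ^ i - 1) := by
      rw [Finset.sum_sub_distrib, Finset.sum_const, Finset.card_range, nsmul_one]; ring
    rw [this]
    refine Ideal.add_mem _ hpI (Ideal.sum_mem _ fun i _ => ?_)
    rw [← geom_sum_mul]
    exact Ideal.mul_mem_left _ _ (Ideal.pow_le_self (Nat.succ_ne_zero L) ih)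

include hpS hρ hpT hres in
/-- **Ordinarity from separation.** -/
theorem isOrdinaryAt_of_separates [IsNoetherianRing T]
    [IsAdicComplete (IsLocalRing.maximalIdeal T) T]
    (hp2 : p ≠ 2) (hsepτ : D.IsSeparating τ) (hirr : ρ.residual.IsAbsolutelyIrreducible)
    (hfin : ∀ n, Finite (D.X n))
    (hsep : ∀ P : ValuationSubring Qbar, P.LiesOverPrime p → Separates D P) :
    ρ.IsOrdinaryAt p := by
  classical
  intro P hP
  have hp : p.Prime := Fact.out
  obtain ⟨σ₀, hσ₀, hne⟩ := exists_tame hP hp2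
  have hζ := zetaPow_spec p 1
  obtain ⟨c₀, hc₀p, hc⟩ := hζ.eq_pow_of_pow_eq_one (ξ := σ₀ (zetaPow p 1)) (by
    rw [← map_pow, hζ.pow_eq_one, map_one])
  have hc₀ : 1 ≤ c₀ := by
    rcases Nat.eq_zero_or_pos c₀ with rfl | h
    · rw [pow_zero] at hc
      exact absurd (σ₀.injective (hc.symm.trans (map_one σ₀).symm))
        (hζ.ne_one (by rw [pow_one]; exact hp.one_lt))
    · exact h
  have hc₀1 : c₀ ≠ 1 := fun h => hne (by rw [← hc, h, pow_one])
  have hunit : IsUnit ((c₀ : T) - 1) := by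
    refine IsLocalRing.notMem_maximalIdeal.mp fun hm => ?_
    have hcast : ((c₀ - 1 : ℕ) : T) = (c₀ : T) - 1 := by rw [Nat.cast_sub hc₀, Nat.cast_one]
    rw [← hcast] at hm
    rw [pow_one] at hc₀p
    have hcop : Nat.Coprime (c₀ - 1) p :=
      (hp.coprime_iff_not_dvd.mpr fun hd => by
        have := Nat.le_of_dvd (by omega) hd
        omega).symm
    obtain ⟨u, v, huv⟩ : ∃ u v : ℤ, u * (c₀ - 1 : ℕ) + v * p = 1 :=
      Nat.Coprime.isCoprime hcop |>.imp fun u h => h
    have h1 := congrArg (Int.cast : ℤ → T) huv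
    push_cast at h1
    refine (IsLocalRing.maximalIdeal.isMaximal T).ne_top ((Ideal.eq_top_iff_one _).mpr ?_)
    rw [← h1]
    exact Ideal.add_mem _ (Ideal.mul_mem_left _ _ hm) (Ideal.mul_mem_left _ _ hpT)
  obtain ⟨hdet, htr⟩ := trace_det_residue hpS hρ hpT hres hP hσ₀ hc.symm
  set A := ρ.ρ σ₀ with hA
  set t := LinearMap.trace T ρ.V A
  set d := LinearMap.det A
  have hmon : (Polynomial.X ^ 2 - Polynomial.C t * Polynomial.X + Polynomial.C d : Polynomial T).Monic := by
    monicity!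
  obtain ⟨α, hα, hαm⟩ := HenselianRing.is_henselian (I := IsLocalRing.maximalIdeal T) _ hmon
    (c₀ : T) (by
      rw [← IsLocalRing.residue_eq_zero_iff]
      simp only [Polynomial.eval_add, Polynomial.eval_sub, Polynomial.eval_mul, Polynomial.eval_C,
        Polynomial.eval_pow, Polynomial.eval_X, map_add, map_sub, map_mul, map_pow, map_natCast,
        hdet, htr]
      ring) (by
      have hd' : (Polynomial.derivative (Polynomial.X ^ 2 - Polynomial.C t * Polynomial.X +
          Polynomial.C d : Polynomial T)).eval (c₀ : T) = 2 * c₀ - t := by simp; ring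
      rw [hd']
      have : Ideal.Quotient.mk (IsLocalRing.maximalIdeal T) (2 * c₀ - t) =
          Ideal.Quotient.mk (IsLocalRing.maximalIdeal T) ((c₀ : T) - 1) := by
        rw [Ideal.Quotient.eq, ← IsLocalRing.residue_eq_zero_iff]
        simp [map_sub, map_mul, map_ofNat, htr]
        ring
      rw [this]
      exact hunit.map _)
  simp only [Polynomial.IsRoot, Polynomial.eval_add, Polynomial.eval_sub, Polynomial.eval_mul,
    Polynomial.eval_C, Polynomial.eval_pow, Polynomial.eval_X] at hα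
  set β := t - α with hβ
  set m := IsLocalRing.maximalIdeal T
  have hβm : β - 1 ∈ m := by
    rw [← IsLocalRing.residue_eq_zero_iff] at hαm ⊢
    rw [map_sub, map_natCast] at hαm
    simp only [hβ, map_sub, map_one, htr]
    linear_combination -hαm
  have hαu : IsUnit (α - 1) := by
    refine IsLocalRing.notMem_maximalIdeal.mp fun hm => IsLocalRing.notMem_maximalIdeal.mpr hunit ?_
    have := Ideal.sub_mem _ hm hαm
    rwa [show α - 1 - (α - (c₀ : T)) = (c₀ : T) - 1 by ring] at this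
  have hδ : IsUnit (β - α) := by
    refine IsLocalRing.notMem_maximalIdeal.mp fun hm => IsLocalRing.notMem_maximalIdeal.mpr hαu ?_
    have := Ideal.sub_mem _ hβm hm
    rwa [show β - 1 - (β - α) = α - 1 by ring] at this
  obtain ⟨δ, hδu⟩ := hδ.exists_right_inv
  let b := Module.finBasisOfFinrankEq T ρ.V ρ.finrank_eq
  let M := LinearMap.toMatrixAlgEquiv b
  set Am := M A with hAm
  have hCH : Am * Am = t • Am - d • 1 := by
    have h1 : Am.trace = t := (LinearMap.trace_eq_matrix_trace T b A).symm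
    have h2 : Am.det = d := LinearMap.det_toMatrix b A
    rw [← h1, ← h2, Matrix.trace_fin_two, Matrix.det_fin_two]
    ext i j
    fin_cases i <;> fin_cases j <;> simp [Matrix.mul_apply, Fin.sum_univ_two] <;> ring
  set E : Module.End T ρ.V := δ • (A - α • 1)
  have hEid : E * E = E := by
    have h2 : A * A = t • A - d • 1 := M.injective (by simpa [map_mul, map_sub, map_smul] using hCH)
    have hd : d = α * (t - α) := by linear_combination hα
    simp only [E, sub_mul, mul_sub, h2, smul_mul_assoc, mul_smul_comm, one_mul,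
      mul_one, smul_sub, smul_smul, hd]
    have : δ * δ * (t - α - α) = δ := by
      rw [mul_assoc, mul_comm δ (t - α - α), ← hβ, hδu, mul_one]
    match_scalars
    · linear_combination this
    · linear_combination (-α) * this
  have hAE : A = α • (1 - E) + β • E := by
    simp only [E, smul_sub, smul_smul]
    match_scalars
    · linear_combination -hδu
    · linear_combination α * hδu
  have hYN : ∀ N : ℕ, (A - 1) ^ N = (α - 1) ^ N • (1 - E) + (β - 1) ^ N • E := by
    intro N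
    induction N with
    | zero => simp
    | succ N ih =>
      rw [pow_succ, ih, hAE]
      have e1 : E * (1 - E) = 0 := by rw [mul_sub, mul_one, hEid, sub_self]
      have e2 : (1 - E) * E = 0 := by rw [sub_mul, one_mul, hEid, sub_self]
      have e3 : (1 - E) * (1 - E) = 1 - E := by rw [sub_mul, one_mul, e1, sub_zero]
      rw [show α • (1 - E) + β • E - 1 = (α - 1) • (1 - E) + (β - 1) • E by module]
      simp only [add_mul, mul_add, smul_mul_smul_comm, e1, e2, e3, hEid, smul_zero, add_zero,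
        zero_add, pow_succ]
  have hmain : ∀ σ ∈ P.inertiaSubgroupIn ℚ, E * (ρ.ρ σ - 1) = 0 := by
    intro σ hσ
    refine eq_zero_of_forall_trace_mul_eq_zero ρ hirr _ fun g => ?_
    rw [← Ideal.mem_bot, ← Ideal.iInf_pow_eq_bot_of_isLocalRing m
      (IsLocalRing.maximalIdeal.isMaximal T).ne_top, Ideal.mem_iInf]
    intro k
    obtain ⟨n, hn⟩ := hsepτ (k + 1)
    have := hfin n
    obtain ⟨e, heu, he⟩ := exists_projector D τ n
    obtain ⟨L₀, hL₀⟩ := exists_kill D hpS hρ hpT hres hP (hsep P hP) he hσ₀ hc₀ hc.symm hne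
    set L := max L₀ k
    set N := (p - 1) * p ^ L with hN
    let Z : MonoidAlgebra ℤ Γℚ :=
      (1 - (MonoidAlgebra.of ℤ Γℚ σ₀ - 1) ^ N) * (MonoidAlgebra.of ℤ Γℚ σ - 1)
    have hgal : MonoidAlgebra.lift ℤ (Module.End ℤ (D.X n)) Γℚ (D.gal n) Z =
        (1 - (D.gal n σ₀ - 1) ^ N) * (D.gal n σ - 1) := by
      simp [Z]
    have hrho : MonoidAlgebra.lift ℤ (Module.End T ρ.V) Γℚ ρ.ρ Z =
        (1 - (A - 1) ^ N) * (ρ.ρ σ - 1) := by
      simp [Z, hA]
    have hk := trace_mem_of_kill D ρ τ hpS hρ hirr (Nat.succ_ne_zero k) hn heu Z.coeff.support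
      (fun i => Z.coeff i) (by
        have h0 := hL₀ L (le_max_left _ _) σ hσ
        rw [← hgal, MonoidAlgebra.lift_apply, Finsupp.sum, Finset.sum_mul] at h0
        simpa only [smul_mul_assoc] using h0) g
    have hsum : ∑ i ∈ Z.coeff.support, Z.coeff i • LinearMap.trace T ρ.V (ρ.ρ (g * i)) =
        LinearMap.trace T ρ.V (ρ.ρ g * MonoidAlgebra.lift ℤ (Module.End T ρ.V) Γℚ ρ.ρ Z) := by
      rw [MonoidAlgebra.lift_apply, Finsupp.sum, Finset.mul_sum, map_sum]
      refine Finset.sum_congr rfl fun i _ => ?_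
      rw [mul_smul_comm, map_zsmul, ← map_mul]
    rw [hsum, hrho] at hk
    have ha : (α - 1) ^ N - 1 ∈ m ^ (k + 1) := by
      have hbase : (α - 1) ^ (p - 1) - 1 ∈ m := by
        rw [← IsLocalRing.residue_eq_zero_iff, map_sub, map_pow, map_one]
        rw [← IsLocalRing.residue_eq_zero_iff, map_sub, map_natCast, sub_eq_zero] at hαm
        rw [map_sub, map_one, hαm, sub_eq_zero]
        have : CharP (IsLocalRing.ResidueField T) p :=
          (CharP.charP_iff_prime_eq_zero hp).mpr (by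
            rw [← map_natCast (IsLocalRing.residue T), IsLocalRing.residue_eq_zero_iff]; exact hpT)
        have h1 : ((c₀ - 1 : ℕ) : ZMod p) ^ (p - 1) = 1 := by
          refine ZMod.pow_card_sub_one_eq_one ?_
          rw [Ne, ZMod.natCast_eq_zero_iff]
          intro hd
          rw [pow_one] at hc₀p
          have := Nat.le_of_dvd (by omega) hd
          omega
        have := congrArg (ZMod.castHom dvd_rfl (IsLocalRing.ResidueField T)) h1
        rw [map_pow, map_natCast, map_one, Nat.cast_sub hc₀, Nat.cast_one] at this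
        exact this
      rw [hN, pow_mul]
      exact Ideal.pow_le_pow_right (by omega) (one_add_pow_prime_pow_mem hpT hbase L)
    have hb : (β - 1) ^ N ∈ m ^ (k + 1) := by
      refine Ideal.pow_le_pow_right ?_ (Ideal.pow_mem_pow hβm N)
      have h1 : L < p ^ L := Nat.lt_pow_self hp.one_lt
      have h2 : p ^ L ≤ (p - 1) * p ^ L := Nat.le_mul_of_pos_left _ (by have := hp.two_le; omega)
      omega
    have hdiff : ∀ Φ : Module.End T ρ.V, LinearMap.trace T ρ.V (ρ.ρ g * (E * Φ)) =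
        LinearMap.trace T ρ.V (ρ.ρ g * ((1 - (A - 1) ^ N) * Φ)) +
          (((α - 1) ^ N - 1) * LinearMap.trace T ρ.V (ρ.ρ g * ((1 - E) * Φ)) +
            (β - 1) ^ N * LinearMap.trace T ρ.V (ρ.ρ g * (E * Φ))) := by
      intro Φ
      have key : E * Φ = (1 - (A - 1) ^ N) * Φ + (((α - 1) ^ N - 1) • ((1 - E) * Φ) +
          (β - 1) ^ N • (E * Φ)) := by
        rw [hYN]
        simp only [sub_mul, add_mul, smul_mul_assoc, one_mul]
        module
      conv_lhs => rw [key]
      rw [mul_add, mul_add, mul_smul_comm, mul_smul_comm, map_add, map_add, map_smul, map_smul,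
        smul_eq_mul, smul_eq_mul]
    rw [hdiff]
    refine Ideal.pow_le_pow_right (Nat.le_succ k) ?_
    exact Ideal.add_mem _ hk (Ideal.add_mem _ (Ideal.mul_mem_right _ _ ha)
      (Ideal.mul_mem_right _ _ hb))
  have hEv : ∀ σ ∈ P.inertiaSubgroupIn ℚ, ∀ v, E (ρ.ρ σ v - v) = 0 := fun σ hσ v =>
    LinearMap.congr_fun (hmain σ hσ) v
  have hEd : ∀ g ∈ P.decompositionSubgroup ℚ, ∀ v, E v = 0 → E (ρ.ρ g v) = 0 := by
    intro g hg v hv
    obtain ⟨u, hu⟩ := hαu.exists_right_inv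
    have h1 : A v - v = (α - 1) • v := by
      rw [hAE]
      simp [hv, sub_smul]
    have h2 : ρ.ρ g (A v - v) = ρ.ρ (g * σ₀ * g⁻¹) (ρ.ρ g v) - ρ.ρ g v := by
      rw [map_sub, hA, ← Module.End.mul_apply, ← Module.End.mul_apply, ← map_mul, ← map_mul]
      congr 3
      group
    have h3 : E (ρ.ρ g (A v - v)) = 0 := h2 ▸ hEv _ (conj_mem_inertia hg hσ₀) _
    rw [h1, map_smul, map_smul] at h3
    calc E (ρ.ρ g v) = ((α - 1) * u) • E (ρ.ρ g v) := by rw [hu, one_smul]
      _ = u • ((α - 1) • E (ρ.ρ g v)) := by rw [mul_comm, mul_smul]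
      _ = 0 := by rw [h3, smul_zero]
  -- a basis adapted to the kernel of `E`
  have hker : ∀ v, E ((1 - E) v) = 0 := fun v => by
    rw [← Module.End.mul_apply, mul_sub, mul_one, hEid, sub_self, LinearMap.zero_apply]
  set Em := M E with hEm
  have hEtr : Em 0 0 + Em 1 1 = 1 := by
    have h1 : LinearMap.trace T ρ.V E = Em.trace := LinearMap.trace_eq_matrix_trace T b E
    rw [Matrix.trace_fin_two] at h1
    rw [← h1, show E = δ • (A - α • 1) from rfl, map_smul, map_sub, map_smul]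
    rw [show LinearMap.trace T ρ.V (1 : Module.End T ρ.V) = (2 : T) by
      rw [LinearMap.trace_one, ρ.finrank_eq]; norm_num]
    simp only [smul_eq_mul]
    linear_combination hδu
  have hEm2 : Em * Em = Em := by rw [hEm, ← map_mul, hEid]
  have h01 : Em 0 1 * Em 1 0 = Em 0 0 * Em 1 1 := by
    have := congrFun (congrFun hEm2 0) 0
    simp only [Matrix.mul_apply, Fin.sum_univ_two] at this
    linear_combination this + Em 0 0 * (-hEtr)
  have hrepr : ∀ i j, b.repr (E (b j)) i = Em i j := fun i j =>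
    (LinearMap.toMatrixAlgEquiv_apply b E i j).symm
  obtain ⟨j, hj⟩ : ∃ j : Fin 2, IsUnit (Em j j) := by
    rcases IsLocalRing.isUnit_or_isUnit_of_add_one hEtr with h | h <;> exact ⟨_, h⟩
  let w : Fin 2 → ρ.V := ![(1 - E) (b (1 - j)), E (b j)]
  have hw : IsUnit (b.det w) := by
    rw [Module.Basis.det_apply, Matrix.det_fin_two]
    simp only [Module.Basis.toMatrix_apply, w, Matrix.cons_val_zero, Matrix.cons_val_one,
      LinearMap.sub_apply, Module.End.one_apply, map_sub, Finsupp.sub_apply, hrepr,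
      Module.Basis.repr_self, Finsupp.single_apply]
    rcases Fin.exists_fin_two.mp ⟨j, (rfl : j = j)⟩ with h | h <;> subst h <;> norm_num
    · have : -(Em 0 1 * Em 1 0) - Em 0 0 * (1 - Em 1 1) = -Em 0 0 := by linear_combination -h01
      rw [this]; exact hj.neg
    · have : (1 - Em 0 0) * Em 1 1 + Em 0 1 * Em 1 0 = Em 1 1 := by linear_combination h01
      rw [this]; exact hj
  obtain ⟨hli, hsp⟩ := (b.is_basis_iff_det).mpr hw
  let b' := Module.Basis.mk hli hsp.ge
  have hb' : ∀ i, b' i = w i := fun i => Module.Basis.mk_apply hli hsp.ge i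
  refine ⟨T ∙ b' 0, ⟨b', rfl⟩, ?_, ?_⟩
  · intro g hg v hv
    obtain ⟨c, rfl⟩ := Submodule.mem_span_singleton.mp hv
    refine mem_span_of_apply_eq_zero b' hb' (hker _) ?_ (hEd g hg _ ?_)
    · simp only [w, Matrix.cons_val_one, Matrix.cons_val_fin_one]
      rw [← Module.End.mul_apply, hEid]
    · rw [map_smul, hb']
      simp only [w, Matrix.cons_val_zero]
      rw [hker, smul_zero]
  · intro σ hσ v
    refine mem_span_of_apply_eq_zero b' hb' (hker _) ?_ (hEv σ hσ v)
    simp only [w, Matrix.cons_val_one, Matrix.cons_val_fin_one]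
    rw [← Module.End.mul_apply, hEid]

end Main

end Fermat.Agent.BAD.Ordinary
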