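import Fermat.Agent.BAD.Ordinary.NewPart
import Fermat.Agent.BAD.Ordinary.Separate
import Fermat.Agent.BAD.Ordinary.TowerOrdinary
import Fermat.Agent.TraceFn.JZero
import Fermat.Agent.Flat.JZero
import Fermat.Agent.HK.CorrGalois
import Fermat.Agent.Galois.Places

/-!
# The torsion levels of the Jacobian separate, given the expansions at `p`

For level `N` with two Galois equivariant expansions over a curve of level `M` whose torsion has
finite flat models at `p`.
-/

set_option autoImplicit false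
set_option linter.style.haveILetI false

noncomputable section

open AlgebraicCurve ModularCurve IsLocalRing
open Fermat.Agent.Galois (Qbar GalQ)

namespace Fermat.Agent.BAD.Ordinary

section Push

variable {L : Type} [Field L] [Algebra ℚ L] {A : ValuationSubring L} {F C E : Type} [Field F]
  [Algebra L F] [Field C] [Algebra (ResidueField A) C] [Field E] [Algebra L E] {p : ℕ} [NeZero p]
  {D : BadCurve (residue A) F C} (X : Expansions p D E)

/-- Pushforward of classes along a degeneracy map. -/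
def Expansions.push (i : Fin 2) : Pic0 L F →+ Pic0 L E :=
  QuotientAddGroup.map _ _
    (((Divisor.pushforwardAlong (X.φ i) (X.integral i)).domRestrict
      (Divisor.degZero (K := L) (F := F))).codRestrict _
        fun Z => Divisor.pushforwardAlong_mem_degZero (X.φ i) (X.integral i) Z.2)
    (by
      rintro ⟨Z, hZ0⟩ hZ
      simp only [AddSubgroup.mem_addSubgroupOf] at hZ ⊢
      exact Divisor.isPrincipal_pushforwardAlong (X.φ i) (X.integral i) (X.finite i) (X.norm i) hZ)

theorem Expansions.push_mk (i : Fin 2) (Z : Divisor.degZero (K := L) (F := F)) :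
    X.push i (Pic0.mk Z) = Pic0.mk ⟨Divisor.pushforwardAlong (X.φ i) (X.integral i) Z,
      Divisor.pushforwardAlong_mem_degZero (X.φ i) (X.integral i) Z.2⟩ := rfl

theorem Expansions.isPrincipal_of_push_eq_zero {i : Fin 2}
    {Z : Divisor.degZero (K := L) (F := F)} (h : X.push i (Pic0.mk Z) = 0) :
    Divisor.IsPrincipal (Divisor.pushforwardAlong (X.φ i) (X.integral i) (Z : Divisor L F)) := by
  rw [X.push_mk] at h
  exact Divisor.mem_principal.mp
    (AddSubgroup.mem_addSubgroupOf.mp ((QuotientAddGroup.eq_zero_iff _).mp h))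

theorem Expansions.push_smul {g : SemilinearAut L F} {g' : SemilinearAut L E} (i : Fin 2)
    (h : ∀ x, g • X.φ i x = X.φ i (g' • x)) (z : Pic0 L F) :
    X.push i (g • z) = g' • X.push i z := by
  obtain ⟨Z, rfl⟩ := Pic0.mk_surjective z
  rw [SemilinearAut.pic0_smul_mk, X.push_mk, X.push_mk, SemilinearAut.pic0_smul_mk]
  refine congrArg Pic0.mk (Subtype.ext ?_)
  show Divisor.pushforwardAlong (X.φ i) (X.integral i) (g • (Z : Divisor L F)) = _
  exact HK.Corr.pushforwardAlong_smul (X.φ i) (X.integral i) h _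

end Push

/-- One torsion level separates, for Galois equivariant expansions. -/
theorem Expansions.exists_separating_level {p : ℕ} [Fact p.Prime] (hp2 : p ≠ 2)
    {A : ValuationSubring Qbar} (hA : A.LiesOverPrime p) {F C E : Type} [Field F] [Algebra Qbar F]
    [Field C] [Algebra (ResidueField A) C] [Field E] [Algebra Qbar E]
    {D : BadCurve (residue A) F C} (X : Expansions p D E)
    (gF : GalQ → SemilinearAut Qbar F) (gE : GalQ → SemilinearAut Qbar E)
    (hbase : ∀ σ a, SemilinearAut.baseAut (gF σ) a = σ a)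
    (he : ∀ σ : GalQ, σ ∈ A.inertiaSubgroupIn ℚ → ∀ i f,
      X.e i (gF σ • f) = coeffMap (σ : Qbar →+* Qbar) (X.e i f))
    (hu : ∀ σ : GalQ, σ ∈ A.inertiaSubgroupIn ℚ → gF σ • D.u = D.u)
    (hφ : ∀ (σ : GalQ) (i : Fin 2) x, gF σ • X.φ i x = X.φ i (gE σ • x)) (n : ℕ)
    {XN : AddSubgroup (Pic0 Qbar F)} (hXN : ∀ x, x ∈ XN ↔ p ^ n • x = 0)
    {XM : AddSubgroup (Pic0 Qbar E)} (hXM : ∀ x, x ∈ XM ↔ p ^ n • x = 0) [Finite XM]
    (gal : GalQ → Module.End ℤ XN)
    (hgal : ∀ σ x, (gal σ x : Pic0 Qbar F) = gF σ • (x : Pic0 Qbar F))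
    {act : GalQ → XM → XM} (hact : ∀ σ x, (act σ x : Pic0 Qbar E) = gE σ • (x : Pic0 Qbar E))
    {B : Subalgebra (GaloisRep.ratLocalizedAt p) (XM → Qbar)} (hB : FFG.IsModel ℚ act B)
    {ζ : Qbar} (hζ : IsPrimitiveRoot ζ p) :
    ∃ K : AddSubgroup XN,
      (∀ σ ∈ A.inertiaSubgroupIn ℚ, ∀ x, gal σ x - x ∈ K) ∧
      (∀ σ ∈ A.inertiaSubgroupIn ℚ, ∀ x ∈ K, gal σ x ∈ K) ∧
      ∀ U : AddSubgroup XN, (∀ σ ∈ A.inertiaSubgroupIn ℚ, ∀ x ∈ U, gal σ x ∈ U) →
        (∀ g ∈ A.inertiaSubgroupIn ℚ, ∀ c : ℕ, g ζ = ζ ^ c →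
          ∀ x ∈ U, ∃ L : ℕ, (((gal g - 1) * (gal g - c)) ^ L) x = 0) →
        ∀ σ₀ ∈ A.inertiaSubgroupIn ℚ, σ₀ ζ ≠ ζ →
          ∀ x ∈ U, x ∈ K → gal σ₀ x = x → x = 0 := by
  have hp : p.Prime := Fact.out
  haveI : CharP (ResidueField A) p := Galois.place_charP_residueField hA hp
  haveI : IsAlgClosed (ResidueField A) := Galois.place_residueField_isAlgClosed A
  haveI : FF.IsFunctionField Qbar F := ⟨D.u, D.chartFin.transcendental_u, D.chartFin.finite_F⟩
  let π : Fin 2 → XN →+ XM := fun i => ((X.push i).comp XN.subtype).codRestrict XM fun x =>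
    (hXM _).mpr (by
      show p ^ n • X.push i (x : Pic0 Qbar F) = 0
      rw [← map_nsmul, (hXN _).mp x.2, map_zero])
  have hsym : ∀ σ ∈ A.inertiaSubgroupIn ℚ, D.Sym (gF σ) (RingEquiv.refl C) :=
    fun σ hσ => X.sym_of_inertia hσ (he σ hσ) (hu σ hσ)
  have hpn : 0 < p ^ n := pow_pos hp.pos n
  let R : AddSubgroup XN := (D.powResPart hpn).comap XN.subtype
  refine exists_separating hp2 hA gal hB
    (fun x => Subtype.ext ((hXN _).mp x.2)) π
    (fun i σ x => Subtype.ext ((congrArg (X.push i) (hgal σ x)).trans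
      ((X.push_smul i (fun y => hφ σ i y) _).trans (hact σ (π i x)).symm))) R
    (fun σ hσ x => ?_) (fun σ hσ x hx => ?_) hζ ?_
  · show D.HasPowRes (p ^ n) ((gal σ x - x : XN) : Pic0 Qbar F)
    rw [AddSubgroup.coe_sub, hgal]
    exact D.hasPowRes_sub (hsym σ hσ) hpn ((hXN _).mp x.2)
  · show D.HasPowRes (p ^ n) ((gal σ x : XN) : Pic0 Qbar F)
    rw [hgal]
    exact BadCurve.HasPowRes.sym hx (hsym σ hσ)
  intro y hy hpy hπy σ hσ c hc
  rcases Nat.eq_zero_or_pos n with rfl | hn
  · rw [show y = 0 from Subtype.ext (by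
      have h := (hXN _).mp y.2
      rwa [pow_zero, one_smul] at h), map_zero, smul_zero]
  have hres : D.HasPowRes p (y : Pic0 Qbar F) := by
    have h := BadCurve.HasPowRes.descend (D := D) (p := p) (k := 1) hn
      (z := (y : Pic0 Qbar F)) hy (by rw [pow_one]; exact congrArg Subtype.val hpy)
    rwa [pow_one] at h
  obtain ⟨ζu, hζu⟩ := hζ.isUnit hp.ne_zero
  rw [← hζu] at hζ hc
  obtain ⟨Z, hZ⟩ := Pic0.mk_surjective (y : Pic0 Qbar F)
  exact Subtype.ext ((hgal σ y).trans
    (X.smul_eq_nsmul_of_hasPowRes hA hσ (he σ hσ) (hbase σ) (hu σ hσ)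
      (IsPrimitiveRoot.coe_units_iff.mp hζ) hc hres
      ⟨Z, hZ, fun i => X.isPrincipal_of_push_eq_zero
        (hZ ▸ congrArg Subtype.val (hπy i))⟩))

/-- **Every torsion level of the Jacobian separates.** -/
theorem separates_of_expansions {p : ℕ} [Fact p.Prime] (hp2 : p ≠ 2) {N M : ℕ} [NeZero N]
    [NeZero M] {S : Finset ℕ} (hpS : p ∈ S) (hNS : ∀ q : ℕ, q.Prime → q ∣ N → q ∈ S)
    (hfin : TraceFn.JTorsFiniteLevel N p) (hfrob : TraceFn.JFrobeniusQuadratic N p)
    (hflat : Flat.JFlatTorsion M p) {A : ValuationSubring Qbar} (hA : A.LiesOverPrime p)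
    {C : Type} [Field C] [Algebra (ResidueField A) C]
    {D : BadCurve (residue A) (modularFunctionFieldBar N) C}
    (X : Expansions p D (modularFunctionFieldBar M))
    (he : ∀ σ : GalQ, σ ∈ A.inertiaSubgroupIn ℚ → ∀ i f,
      X.e i (arithmeticGalois (modularFunctionFieldFull N) σ • f)
        = coeffMap (σ : Qbar →+* Qbar) (X.e i f))
    (hu : ∀ σ : GalQ, σ ∈ A.inertiaSubgroupIn ℚ →
      arithmeticGalois (modularFunctionFieldFull N) σ • D.u = D.u)
    (hφ : ∀ (σ : GalQ) (i : Fin 2) x, arithmeticGalois (modularFunctionFieldFull N) σ • X.φ i x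
      = X.φ i (arithmeticGalois (modularFunctionFieldFull M) σ • x)) :
    Separates (TraceFn.jzeroTower N S p hpS Fact.out hNS hfin hfrob) A := by
  intro n
  obtain ⟨B, hB⟩ := FFG.HasFlatModel.exists_isModel (K := ℚ) (hflat n)
  haveI : Finite (TraceFn.torsLevel (JZero M) p n) := FFG.HasFlatModel.finite (K := ℚ) (hflat n)
  exact X.exists_separating_level hp2 hA (fun σ => arithmeticGalois (modularFunctionFieldFull N) σ)
    (fun σ => arithmeticGalois (modularFunctionFieldFull M) σ) (fun σ a => rfl) he hu hφ n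
    (fun x => TraceFn.mem_torsLevel _) (fun x => TraceFn.mem_torsLevel _)
    (fun σ => TraceFn.galTors (JZero N) p n σ) (fun σ x => rfl) (fun σ x => rfl) hB
    (by simpa only [pow_one] using TraceFn.zetaPow_spec p 1)

end Fermat.Agent.BAD.Ordinary
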