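import Fermat.Agent.BAD.Ordinary.S33Inputs
import Fermat.Agent.BAD.Modular.Curve
import Fermat.Agent.FF.Along
import Fermat.Agent.RED.Specialization.SwapField

/-!
# The expansions of level `M p` at the two cusps over a place at `p`
-/

set_option autoImplicit false
set_option linter.unusedSectionVars false
set_option linter.style.haveILetI false
set_option synthInstance.maxHeartbeats 200000
set_option maxHeartbeats 800000

noncomputable section

open AlgebraicCurve ModularCurve IsLocalRing Fermat.Agent.HK.Corr
open Fermat.Agent.Galois (GalQ)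
open Fermat.Agent.BAD.Modular (Qb twin emb)

namespace Fermat.Agent.BAD.Ordinary

/-- The residue `j ^ (p + 1)` of the coordinate is no series in `Q ^ p`. -/
theorem pow_succ_ne_qExpand {k : Type*} [Field k] {p : ℕ} [NeZero p] (hp : p.Prime)
    {J : LaurentSeries k} (hJ : J ≠ 0) (hord : J.order = -1) (b : LaurentSeries k) :
    qExpand k p b ≠ J ^ (p + 1) := by
  intro h
  have h1 : (J ^ (p + 1)).coeff (J ^ (p + 1)).order ≠ 0 :=
    mt HahnSeries.coeff_order_eq_zero.mp (pow_ne_zero _ hJ)
  rw [HahnSeries.order_pow, hord, nsmul_eq_mul, ← h] at h1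
  refine h1 (qExpand_coeff_of_not_dvd p _ ?_)
  rintro ⟨d, hd⟩
  have h2 : (p : ℤ) ∣ 1 := ⟨-1 - d, by push_cast at hd; linear_combination -hd⟩
  have := Int.le_of_dvd one_pos h2
  have := hp.two_le
  omega

variable {M p : ℕ} [NeZero M] [NeZero p] (hp : p.Prime) (hpM : ¬ p ∣ M)

theorem arith_smul_jElem (σ : GalQ) :
    arithmeticGalois (modularFunctionFieldFull M) σ • MF.Coeff.jElem Qb M = MF.Coeff.jElem Qb M :=
  Subtype.ext (by
    rw [coe_arithmeticGalois_smul, MF.Coeff.coe_jElem, ModularCurve.coeffMap_jqModC])

variable {A : ValuationSubring Qb} (hA : A.LiesOverPrime p)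

/-- The two expansions of level `M p` with the two degeneracy maps from level `M`. -/
def modExpansions : Expansions p (Modular.curve hp hpM hA) (modularFunctionFieldBar M) :=
  haveI := MF.Coeff.isFunctionField_laurentBaseChange Qb (M * p)
  haveI := MF.Coeff.isFunctionField_laurentBaseChange Qb M
  have hfin : ∀ i, FiniteAlong Qb (![heckeAlphaBar Qb M p, heckeBetaBar Qb M p] i) :=
    Fin.forall_fin_two.mpr ⟨(twin M hp hpM hA).finite_a, (twin M hp hpM hA).finite_b⟩
  { e := emb M hp hpM
    e_intField := Modular.emb_mem_intField M hp hpM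
    ι := ((modularFunctionFieldFullC (ResidueField A) M).val : _ →+* _)
    mem_V := fun i f => Iff.rfl
    red := fun i f h => by
      have hR : (twin M hp hpM hA).Red i f ((((twin M hp hpM hA).resC i ⟨f, h⟩ : modularFunctionFieldFullC (ResidueField A) M)) :
          LaurentSeries (ResidueField A)) := ⟨h, rfl⟩
      rw [Modular.curve_red_eq hp hpM hA hR]
      rfl
    ubar_not_pow := fun b => by
      show qExpand (ResidueField A) p b ≠ (((Modular.curve hp hpM hA).ubar : modularFunctionFieldFullC (ResidueField A) M)
        : LaurentSeries (ResidueField A))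
      rw [Modular.coe_curve_ubar]
      exact pow_succ_ne_qExpand hp (jqModC_ne_zero_of_nontrivial _) (Modular.order_jqModC _) b
    φ := ![heckeAlphaBar Qb M p, heckeBetaBar Qb M p]
    swap := Fin.forall_fin_two.mpr
      ⟨fun x => (Modular.emb_one_alpha M hp hpM x).trans
          (congrArg _ (Modular.emb_zero_alpha M hp hpM x).symm),
        fun x => (Modular.emb_zero_beta M hp hpM x).trans
          (congrArg _ (Modular.emb_one_beta M hp hpM x).symm)⟩
    jE := MF.Coeff.jElem Qb M
    e_j := Fin.forall_fin_two.mpr
      ⟨(Modular.emb_zero_alpha M hp hpM _).trans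
          ((MF.Coeff.coe_jElem Qb M).trans RED.Spec.jSer_eq_jqModC.symm),
        (Modular.emb_one_beta M hp hpM _).trans
          ((MF.Coeff.coe_jElem Qb M).trans RED.Spec.jSer_eq_jqModC.symm)⟩
    integral := fun i => FF.isIntegral_of_finiteAlong (hfin i)
    finite := hfin
    finrank := Fin.forall_fin_two.mpr ⟨(twin M hp hpM hA).finrank_a, (twin M hp hpM hA).finrank_b⟩
    norm := fun i => FF.normFormulaAlong (![heckeAlphaBar Qb M p, heckeBetaBar Qb M p] i) (hfin i)
      (FF.separableAlong_of_isFunctionField (![heckeAlphaBar Qb M p, heckeBetaBar Qb M p] i))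
    constE := fun x _ hord => by
      have hint : IsIntegral Qb x :=
        (FF.isAlgebraic_of_forall_ord_nonneg fun v => (hord v).ge).isIntegral
      obtain ⟨c, hc⟩ := minpoly.mem_range_of_degree_eq_one Qb x
        (IsAlgClosed.degree_eq_one_of_irreducible Qb (minpoly.irreducible hint))
      exact ⟨c, hc.symm⟩ }

theorem modExpansions_e : (modExpansions hp hpM hA).e = emb M hp hpM := rfl

theorem modExpansions_φ_zero : (modExpansions hp hpM hA).φ 0 = heckeAlphaBar Qb M p := rfl

theorem modExpansions_φ_one : (modExpansions hp hpM hA).φ 1 = heckeBetaBar Qb M p := rfl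

include hp hpM in
/-- **The expansions of level `M p` at `p`.** -/
theorem hasExpansions : HasExpansions (M * p) M p := by
  intro A hA
  refine ⟨_, inferInstance, inferInstance, _, modExpansions hp hpM hA,
    fun σ _ i f => Modular.emb_arith M hp hpM σ i f, fun σ _ => ?_, fun σ => ?_⟩
  · rw [Modular.curve_u, smul_mul', Modular.arith_smul_alpha, Modular.arith_smul_beta,
      arith_smul_jElem]
  · exact Fin.forall_fin_two.mpr
      ⟨fun x => Modular.arith_smul_alpha σ x, fun x => Modular.arith_smul_beta σ x⟩

end Fermat.Agent.BAD.Ordinary
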