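import Fermat.Agent.BAD.Ordinary.TwistLifts

/-!
# Classes with power residues on both branches

Classes of order dividing `n` whose functions reduce to constants times `n`-th powers; inertia
displacements have this property and it descends to divisors of `n`.
-/

set_option autoImplicit false

noncomputable section

open AlgebraicCurve IsLocalRing

namespace Fermat.Agent.BAD

variable {L : Type} [Field L] {A : ValuationSubring L} {F C : Type} [Field F] [Algebra L F]
  [Field C] [Algebra (ResidueField A) C] (D : BadCurve (residue A) F C)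

namespace BadCurve

/-- A class with a function of divisor `n` times a representative and power residues. -/
def HasPowRes (n : ℕ) (z : Pic0 L F) : Prop :=
  ∃ (Z : Divisor.degZero (K := L) (F := F)) (f : F), Pic0.mk Z = z ∧ f ≠ 0 ∧
    (∀ v : Place L F, v.ord f = (n : ℤ) * (Z : Divisor L F) v) ∧ D.RedIsPow n f

/-- Two unit scalings of a function differ by a nonzero constant on the reduction. -/
theorem exists_red_smul_eq {i : Fin 2} {f : F} {c c' : L} (hc : c • f ∈ D.V i)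
    (hr : D.red i (c • f) ≠ 0) (hc' : c' • f ∈ D.V i) (hr' : D.red i (c' • f) ≠ 0) :
    ∃ α : ResidueField A, α ≠ 0 ∧ D.red i (c' • f) = α • D.red i (c • f) := by
  have hc0 : c ≠ 0 := fun h => hr (by simp [h])
  have hc'0 : c' ≠ 0 := fun h => hr' (by simp [h])
  rcases A.mem_or_inv_mem (c' / c) with h | h
  · have e : c' • f = ((⟨c' / c, h⟩ : A) : L) • (c • f) := by
      rw [smul_smul, div_mul_cancel₀ _ hc0]
    refine ⟨residue A ⟨c' / c, h⟩, fun h0 => hr' ?_, ?_⟩
    · rw [e, D.red_smul hc, h0, zero_smul]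
    · rw [e, D.red_smul hc]
  · have hinv : c / c' ∈ A := by rwa [← inv_div]
    have e : c • f = ((⟨c / c', hinv⟩ : A) : L) • (c' • f) := by
      rw [smul_smul, div_mul_cancel₀ _ hc'0]
    have hne : residue A ⟨c / c', hinv⟩ ≠ 0 := fun h0 => hr (by
      rw [e, D.red_smul hc', h0, zero_smul])
    exact ⟨_, inv_ne_zero hne, by rw [e, D.red_smul hc', inv_smul_smul₀ hne]⟩

theorem redIsPow_of_exists {n : ℕ} {f : F}
    (h : ∀ i, ∃ (c : L) (a : ResidueField A) (r : C), c • f ∈ D.V i ∧ D.red i (c • f) ≠ 0 ∧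
      D.red i (c • f) = a • r ^ n) : D.RedIsPow n f := by
  intro i c' hc' hr'
  obtain ⟨c, a, r, hc, hr, he⟩ := h i
  obtain ⟨α, -, hα⟩ := D.exists_red_smul_eq hc hr hc' hr'
  exact ⟨α * a, r, by rw [hα, he, smul_smul]⟩

/-- Data witnessing power residues on one branch. -/
theorem exists_scale_pow {n : ℕ} {f : F} (hf : f ≠ 0) (h : D.RedIsPow n f) (i : Fin 2) :
    ∃ (c : L) (a : ResidueField A) (r : C), c • f ∈ D.V i ∧ D.red i (c • f) ≠ 0 ∧
      D.red i (c • f) = a • r ^ n := by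
  obtain ⟨c, hc, hr⟩ := D.scale i f hf
  rw [← D.red_of_mem hc] at hr
  obtain ⟨a, r, har⟩ := h i c hc hr
  exact ⟨c, a, r, hc, hr, har⟩

/-- The classes with power residues. -/
def powResPart [IsAlgClosed L] [IsAlgClosed (ResidueField A)] {n : ℕ} (hn : 0 < n) :
    AddSubgroup (Pic0 L F) where
  carrier := {z | D.HasPowRes n z}
  zero_mem' := by
    have _ := hn
    refine ⟨0, 1, map_zero (QuotientAddGroup.mk' _), one_ne_zero, fun v => ?_, ?_⟩
    · simp
    · refine D.redIsPow_of_exists fun i => ⟨1, 1, 1, ?_, ?_, ?_⟩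
      · rw [one_smul]; exact one_mem _
      · rw [one_smul, TwoBranch.red_one]; exact one_ne_zero
      · rw [one_smul, one_smul, TwoBranch.red_one, one_pow]
  add_mem' := by
    rintro _ _ ⟨Z, f, rfl, hf, hdf, hpf⟩ ⟨Z', f', rfl, hf', hdf', hpf'⟩
    refine ⟨Z + Z', f * f', map_add (QuotientAddGroup.mk' _) Z Z', mul_ne_zero hf hf',
      fun v => ?_, D.redIsPow_of_exists fun i => ?_⟩
    · rw [v.ord_mul hf hf', hdf, hdf', AddSubgroup.coe_add, Finsupp.add_apply, mul_add]
    · obtain ⟨c, a, r, hc, hr, he⟩ := D.exists_scale_pow hf hpf i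
      obtain ⟨c', a', r', hc', hr', he'⟩ := D.exists_scale_pow hf' hpf' i
      refine ⟨c * c', a * a', r * r', ?_⟩
      rw [← smul_mul_smul_comm]
      refine ⟨mul_mem hc hc', ?_, ?_⟩
      · rw [D.red_mul hc hc']; exact mul_ne_zero hr hr'
      · rw [D.red_mul hc hc', he, he', mul_pow, smul_mul_smul_comm]
  neg_mem' := by
    rintro _ ⟨Z, f, rfl, hf, hdf, hpf⟩
    refine ⟨-Z, f⁻¹, map_neg (QuotientAddGroup.mk' _) Z, inv_ne_zero hf, fun v => ?_,
      D.redIsPow_of_exists fun i => ?_⟩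
    · rw [v.ord_inv, hdf, AddSubgroup.coe_neg, Finsupp.neg_apply, mul_neg]
    · obtain ⟨c, a, r, hc, hr, he⟩ := D.exists_scale_pow hf hpf i
      refine ⟨c⁻¹, a⁻¹, r⁻¹, ?_⟩
      rw [show c⁻¹ • f⁻¹ = (c • f)⁻¹ by rw [smul_inv₀]]
      refine ⟨D.inv_mem_of_red_ne_zero hc hr, ?_, ?_⟩
      · rw [D.red_inv hc hr]; exact inv_ne_zero hr
      · rw [D.red_inv hc hr, he, smul_inv₀, inv_pow]

variable {D}

theorem HasPowRes.smul_eq_zero {n : ℕ} {z : Pic0 L F} (h : D.HasPowRes n z) : n • z = 0 := by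
  obtain ⟨Z, f, rfl, hf, hord, -⟩ := h
  refine (map_nsmul (QuotientAddGroup.mk' _) n Z).symm.trans ((QuotientAddGroup.eq_zero_iff _).mpr ?_)
  rw [AddSubgroup.mem_addSubgroupOf]
  exact Divisor.mem_principal.mpr ⟨f, hf, fun v => by
    rw [hord, AddSubgroupClass.coe_nsmul, Finsupp.smul_apply, nsmul_eq_mul]⟩

theorem ord_smul_of_divisor (σ : SemilinearAut L F) {n : ℕ} {Z : Divisor L F} {f : F}
    (hf : ∀ v : Place L F, v.ord f = (n : ℤ) * Z v) (v : Place L F) :
    v.ord (σ • f) = (n : ℤ) * (σ • Z) v := by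
  have h := SemilinearAut.ord_smul σ (σ⁻¹ • v) f
  rw [smul_inv_smul] at h
  rw [h, hf, SemilinearAut.divisor_smul_apply]

omit D in
theorem smul_smul_eq (σ : SemilinearAut L F) (c : L) (f : F) :
    σ • (c • f) = SemilinearAut.baseAut σ c • (σ • f) := by
  rw [Algebra.smul_def, smul_mul', SemilinearAut.smul_algebraMap, ← Algebra.smul_def]

theorem HasPowRes.sym {n : ℕ} {z : Pic0 L F} (h : D.HasPowRes n z) {σ : SemilinearAut L F}
    (hσ : D.Sym σ (RingEquiv.refl C)) : D.HasPowRes n (σ • z) := by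
  obtain ⟨Z, f, rfl, hf, hord, hpow⟩ := h
  refine ⟨SemilinearAut.degZeroSMulHom σ Z, σ • f, (SemilinearAut.pic0_smul_mk σ Z).symm,
    (smul_ne_zero_iff_ne σ).mpr hf, fun v => ord_smul_of_divisor σ hord v,
    D.redIsPow_of_exists fun i => ?_⟩
  obtain ⟨c, a, r, hc, hr, he⟩ := D.exists_scale_pow hf hpow i
  refine ⟨SemilinearAut.baseAut σ c, a, r, ?_⟩
  rw [← smul_smul_eq, hσ.red_eq i _ hc]
  exact ⟨hσ.mem i _ hc, hr, he⟩

/-- Inertia displacements have power residues. -/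
theorem hasPowRes_sub [IsAlgClosed L] {σ : SemilinearAut L F} (hσ : D.Sym σ (RingEquiv.refl C))
    {n : ℕ} (hn : 0 < n) {z : Pic0 L F} (hz : n • z = 0) : D.HasPowRes n (σ • z - z) := by
  obtain ⟨Z, rfl⟩ := Pic0.mk_surjective z
  have _ := hn
  have hp := (QuotientAddGroup.eq_zero_iff (n • Z)).mp
    ((map_nsmul (QuotientAddGroup.mk' _) n Z).trans hz)
  rw [AddSubgroup.mem_addSubgroupOf] at hp
  obtain ⟨f, hf, hdf⟩ := Divisor.mem_principal.mp hp
  have hord : ∀ v : Place L F, v.ord f = (n : ℤ) * (Z : Divisor L F) v := fun v => by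
    rw [← hdf, AddSubgroupClass.coe_nsmul, Finsupp.smul_apply, nsmul_eq_mul]
  refine ⟨SemilinearAut.degZeroSMulHom σ Z - Z, (σ • f) * f⁻¹, ?_,
    mul_ne_zero ((smul_ne_zero_iff_ne σ).mpr hf) (inv_ne_zero hf), fun v => ?_,
    D.redIsPow_of_exists fun i => ?_⟩
  · rw [SemilinearAut.pic0_smul_mk]
    exact map_sub (QuotientAddGroup.mk' _) _ _
  · rw [v.ord_mul ((smul_ne_zero_iff_ne σ).mpr hf) (inv_ne_zero hf), v.ord_inv,
      ord_smul_of_divisor σ hord v, hord v, AddSubgroupClass.coe_sub, Finsupp.sub_apply, mul_sub,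
      sub_eq_add_neg]
    rfl
  · obtain ⟨c, hc, hr⟩ := D.scale i f hf
    rw [← D.red_of_mem hc] at hr
    have hc' := hσ.mem i _ hc
    refine ⟨SemilinearAut.baseAut σ c / c, 1, 1, ?_⟩
    have e : (SemilinearAut.baseAut σ c / c) • ((σ • f) * f⁻¹) = (σ • (c • f)) * (c • f)⁻¹ := by
      rw [smul_smul_eq, smul_inv₀, smul_mul_smul_comm, div_eq_mul_inv]
    rw [e, D.red_mul hc' (D.inv_mem_of_red_ne_zero hc hr), D.red_inv hc hr, hσ.red_eq i _ hc,
      RingEquiv.refl_apply, mul_inv_cancel₀ hr, one_pow, one_smul]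
    exact ⟨mul_mem hc' (D.inv_mem_of_red_ne_zero hc hr), one_ne_zero, rfl⟩

/-- Power residues descend to the exact order, in residue characteristic `p`. -/
theorem HasPowRes.descend [IsAlgClosed L] [IsAlgClosed (ResidueField A)] {p : ℕ} [Fact p.Prime]
    [CharP (ResidueField A) p] {n k : ℕ} (hkn : k ≤ n) {z : Pic0 L F}
    (h : D.HasPowRes (p ^ n) z) (hz : p ^ k • z = 0) : D.HasPowRes (p ^ k) z := by
  have hp : p.Prime := Fact.out
  have : FF.IsFunctionField L F :=
    ⟨D.u, D.chartFin.transcendental_u, D.chartFin.finite_F⟩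
  obtain ⟨Z, f, rfl, hf, hord, hpow⟩ := h
  have hpr := (QuotientAddGroup.eq_zero_iff (p ^ k • Z)).mp
    ((map_nsmul (QuotientAddGroup.mk' _) _ Z).trans hz)
  rw [AddSubgroup.mem_addSubgroupOf] at hpr
  obtain ⟨g, hg, hdg⟩ := Divisor.mem_principal.mp hpr
  set q := p ^ (n - k) with hq
  have hqk : p ^ n = p ^ k * q := by rw [hq, ← pow_add, Nat.add_sub_cancel' hkn]
  have hgord : ∀ v : Place L F, v.ord g = ((p ^ k : ℕ) : ℤ) * (Z : Divisor L F) v := fun v => by
    rw [← hdg, AddSubgroupClass.coe_nsmul, Finsupp.smul_apply, nsmul_eq_mul]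
  obtain ⟨l, hl⟩ := Ordinary.exists_const_of_no_pole D (f := f * (g ^ q)⁻¹) fun v => by
    refine v.adicValuation_le_one_iff.mpr (Or.inr ?_)
    rw [v.ord_mul hf (inv_ne_zero (pow_ne_zero _ hg)), v.ord_inv, ← zpow_natCast, v.ord_zpow,
      hgord, hord, hqk]
    push_cast
    ring_nf
    exact le_refl _
  have hl0 : l ≠ 0 := fun h0 => by
    rw [h0, map_zero] at hl
    exact mul_ne_zero hf (inv_ne_zero (pow_ne_zero _ hg)) hl
  have hfe : f = l • g ^ q := by
    rw [Algebra.smul_def, ← hl, inv_mul_cancel_right₀ (pow_ne_zero _ hg)]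
  refine ⟨Z, g, rfl, hg, hgord, D.redIsPow_of_exists fun i => ?_⟩
  obtain ⟨d, hd, hr⟩ := D.scale i g hg
  rw [← D.red_of_mem hd] at hr
  have e : (d ^ q * l⁻¹) • f = (d • g) ^ q := by
    rw [hfe, smul_smul, inv_mul_cancel_right₀ hl0, _root_.smul_pow]
  obtain ⟨a, s, has⟩ := hpow i (d ^ q * l⁻¹) (e ▸ pow_mem hd q)
    (by rw [e, D.red_pow hd]; exact pow_ne_zero _ hr)
  obtain ⟨b, hb⟩ := IsAlgClosed.exists_pow_nat_eq a (pow_pos hp.pos (n - k))
  refine ⟨d, b, s, hd, hr, ?_⟩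
  have : CharP C p := charP_of_injective_algebraMap (algebraMap (ResidueField A) C).injective p
  refine iterateFrobenius_inj C p (n - k) ?_
  rw [iterateFrobenius_def, iterateFrobenius_def, ← D.red_pow hd, ← e, has, _root_.smul_pow, hb,
    hqk, pow_mul]

end BadCurve

end Fermat.Agent.BAD
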