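import Fermat.Agent.BAD.Ordinary.Chart
import Fermat.Agent.BAD.Core.Tau
import Fermat.Agent.BAD.Core.Scale

/-!
# Lifting node pairs into spaces twisted by a `p`-th root

In characteristic `p` of the residue field the node lines of a space twisted by the `p`-th root of
a function reducing to `1` are the trivial ones, so every node pair lifts.
-/

set_option autoImplicit false

noncomputable section

open AlgebraicCurve WithZero Fermat.Agent.RED

namespace Fermat.Agent.BAD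

variable {L k : Type*} [Field L] [Field k] {A : ValuationSubring L} {π : A →+* k}
  {F C : Type*} [Field F] [Algebra L F] [Field C] [Algebra k C] (D : BadCurve π F C)

namespace BadCurve

/-- With residues constants times `n`-th powers a function can be normalised to reduce to `1`. -/
theorem exists_redOne_of_redIsPow [IsAlgClosed L] [IsAlgClosed k] {n : ℕ} (hn : 0 < n) {f : F}
    (hf : f ≠ 0) (hred : D.RedIsPow n f) :
    ∃ (c : L) (a : F), c ≠ 0 ∧ a ≠ 0 ∧ D.RedOne (c • (a ^ n * f)) := by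
  obtain ⟨c, a, hc, ha, hO, hr, hrf⟩ := D.exists_unit_scale hn hf
  set F' := c • (a ^ n * f) with hF'
  have hroot : ∀ i, ∃ h : C, D.red i F' = h ^ n := by
    intro i
    obtain ⟨s, r, hs, hs0, hrs⟩ := hrf i
    obtain ⟨α, h, hh⟩ := hred i s hs hs0
    obtain ⟨β, hβ⟩ := IsAlgClosed.exists_pow_nat_eq α hn
    exact ⟨r * (β • h), by rw [hrs, hh, mul_pow, _root_.smul_pow, hβ]⟩
  choose h hh using hroot
  have hh0 : ∀ i, h i ≠ 0 := fun i h0 => hr i (by rw [hh, h0, zero_pow hn.ne'])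
  obtain ⟨l, hlO, hl⟩ := D.chartFin.exists_red_eq h
  have hl0 : ∀ i, D.red i l ≠ 0 := fun i => by rw [hl]; exact hh0 i
  have hlne : l ≠ 0 := fun h0 => hl0 0 (by rw [h0, TwoBranch.red_zero])
  have hliO : l⁻¹ ∈ D.O := D.inv_mem_O hlO hl0
  have hgF : c • ((a * l⁻¹) ^ n * f) = l⁻¹ ^ n * F' := by
    rw [hF', mul_smul_comm]
    congr 1
    ring
  refine ⟨c, a * l⁻¹, hc, mul_ne_zero ha (inv_ne_zero hlne),
    hgF ▸ mul_mem (pow_mem hliO n) hO, fun i => ?_⟩
  rw [hgF, D.red_mul (pow_mem (D.mem_of_mem_O hliO i) n) (D.mem_of_mem_O hO i),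
    D.red_pow (D.mem_of_mem_O hliO i), D.red_inv (D.mem_of_mem_O hlO i) (hl0 i), hl, hh,
    ← mul_pow, inv_mul_cancel₀ (hh0 i), one_pow]

/-- In residue characteristic `p` the spaces twisted by a `p`-th root reduce onto all node
pairs. -/
theorem exists_Wt_eq_Nm_of_char {p : ℕ} [Fact p.Prime] [CharP k p] {f : F} (hf : D.RedOne f)
    (hdiv : ∀ v : Place L F, (p : ℤ) ∣ v.ord f) :
    ∃ m₀ : ℕ, ∀ m, m₀ ≤ m →
      FiniteDimensional L (twistSpace L D.u p f m) ∧ D.Wt p f m = D.Nm m := by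
  have hp : p.Prime := Fact.out
  obtain ⟨g, m₁, h1⟩ := D.exists_redSpace_eq
  obtain ⟨m₂, h2⟩ := D.twist p hp.ne_zero f hf.ne_zero hdiv
  obtain ⟨g', m₃, h3⟩ := D.exists_finrank_Nm
  refine ⟨max m₁ (max m₂ m₃), fun m hm => ?_⟩
  obtain ⟨hfd, hdim⟩ := h2 m (by omega)
  obtain ⟨hW1, hfd1, -⟩ := h1 m (by omega)
  have := (h3 m (by omega)).1
  refine ⟨hfd, ?_⟩
  have hle : D.Wt p f m ≤ D.Nm m := by
    intro r hr
    obtain ⟨hrr, -⟩ := D.Wt_mem_rr hp.pos hf hr
    refine D.mem_Nm_iff.mpr ⟨hrr, fun s hs => frobenius_inj k p ?_⟩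
    simpa [frobenius_def] using D.Wt_lev_pow_eq hp.pos hf hr hs
  refine Submodule.eq_of_le_of_finrank_le hle ?_
  rw [D.finrank_Wt, hdim, ← D.finrank_Wt (n := 1) (f := 1)]
  exact (congrArg (fun W : Submodule k (Fin 2 → C) => Module.finrank k W) hW1).ge

end BadCurve

namespace Ordinary.Coord

variable {D} (Z : Ordinary.Coord D)

/-- Every node pair is a combination of reductions of twisted sections. -/
theorem exists_lifts [IsAlgClosed L] [FF.IsFunctionField L F] {p : ℕ} [Fact p.Prime] [CharP k p]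
    {f : F} (hf : D.RedOne f) (hdiv : ∀ v : Place L F, (p : ℤ) ∣ v.ord f) :
    ∃ m₀ : ℕ, ∀ m, m₀ ≤ m → ∃ (N : ℕ) (b : Fin N → F),
      (∀ j, b j ∈ D.O ∧
        ∀ v : Place L F, v.adicValuation (b j ^ p * f) ≤ exp (Z.poleF v) ^ (p * m)) ∧
      ∀ r, Z.nodeRing.IsNode m r →
        r ∈ Submodule.span k (Set.range fun j => D.red2 (b j)) := by
  obtain ⟨m₀, h⟩ := D.exists_Wt_eq_Nm_of_char hf hdiv
  refine ⟨m₀, fun m hm => ?_⟩
  obtain ⟨hfd, hW⟩ := h m hm
  obtain ⟨N, v, hv, hspan⟩ := D.chartFin.exists_reduced_basis (twistSpace L D.u p f m)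
  have hwm := pow_mem Z.w_mem m
  have hred : ∀ j, D.red2 (v j * Z.w ^ m) = D.red2 (v j) * fun _ => Z.wbar ^ m := fun j =>
    funext fun i => by
      rw [D.red2_apply, Pi.mul_apply, D.red_mul (D.mem_of_mem_O (hv.mem j) i)
        (D.mem_of_mem_O hwm i), D.red_pow (D.mem_of_mem_O Z.w_mem i), Z.red_w, D.red2_apply]
  refine ⟨N, fun j => v j * Z.w ^ m, fun j => ⟨mul_mem (hv.mem j) hwm, ?_⟩, fun r hr => ?_⟩
  · exact Z.twistCond_iff.mp
      ((mem_twistSpace (Fact.out : p.Prime).pos).mp (hspan ▸ Submodule.subset_span ⟨j, rfl⟩))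
  · have hr' := Z.isNode_iff.mp hr
    rw [← hW, BadCurve.Wt, ← hspan, D.redSpace_eq_span hv] at hr'
    have h2 := Submodule.mem_map_of_mem (f := LinearMap.mulRight k fun _ : Fin 2 => Z.wbar ^ m) hr'
    rw [Submodule.map_span, ← Set.range_comp] at h2
    have he : (LinearMap.mulRight k fun _ : Fin 2 => Z.wbar ^ m) (fun i => r i * Z.zbar ^ m) = r :=
      funext fun i => by
        rw [LinearMap.mulRight_apply, Pi.mul_apply, mul_assoc, wbar, inv_pow,
          mul_inv_cancel₀ (pow_ne_zero _ Z.zbar_ne), mul_one]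
    rw [he] at h2
    rwa [show (fun j => D.red2 (v j * Z.w ^ m)) =
      (LinearMap.mulRight k fun _ : Fin 2 => Z.wbar ^ m) ∘ fun j => D.red2 (v j) from
        funext fun j => hred j]

end Ordinary.Coord

end Fermat.Agent.BAD
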