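import Fermat.Agent.BAD.Ordinary.SettingInst
import Fermat.Agent.BAD.Ordinary.TwistLifts
import Fermat.Agent.BAD.Ordinary.Closing
import Fermat.Agent.BAD.Ordinary.ResPart

/-!
# Inertia on classes of order `p` with power residues killed by both pushforwards

Inertia acts on them through the cyclotomic character.
-/

set_option autoImplicit false
set_option linter.style.haveILetI false

noncomputable section

open AlgebraicCurve ModularCurve IsLocalRing WithZero Fermat.Agent.RED.Spec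
open Fermat.Agent.Galois (Qbar GalQ)

namespace Fermat.Agent.BAD.Ordinary

variable {p : ℕ} [Fact p.Prime] {A : ValuationSubring Qbar} {F C E : Type} [Field F]
  [Algebra Qbar F] [Field C] [Algebra (ResidueField A) C] [Field E] [Algebra Qbar E]
  {D : BadCurve (residue A) F C}

theorem apply_mem_place {σ : GalQ} (hσ : σ ∈ A.inertiaSubgroupIn ℚ) {x : Qbar} (hx : x ∈ A) :
    σ x ∈ A := by
  obtain ⟨τ, hτ, rfl⟩ := hσ
  exact ((τ • (⟨x, hx⟩ : A) : A)).2

theorem residue_apply {σ : GalQ} (hσ : σ ∈ A.inertiaSubgroupIn ℚ) (x : A) :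
    residue A ⟨σ (x : Qbar), apply_mem_place hσ x.2⟩ = residue A x := by
  obtain ⟨τ, hτ, rfl⟩ := hσ
  have h : IsLocalRing.residue A (τ • x) = IsLocalRing.residue A x := by
    rw [SetLike.mem_coe, ValuationSubring.inertiaSubgroup, MonoidHom.mem_ker] at hτ
    exact DFunLike.congr_fun hτ (IsLocalRing.residue A x)
  exact h

namespace Expansions

/-- An automorphism acting on both expansions through inertia is a symmetry. -/
theorem sym_of_inertia (X : Expansions p D E) {σ : GalQ} (hσ : σ ∈ A.inertiaSubgroupIn ℚ)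
    {g : SemilinearAut Qbar F}
    (hg : ∀ i f, X.e i (g • f) = coeffMap (σ : Qbar →+* Qbar) (X.e i f))
    (hgu : g • D.u = D.u) : D.Sym g (RingEquiv.refl C) := by
  let σA : A →+* A :=
    ((σ : Qbar →+* Qbar).comp A.subtype).codRestrict A fun x => apply_mem_place hσ x.2
  have hres : ∀ a : A, residue A (σA a) = RingHom.id _ (residue A a) := residue_apply hσ
  have hmem : ∀ i f, f ∈ D.V i → g • f ∈ D.V i := fun i f hf => by
    rw [X.mem_V, hg]
    exact Gauss.coeffMap_mem_gaussRing_of_mem σA (σ : Qbar →+* Qbar) (RingHom.id _)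
      (fun _ => rfl) hres
      ⟨_, (X.mem_V i f).mp hf⟩
  refine ⟨hgu, hmem, fun i f hf => X.ι.injective ?_⟩
  have h := Gauss.gaussRed_coeffMap_smul σA (σ : Qbar →+* Qbar) (RingHom.id _) (fun _ => rfl) hres
    ⟨_, (X.mem_V i f).mp hf⟩
  rw [RingEquiv.refl_apply, ← X.red i (g • f) ((X.mem_V i _).mp (hmem i f hf)),
    ← X.red i f ((X.mem_V i f).mp hf)]
  simp only [hg]
  rw [h, coeffMap_id]

variable [CharP (ResidueField A) p] [IsAlgClosed (ResidueField A)] (X : Expansions p D E)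

/-- Inertia acts cyclotomically on push-trivial classes of order `p` with power residues. -/
theorem smul_eq_nsmul_of_hasPowRes [FF.IsFunctionField Qbar F] (hA : A.LiesOverPrime p)
    {σ : GalQ} (hσ : σ ∈ A.inertiaSubgroupIn ℚ) {g : SemilinearAut Qbar F}
    (hg : ∀ i f, X.e i (g • f) = coeffMap (σ : Qbar →+* Qbar) (X.e i f))
    (hgb : ∀ a, SemilinearAut.baseAut g a = σ a) (hgu : g • D.u = D.u) {ζ : Qbarˣ}
    (hζ : IsPrimitiveRoot ζ p) {c : ℕ} (hc : σ (ζ : Qbar) = (ζ : Qbar) ^ c) {z : Pic0 Qbar F}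
    (hres : D.HasPowRes p z)
    (hpush : ∃ Z : Divisor.degZero (K := Qbar) (F := F), Pic0.mk Z = z ∧
      ∀ i, Divisor.IsPrincipal (Divisor.pushforwardAlong (X.φ i) (X.integral i) (Z : Divisor Qbar F))) :
    g • z = c • z := by
  classical
  have hp : p.Prime := Fact.out
  have hsym := X.sym_of_inertia hσ hg hgu
  obtain ⟨Z₀, f₀, hZ₀, hf₀, hord₀, hred⟩ := hres
  obtain ⟨Zp, hZp, hpp⟩ := hpush
  obtain ⟨c₀, a, hc₀, ha, hf⟩ := D.exists_redOne_of_redIsPow hp.pos hf₀ hred
  set f := c₀ • (a ^ p * f₀) with hfdef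
  obtain ⟨Da, hDa, hDa0⟩ := HasPrincipalDivisors.exists_divisor (K := Qbar) a ha
  set Z₁ : Divisor.degZero (K := Qbar) (F := F) := Z₀ + ⟨Da, hDa0⟩ with hZ₁
  have hf0 : f ≠ 0 := hf.ne_zero
  have hord : ∀ v, v.ord f = (p : ℤ) * (Z₁ : Divisor Qbar F) v := fun v => by
    rw [hfdef, Algebra.smul_def, v.ord_mul ((map_ne_zero _).mpr hc₀)
      (mul_ne_zero (pow_ne_zero _ ha) hf₀), FF.ord_algebraMap, zero_add,
      v.ord_mul (pow_ne_zero _ ha) hf₀, ← zpow_natCast, v.ord_zpow, hord₀ v, hZ₁]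
    rw [AddSubgroup.coe_add, Finsupp.add_apply, ← hDa v]
    ring
  have hdiv : ∀ v : Place Qbar F, (p : ℤ) ∣ v.ord f := fun v => ⟨_, hord v⟩
  have hz₁ : Pic0.mk Z₁ = z := by
    rw [← hZ₀]
    refine (QuotientAddGroup.eq_iff_sub_mem).mpr ?_
    rw [AddSubgroup.mem_addSubgroupOf]
    refine Divisor.mem_principal.mpr ?_
    exact ⟨a, ha, fun v => by simp [hZ₁, hDa v]⟩
  have hpush₁ : ∀ i, Divisor.IsPrincipal
      (Divisor.pushforwardAlong (X.φ i) (X.integral i) (Z₁ : Divisor Qbar F)) := fun i => by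
    have hd : Divisor.IsPrincipal ((Z₁ : Divisor Qbar F) - (Zp : Divisor Qbar F)) := by
      have := (QuotientAddGroup.eq_iff_sub_mem).mp (hz₁.trans hZp.symm)
      rw [AddSubgroup.mem_addSubgroupOf] at this
      exact Divisor.mem_principal.mp (by simpa using this)
    have h2 := Divisor.isPrincipal_pushforwardAlong (X.φ i) (X.integral i) (X.finite i)
      (X.norm i) hd
    rw [map_sub] at h2
    have h3 := add_mem (Divisor.mem_principal.mpr h2) (Divisor.mem_principal.mpr (hpp i))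
    rw [sub_add_cancel] at h3
    exact Divisor.mem_principal.mp h3
  choose G hG0 hG using fun i => X.exists_normTo_eq_pow hp.pos hf0 hord i (hpush₁ i)
  set q := c * (p - 1) with hq
  set f' := g • f * f ^ q with hf'def
  have hgf0 : g • f ≠ 0 := (smul_ne_zero_iff_ne g).mpr hf0
  have hf' : D.RedOne f' := by
    refine ⟨mul_mem (hsym.mem_O hf.mem) (pow_mem hf.mem q), fun i => ?_⟩
    rw [hf'def, D.red_mul (D.mem_of_mem_O (hsym.mem_O hf.mem) i)
      (pow_mem (D.mem_of_mem_O hf.mem i) q), hsym.red_eq i f (D.mem_of_mem_O hf.mem i),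
      D.red_pow (D.mem_of_mem_O hf.mem i), hf.red, RingEquiv.refl_apply, one_pow, mul_one]
  have hdiv' : ∀ v : Place Qbar F, (p : ℤ) ∣ v.ord f' := fun v =>
    dvd_ord_mul hgf0 (pow_ne_zero _ hf0) (dvd_ord_smul g hdiv)
      (dvd_ord_pow hdiv q) v
  obtain ⟨Z, hZc, hZt⟩ := exists_coord D
    (fun a => ∀ τ ∈ A.inertiaSubgroupIn ℚ, τ (a : Qbar) = a) (exists_fixed_residue hA)
  obtain ⟨m₁, h₁⟩ := Z.exists_lifts hf hdiv
  obtain ⟨m₂, h₂⟩ := Z.exists_lifts hf' hdiv'
  set m := max m₁ m₂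
  obtain ⟨n, b, hb, hbr⟩ := h₁ m (le_max_left _ _)
  obtain ⟨n', b', hb', hbr'⟩ := h₂ ((q + 1) * m)
    ((le_max_right m₁ m₂).trans (Nat.le_mul_of_pos_left m (Nat.succ_pos q)))
  -- the field of constants
  let xs : (Fin n ⊕ Fin n') ⊕ (Fin 2 ⊕ Fin 2) → F :=
    Sum.elim (Sum.elim b b') (Sum.elim (fun i => X.φ i (G i)) ![f, Z.w])
  choose S hSfin hS using fun z : ((Fin n ⊕ Fin n') ⊕ (Fin 2 ⊕ Fin 2)) × Fin 2 =>
    Consts.exists_finite_consts (A := A) (X.e_intField z.2 (xs z.1))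
  obtain ⟨Q, hQ, hQfix, hQσ⟩ := exists_consts hA
    (s := (⋃ z, S z) ∪ {(ζ : Qbar)}) ((Set.finite_iUnion hSfin).union (Set.finite_singleton _))
  have hζK : (ζ : Qbar) ∈ Q.K := hQ (Or.inr rfl)
  have hxs : ∀ j, xs j ∈ X.ratField Q := fun j => (X.mem_ratField Q).mpr fun i =>
    hS (j, i) Q fun x hx => hQ (Or.inl (Set.mem_iUnion.mpr ⟨_, hx⟩))
  obtain ⟨R, hRζ⟩ := Q.exists_rootLevel hζ hζK
  set T := X.setting Q R Z (hxs (Sum.inr (Sum.inr 1))) (fun l => hQfix _ (hZt l)) with hT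
  let fT : T.F0 := ⟨f, hxs (Sum.inr (Sum.inr 0))⟩
  -- the twisting
  have hgmem : ∀ x ∈ X.ratField Q, g • x ∈ X.ratField Q := fun x hx => by
    rw [X.mem_ratField] at hx ⊢
    intro i
    rw [hg]
    exact Q.coeffMap_mem_serField σ.toRingEquiv (hQσ σ hσ) (fun y => apply_mem_place hσ) (hx i)
  have hgfix : ∀ y : A, (∀ τ ∈ A.inertiaSubgroupIn ℚ, τ (y : Qbar) = y) →
      g • algebraMap Qbar F (y : Qbar) = algebraMap Qbar F (y : Qbar) := fun y hy => by
    rw [SemilinearAut.smul_algebraMap, hgb, hy σ hσ]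
  have hgw : g • Z.w = Z.w := by
    rw [Coord.w, smul_inv'', Coord.z, smul_sub, hgu, hgfix _ hZc]
  let σF : T.F0 →+* T.F0 :=
    ((SemilinearAut.toRingAut g).toRingHom.comp (X.ratField Q).subtype).codRestrict
      (X.ratField Q) fun x => hgmem x x.2
  have hcomm : ∀ i (x : T.F0), T.s i (σF x) =
      Q.serMap σ.toRingEquiv (hQσ σ hσ) (fun y => apply_mem_place hσ) (T.s i x) :=
    fun i x => Subtype.ext (hg i (x : F))
  let tw : T.Twisting :=
    { σ := σF
      τ := Q.serMap σ.toRingEquiv (hQσ σ hσ) (fun y => apply_mem_place hσ)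
      comm := hcomm
      τ_mem := Q.serMap_red σ.toRingEquiv (hQσ σ hσ) (fun y => apply_mem_place hσ)
        (fun x h => residue_apply hσ ⟨x, h⟩)
      c := c
      q := q
      τ_ζ := Subtype.ext (by
        show coeffMap _ (R.ζ : LaurentSeries Qbar) = (((R.ζ ^ c : Q.serField)) : LaurentSeries Qbar)
        rw [SubmonoidClass.coe_pow, hRζ, ← map_pow, HahnSeries.C_apply, HahnSeries.C_apply,
          coeffMap_single]
        exact congrArg _ hc)
      sum_zero := by
        have : CharP (LaurentSeries (ResidueField A)) p := charP_of_injective_ringHom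
          (f := (HahnSeries.C : ResidueField A →+* LaurentSeries (ResidueField A)))
          HahnSeries.C_injective p
        rw [CharP.cast_eq_zero_iff _ p, hq]
        exact ⟨c, by
          obtain ⟨d, hd⟩ : ∃ d, p = d + 1 := ⟨p - 1, by have := hp.one_le; omega⟩
          rw [show p - 1 = d by omega, hd]; ring⟩
      σ_v := fun l => Subtype.ext (by
        show g • Z.v l = Z.v l
        rw [Coord.v, smul_sub, hgw, hgfix _ (hZt l)])
      σ_bound := fun N x hx w => by
        have h1 : TwistCond Qbar D.u 1 1 N ((x : F) * Z.z ^ N) := by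
          rw [Z.twistCond_iff]
          intro v
          rw [Coord.w, inv_pow, mul_assoc, mul_inv_cancel₀ (pow_ne_zero _ Z.z_ne)]
          simp only [pow_one, one_mul, mul_one]
          exact hx v
        have h2 := Z.twistCond_iff.mp (hsym.twistCond h1) w
        rw [smul_one] at h2
        rw [smul_mul', smul_pow', show g • Z.z = Z.z by
            rw [Coord.z, smul_sub, hgu, hgfix _ hZc],
          Coord.w, inv_pow, mul_assoc, mul_inv_cancel₀ (pow_ne_zero _ Z.z_ne)] at h2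
        show w.adicValuation (g • (x : F)) ≤ _
        simp only [pow_one, one_mul, mul_one] at h2
        exact h2 }
  -- the lifts
  have hliftA : ∀ y : ResidueField A, ∃ α : Q.K, ∃ h : (α : Qbar) ∈ A,
      residue A ⟨α, h⟩ = y := fun y => by
    obtain ⟨a', haK, ha'⟩ := Q.exists_res y
    exact ⟨⟨a', haK⟩, a'.2, ha'⟩
  have hlifts : ∀ (φ : F) (N M : ℕ) (β : Fin M → T.F0) (hφ : φ ∈ X.ratField Q),
      (∀ j, (β j : F) ∈ D.O ∧ ∀ v : Place Qbar F,
        v.adicValuation ((β j : F) ^ p * φ) ≤ exp (Z.poleF v) ^ (p * N)) →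
      (∀ r, Z.nodeRing.IsNode N r →
        r ∈ Submodule.span (ResidueField A) (Set.range fun j => D.red2 (β j : F))) →
      T.Lifts ⟨φ, hφ⟩ N β := by
    intro φ N M β hφ hβ hspan
    refine ⟨fun j => (hβ j).2, fun r hr => ?_⟩
    obtain ⟨l, hl⟩ := (Submodule.mem_span_range_iff_exists_fun _).mp (hspan r hr)
    choose α hαA hα using fun j => hliftA (l j)
    refine ⟨∑ j, T.cst (α j) * β j, ⟨α, rfl⟩, ?_⟩
    have hV : ∀ i, ((∑ j, T.cst (α j) * β j : T.F0) : F) ∈ D.V i := fun i => by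
      push_cast
      exact sum_mem fun j _ => mul_mem (D.algebraMap_mem i ⟨_, hαA j⟩)
        (D.mem_of_mem_O (hβ j).1 i)
    refine ⟨fun i => (X.sHom_mem_iff Q).mpr (hV i), fun i => ?_⟩
    refine (X.red_sHom Q (hV i)).trans (congrArg X.ι ?_)
    have hsum : ((∑ j, T.cst (α j) * β j : T.F0) : F) =
        ∑ j, ((⟨_, hαA j⟩ : A) : Qbar) • (β j : F) := by
      push_cast
      exact Finset.sum_congr rfl fun j _ => (Algebra.smul_def _ _).symm
    rw [hsum, ← D.red2_apply, D.red2_sum _ _ _ fun j _ => (hβ j).1, ← hl, Finset.sum_apply,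
      Finset.sum_apply]
    exact Finset.sum_congr rfl fun j _ => by rw [hα]
  obtain ⟨N, hN, hN1⟩ := Q.exists_norm hζ hζK
  let Gs : Fin 2 → Q.serField := fun i =>
    X.sHom Q i ⟨X.φ i (G i), hxs (Sum.inr (Sum.inl i))⟩
  have hGs : ∀ i, Gs i ≠ 0 := fun i h => by
    rw [map_eq_zero] at h
    exact (map_ne_zero (X.φ i)).mpr (hG0 i) (congrArg Subtype.val h)
  have hrel : ∀ i, T.s i fT * N (T.s (1 - i) fT) = Gs i ^ p := fun i => by
    refine Subtype.ext (qExpand_injective (R := Qbar) (N := p) ?_)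
    push_cast
    rw [map_mul, hN]
    show qExpand Qbar p (X.e i f) * ∏ j : Fin p, twist (ζ ^ (j : ℕ)) (X.e (1 - i) f) = _
    rw [← X.qExpand_normTo hp hζ i f, hG]
    simp only [map_pow]
    rfl
  have hfO : T.InO fT := fun i => (X.sHom_mem_iff Q).mpr (D.mem_of_mem_O hf.mem i)
  have hf1 : T.RedConst fT 1 := fun i =>
    (X.red_sHom Q (D.mem_of_mem_O hf.mem i)).trans (congrArg X.ι (hf.red i))
  have : CharP (LaurentSeries (ResidueField A)) p := charP_of_injective_ringHom
    (f := (HahnSeries.C : ResidueField A →+* LaurentSeries (ResidueField A)))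
    HahnSeries.C_injective p
  obtain ⟨e, he0, cst, hecst⟩ := T.exists_root_image N hN1 hfO hf1 hGs (hrel 0) (hrel 1) tw
    (Nat.zero_le m) (hlifts f m n (fun j => ⟨b j, hxs (Sum.inl (Sum.inl j))⟩) _ hb hbr)
    (hlifts f' _ n' (fun j => ⟨b' j, hxs (Sum.inl (Sum.inr j))⟩) (tw.image T fT).2 hb' hbr')
  -- the class
  have he : (e : F) ≠ 0 := fun h => he0 (Subtype.ext h)
  have hrel' : (e : F) ^ p * f' = algebraMap Qbar F cst := hecst
  have hf'0 : f' ≠ 0 := hf'.ne_zero
  have hgord : ∀ v : Place Qbar F, v.ord (g • f) = (p : ℤ) * (g • (Z₁ : Divisor Qbar F)) v :=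
    fun v => by
      have h := SemilinearAut.ord_smul g (g⁻¹ • v) f
      rw [smul_inv_smul] at h
      rw [h, hord, SemilinearAut.divisor_smul_apply]
  have hprin : Divisor.IsPrincipal ((SemilinearAut.degZeroSMulHom g Z₁ + q • Z₁ :
      Divisor.degZero (K := Qbar) (F := F)) : Divisor Qbar F) := by
    refine ⟨(e : F)⁻¹, inv_ne_zero he, fun v => ?_⟩
    have h := congrArg v.ord hrel'
    rw [FF.ord_algebraMap, v.ord_mul (pow_ne_zero _ he) hf'0, hf'def,
      v.ord_mul hgf0 (pow_ne_zero _ hf0), ← zpow_natCast, v.ord_zpow, ← zpow_natCast,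
      v.ord_zpow, hgord v, hord v] at h
    rw [v.ord_inv]
    push_cast
    rw [SemilinearAut.coe_degZeroSMulHom, Pi.add_apply, Pi.smul_apply, nsmul_eq_mul]
    refine mul_left_cancel₀ (show (p : ℤ) ≠ 0 by exact_mod_cast hp.ne_zero) ?_
    linear_combination h
  have hsum : g • z + q • z = 0 := by
    rw [← hz₁, SemilinearAut.pic0_smul_mk,
      show q • Pic0.mk Z₁ = Pic0.mk (q • Z₁) from (map_nsmul (QuotientAddGroup.mk' _) _ Z₁).symm,
      ← Pic0.mk_add]
    exact (QuotientAddGroup.eq_zero_iff _).mpr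
      (AddSubgroup.mem_addSubgroupOf.mpr (Divisor.mem_principal.mpr hprin))
  have hpz : p • z = 0 := BadCurve.HasPowRes.smul_eq_zero ⟨Z₀, f₀, hZ₀, hf₀, hord₀, hred⟩
  have hcq : c • z + q • z = 0 := by
    obtain ⟨d, hd⟩ : ∃ d, p = d + 1 := ⟨p - 1, by have := hp.one_le; omega⟩
    rw [← add_smul, hq, show c + c * (p - 1) = c * p by rw [show p - 1 = d by omega, hd]; ring,
      mul_smul, hpz, smul_zero]
  exact add_right_cancel (hsum.trans hcq.symm)

end Expansions

end Fermat.Agent.BAD.Ordinary
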