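import Fermat.Prelude.Def_AlgebraicCurve_Repartitions
import Mathlib.FieldTheory.IsAlgClosed.Basic
import Mathlib.Algebra.CharP.Lemmas

/-!
# Node conditions on pairs of functions of a curve

Pairs of functions with bounded poles taking equal values at finitely many pairs of places.
-/

set_option autoImplicit false

noncomputable section

open AlgebraicCurve WithZero

namespace Fermat.Agent.BAD.Ordinary

variable {k C : Type*} [Field k] [Field C] [Algebra k C]

theorem valuation_algebraMap (v : Place k C) {c : k} (hc : c ≠ 0) :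
    v.adicValuation (algebraMap k C c) = 1 := by
  refine le_antisymm (v.adicValuation_algebraMap_le_one c) (le_of_not_gt fun h => ?_)
  have h1 := v.adicValuation_algebraMap_le_one (K := k) c⁻¹
  have : v.adicValuation (algebraMap k C c) * v.adicValuation (algebraMap k C c⁻¹) < 1 :=
    (mul_le_of_le_one_right' h1).trans_lt h
  rw [← map_mul, ← map_mul, mul_inv_cancel₀ hc, map_one, map_one] at this
  exact lt_irrefl _ this

/-- The two functions take a common value `c` at the pair of places. -/
def ValueAt (x : Place k C × Place k C) (r : Fin 2 → C) (c : k) : Prop :=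
  x.1.adicValuation (r 0 - algebraMap k C c) < 1 ∧ x.2.adicValuation (r 1 - algebraMap k C c) < 1

/-- The two functions take a common value at the pair of places. -/
def Glue (x : Place k C × Place k C) (r : Fin 2 → C) : Prop := ∃ c, ValueAt x r c

theorem valuation_le_one_of_sub_lt (v : Place k C) {r : C} {c : k}
    (h : v.adicValuation (r - algebraMap k C c) < 1) : v.adicValuation r ≤ 1 := by
  have h' := v.adicValuation.map_add_le h.le (v.adicValuation_algebraMap_le_one c)
  rwa [sub_add_cancel] at h'

variable {x : Place k C × Place k C} {r s : Fin 2 → C} {c d : k}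

theorem ValueAt.mul (hr : ValueAt x r c) (hs : ValueAt x s d) : ValueAt x (r * s) (c * d) := by
  have key : ∀ (v : Place k C) (a b : C), v.adicValuation (a - algebraMap k C c) < 1 →
      v.adicValuation (b - algebraMap k C d) < 1 →
      v.adicValuation (a * b - algebraMap k C (c * d)) < 1 := by
    intro v a b ha hb
    have : a * b - algebraMap k C (c * d) =
        (a - algebraMap k C c) * b + algebraMap k C c * (b - algebraMap k C d) := by
      rw [map_mul]; ring
    rw [this]
    refine v.adicValuation.map_add_lt ?_ ?_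
    · rw [map_mul]
      exact (mul_le_of_le_one_right' (valuation_le_one_of_sub_lt v hb)).trans_lt ha
    · rw [map_mul]
      exact (mul_le_of_le_one_left' (v.adicValuation_algebraMap_le_one c)).trans_lt hb
  exact ⟨key _ _ _ hr.1 hs.1, key _ _ _ hr.2 hs.2⟩

theorem ValueAt.one : ValueAt x (1 : Fin 2 → C) (1 : k) := by
  simp [ValueAt]

theorem ValueAt.pow (hr : ValueAt x r c) (n : ℕ) : ValueAt x (r ^ n) (c ^ n) := by
  induction n with
  | zero => simpa using ValueAt.one
  | succ n ih => rw [pow_succ, pow_succ]; exact ih.mul hr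

theorem ValueAt.inv (hr : ValueAt x r c) (hc : c ≠ 0) : ValueAt x r⁻¹ c⁻¹ := by
  have key : ∀ (v : Place k C) (a : C), v.adicValuation (a - algebraMap k C c) < 1 →
      v.adicValuation (a⁻¹ - algebraMap k C c⁻¹) < 1 := by
    intro v a ha
    have hval : v.adicValuation a = 1 := by
      have h1 := valuation_algebraMap v hc
      conv_lhs => rw [← sub_add_cancel a (algebraMap k C c)]
      rw [Valuation.map_add_eq_of_lt_right, h1]
      rw [h1]; exact ha
    have ha0 : a ≠ 0 := fun h => by simp [h] at hval
    have hc0 : algebraMap k C c ≠ 0 := (map_ne_zero _).mpr hc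
    have : a⁻¹ - algebraMap k C c⁻¹ = -(a - algebraMap k C c) * (a⁻¹ * algebraMap k C c⁻¹) := by
      rw [map_inv₀]; field_simp; ring
    rw [this, map_mul, Valuation.map_neg, map_mul, map_inv₀, hval,
      valuation_algebraMap v (inv_ne_zero hc), inv_one, one_mul, mul_one]
    exact ha
  exact ⟨key _ _ hr.1, key _ _ hr.2⟩

/-- A nonzero common value. -/
def GlueUnit (x : Place k C × Place k C) (r : Fin 2 → C) : Prop := ∃ c ≠ 0, ValueAt x r c

theorem glue_of_glue_pow {p : ℕ} [Fact p.Prime] [CharP k p] [IsAlgClosed k]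
    (h : Glue x (r ^ p)) : Glue x r := by
  have hp : p.Prime := Fact.out
  obtain ⟨c, hc⟩ := h
  obtain ⟨d, hd⟩ := IsAlgClosed.exists_pow_nat_eq c hp.pos
  have : CharP C p := charP_of_injective_algebraMap (algebraMap k C).injective p
  have key : ∀ (v : Place k C) (a : C), v.adicValuation (a ^ p - algebraMap k C c) < 1 →
      v.adicValuation (a - algebraMap k C d) < 1 := by
    intro v a ha
    rwa [← hd, map_pow, ← sub_pow_char, map_pow, pow_lt_one_iff hp.ne_zero] at ha
  exact ⟨d, key _ _ hc.1, key _ _ hc.2⟩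

theorem glue_of_mul_unit {w : Fin 2 → C} (hw : GlueUnit x w) (hw0 : ∀ i, w i ≠ 0)
    (h : Glue x (r * w)) : Glue x r := by
  obtain ⟨c, hc0, hc⟩ := hw
  obtain ⟨d, hd⟩ := h
  refine ⟨d * c⁻¹, ?_⟩
  have := hd.mul (hc.inv hc0)
  rwa [mul_assoc, show w * w⁻¹ = 1 from funext fun i => mul_inv_cancel₀ (hw0 i), mul_one] at this

/-- Pole bound and gluing data. -/
structure NodeRing (k C : Type*) [Field k] [Field C] [Algebra k C] where
  pole : Divisor k C
  S : Finset (Place k C × Place k C)

namespace NodeRing

variable (Γ : NodeRing k C)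

/-- Pairs with poles bounded by `m • pole`, glued at the pairs in `S`. -/
def IsNode (m : ℕ) (r : Fin 2 → C) : Prop :=
  (∀ i (v : Place k C), v.adicValuation (r i) ≤ exp (Γ.pole v) ^ m) ∧ ∀ x ∈ Γ.S, Glue x r

theorem isNode_of_pow {p : ℕ} [Fact p.Prime] [CharP k p] [IsAlgClosed k] {m : ℕ}
    (h : Γ.IsNode (p * m) (r ^ p)) : Γ.IsNode m r := by
  refine ⟨fun i v => ?_, fun x hx => glue_of_glue_pow (h.2 x hx)⟩
  have h1 := h.1 i v
  rw [Pi.pow_apply, map_pow, mul_comm, pow_mul] at h1
  exact (pow_le_pow_iff_left₀ zero_le zero_le (Fact.out : p.Prime).ne_zero).mp h1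

theorem isNode_const_pow {a : C} (ha : ∀ v : Place k C, v.adicValuation a ≤ exp (Γ.pole v))
    (hS : ∀ x ∈ Γ.S, Glue x fun _ => a) (m : ℕ) : Γ.IsNode m fun _ => a ^ m := by
  refine ⟨fun _ v => ?_, fun x hx => ?_⟩
  · rw [map_pow]
    exact pow_le_pow_left' (ha v) m
  · obtain ⟨c, hc⟩ := hS x hx
    exact ⟨c ^ m, hc.pow m⟩

end NodeRing

end Fermat.Agent.BAD.Ordinary
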