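import Fermat.Agent.BAD.Ordinary.Setting

/-!
# Sections whose expansions are close to `p`-th powers

When `f` is a `p`-th power to high precision on both components, the level of `G = a y / v ^ m`
can be raised to the level of `ζ - 1`, and then corrected by an inertia element.
-/

set_option autoImplicit false

noncomputable section

open AlgebraicCurve WithZero

namespace Fermat.Agent.BAD.Ordinary.Setting

variable {p : ℕ} {L F k C 𝔉 κ K0 : Type*} [Field L] [Field F] [Algebra L F] [Field k] [Field C]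
  [Algebra k C] [Field 𝔉] [Field κ] [Field K0] (T : Setting p L F k C 𝔉 κ K0)
  [Fact p.Prime]

/-- The expansion `a H / v ^ m` standing for `a f ^ (1 / p) / v ^ m`. -/
def expansion (H : Fin 2 → 𝔉) (l : Fin 2) (m : ℕ) (a : T.F0) (i : Fin 2) : 𝔉 :=
  T.s i a / T.s i (T.v l ^ m) * H i

section

variable [CharP k p] [IsAlgClosed k] [CharP κ p] {f : T.F0} {H : Fin 2 → 𝔉} {M : ℕ}

omit [CharP k p] [IsAlgClosed k] in
theorem root_mem_O (hM : 1 ≤ M) (hf : T.InO f) (hf1 : T.RedConst f 1)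
    (hH : ∀ i, T.D.One M (T.s i f / H i ^ p)) (i : Fin 2) :
    H i ∈ T.D.O ∧ T.D.red (H i) = 1 ∧ H i ≠ 0 := by
  have hp : p.Prime := Fact.out
  have h1 := hH i
  have hd := h1.red_eq_one (by omega)
  have hne := h1.ne_zero (by omega)
  have hH0 : H i ≠ 0 := fun h => hne (by rw [h, zero_pow hp.ne_zero, div_zero])
  have hinv : H i ^ p = T.s i f * (T.s i f / H i ^ p)⁻¹ := by
    have : T.s i f ≠ 0 := fun h => hne (by rw [h, zero_div])
    field_simp
  have hpow : H i ^ p ∈ T.D.O :=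
    hinv ▸ mul_mem (hf i) (DiscRed.inv_mem h1.mem (by rw [hd]; exact one_ne_zero))
  have hmem : H i ∈ T.D.O := by
    rcases T.D.O.mem_or_inv_mem (H i) with h | h
    · exact h
    · have := mul_mem hpow (pow_mem h (p - 1))
      rwa [show H i ^ p * (H i)⁻¹ ^ (p - 1) = H i by
        rw [show H i ^ p = H i ^ (p - 1) * H i by rw [← pow_succ, Nat.sub_add_cancel hp.one_le],
          inv_pow]
        field_simp] at this
  refine ⟨hmem, ?_, hH0⟩
  refine frobenius_inj κ p ?_
  rw [frobenius_def, frobenius_def, one_pow, ← DiscRed.red_pow hmem, hinv,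
    DiscRed.red_mul (hf i) (DiscRed.inv_mem h1.mem (by rw [hd]; exact one_ne_zero)),
    DiscRed.red_inv h1.mem (by rw [hd]; exact one_ne_zero), hd, hf1, map_one, inv_one, one_mul]

omit [CharP k p] [IsAlgClosed k] in
theorem expansion_mem (hM : 1 ≤ M) (hf : T.InO f) (hf1 : T.RedConst f 1)
    (hH : ∀ i, T.D.One M (T.s i f / H i ^ p)) {l : Fin 2} {m : ℕ} {a : T.F0} (ha : T.InO a)
    (hra : T.RedConst a (T.vbar l ^ m)) (i : Fin 2) :
    T.D.One 1 (T.expansion H l m a i) := by
  obtain ⟨hHm, hHr, -⟩ := T.root_mem_O hM hf hf1 hH i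
  refine DiscRed.one_one_of_red_eq_one (mul_mem (T.div_v_mem l i m (ha i)) hHm) ?_
  rw [expansion, DiscRed.red_mul (T.div_v_mem l i m (ha i)) hHm, T.red_div_v l i m (ha i), hra i,
    hHr, mul_one, div_self ((map_ne_zero T.ι).mpr (pow_ne_zero _ (T.vbar_ne l)))]

/-- Sections with expansions congruent to `1` up to the level of `ζ - 1`. -/
theorem exists_close (hM : p * T.rl.l + 1 ≤ M) (hf : T.InO f) (hf1 : T.RedConst f 1)
    (hH : ∀ i, T.D.One M (T.s i f / H i ^ p)) {m n : ℕ} (hm : T.m0 ≤ m) {b : Fin n → T.F0}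
    (hlift : T.Lifts f m b) (l : Fin 2) (j : ℕ) (hj1 : 1 ≤ j) (hjl : j ≤ T.rl.l) :
    ∃ a, T.InO a ∧ T.RedConst a (T.vbar l ^ m) ∧ T.InW f m a ∧
      ∀ i, T.D.One j (T.expansion H l m a i) := by
  have hp : p.Prime := Fact.out
  induction j, hj1 using Nat.le_induction with
  | base =>
    obtain ⟨a, ha, haO, har⟩ := hlift.2 _ (T.isNode_vbar l m)
    exact ⟨a, haO, har, InSpan.inW T hlift.1 ha,
      fun i => T.expansion_mem (by omega) hf hf1 hH haO har i⟩
  | succ j hj1 ih =>
    obtain ⟨a, ha, hra, haW, hG⟩ := ih (by omega)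
    set G := T.expansion H l m a with hGdef
    have hjl' : j < T.rl.l := hjl
    have hMj : p * j + 1 ≤ M := le_trans (by
      have := Nat.mul_le_mul_left p hjl'.le
      omega) hM
    set R : T.F0 := (a ^ p * f - T.v l ^ (p * m)) / T.cst (T.ϖ0 ^ (p * j)) with hRdef
    have hsR : ∀ i, T.D.red (T.s i R) =
        (T.ι (T.vbar l ^ m) * T.D.red ((G i - 1) / T.D.ϖ ^ j)) ^ p ∧ T.s i R ∈ T.D.O := by
      intro i
      obtain ⟨hc, hred⟩ := T.rl.one_pow_of_lt hjl' (hG i)
      obtain ⟨-, -, hH0⟩ := T.root_mem_O (by omega) hf hf1 hH i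
      have hd := hH i
      set δ := T.s i f / H i ^ p with hδ
      have hsv : T.s i (T.v l ^ m) ≠ 0 := fun h => T.red_pow_v_ne l i m (by
        rw [h, DiscRed.red_zero])
      have heq : T.s i R = T.s i (T.v l ^ m) ^ p * ((G i ^ p - 1) / T.D.ϖ ^ (p * j) +
          G i ^ p * ((δ - 1) / T.D.ϖ ^ (p * j))) := by
        rw [hRdef, map_div₀, T.cst_pow_ϖ, map_sub, map_mul, map_pow, mul_comm p m, pow_mul,
          map_pow (T.s i) (T.v l ^ m) p, hGdef, expansion, hδ]
        simp only [mul_pow, div_pow]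
        field_simp
        ring
      have h2 : T.D.Cong 1 ((δ - 1) / T.D.ϖ ^ (p * j)) := by
        obtain ⟨y, hy, hy'⟩ := (DiscRed.Cong.mono hd hMj).exists_eq
        rw [hy', pow_succ, mul_assoc, mul_div_cancel_left₀ _ (DiscRed.pow_ne _)]
        simpa using DiscRed.cong_pow_mul (mul_mem (pow_mem (hG i).mem 0) hy) 1
      have h3 := h2.mul_left (pow_mem (hG i).mem p)
      have hvm := pow_mem (T.v_pow_mem l i m) p
      constructor
      · rw [heq, DiscRed.red_mul hvm (add_mem hc h3.mem), DiscRed.red_add hc h3.mem, hred,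
          h3.red_eq_zero one_ne_zero, add_zero, DiscRed.red_pow (T.v_pow_mem l i m), T.red_pow_v,
          mul_pow]
      · exact heq ▸ mul_mem hvm (add_mem hc h3.mem)
    choose h' hh' using fun i => T.root_mem (T.ι (T.vbar l ^ m) * T.D.red ((G i - 1) / T.D.ϖ ^ j))
      ((T.red_mem i R (hsR i).2).imp fun c hc => (hsR i).1.symm.trans hc)
    have hnode : T.Γ.IsNode m h' := by
      refine T.Γ.isNode_of_pow (T.node_red (p * m)
        (hm.trans (Nat.le_mul_of_pos_left m hp.pos)) R (fun i => (hsR i).2) (fun w => ?_) _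
        fun i => ?_)
      · obtain ⟨c, hc⟩ := T.cst_const (T.ϖ0 ^ (p * j))⁻¹
        rw [hRdef, div_eq_mul_inv, ← map_inv₀, MulMemClass.coe_mul, hc, map_mul]
        refine (mul_le_of_le_one_right' (w.adicValuation_algebraMap_le_one c)).trans ?_
        rw [AddSubgroupClass.coe_sub]
        refine w.adicValuation.map_sub_le (InW.pow_mul_le T haW w) ?_
        rw [SubmonoidClass.coe_pow, map_pow]
        exact pow_le_pow_left' (T.v_le l w) _
      · rw [(hsR i).1, hh', Pi.pow_apply, map_pow]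
    obtain ⟨c, hcs, hcO, hcr⟩ := hlift.2 h' hnode
    obtain ⟨h1, h2, h3⟩ := T.improve hj1 ha hra hcO haW (InSpan.inW T hlift.1 hcs)
    refine ⟨_, h1, h2, h3, fun i => ?_⟩
    obtain ⟨hHm, hHr, -⟩ := T.root_mem_O (by omega) hf hf1 hH i
    have hcv := T.div_v_mem l i m (hcO i)
    have hexp : T.expansion H l m (a - T.cst (T.ϖ0 ^ j) * c) i - 1 =
        (G i - 1) - T.D.ϖ ^ j * (T.s i c / T.s i (T.v l ^ m) * H i) := by
      rw [hGdef, expansion, expansion, map_sub, map_mul, T.cst_pow_ϖ]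
      ring
    rw [DiscRed.One, hexp]
    refine DiscRed.Cong.succ (DiscRed.Cong.sub (hG i)
      (DiscRed.cong_pow_mul (mul_mem hcv hHm) j)) ?_
    rw [sub_div, mul_div_cancel_left₀ _ (DiscRed.pow_ne _),
      DiscRed.red_sub (hG i) (mul_mem hcv hHm), DiscRed.red_mul hcv hHm, T.red_div_v l i m (hcO i),
      hcr, hHr, mul_one, ← hh', mul_div_cancel_left₀ _
        ((map_ne_zero T.ι).mpr (pow_ne_zero _ (T.vbar_ne l))), sub_self]

/-- An automorphism of the rational subfield inducing the identity on residues. -/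
structure Twisting where
  σ : T.F0 →+* T.F0
  τ : 𝔉 →+* 𝔉
  comm : ∀ i x, T.s i (σ x) = τ (T.s i x)
  τ_mem : ∀ x ∈ T.D.O, τ x ∈ T.D.O ∧ T.D.red (τ x) = T.D.red x
  c : ℕ
  q : ℕ
  τ_ζ : τ T.rl.ζ = T.rl.ζ ^ c
  sum_zero : ((c + q : ℕ) : κ) = 0
  σ_v : ∀ l, σ (T.v l) = T.v l
  σ_bound : ∀ (N : ℕ) (x : T.F0), (∀ w : Place L F, w.adicValuation (x : F) ≤ exp (T.poleF w) ^ N) →
    ∀ w : Place L F, w.adicValuation (σ x : F) ≤ exp (T.poleF w) ^ N

/-- The function of the corrected class. -/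
def Twisting.image (tw : T.Twisting) (x : T.F0) : T.F0 := tw.σ x * x ^ tw.q

omit [Fact p.Prime] [CharP k p] [IsAlgClosed k] [CharP κ p] in
theorem Twisting.image_red (tw : T.Twisting) {x : T.F0} (hx : T.InO x) {a : C}
    (hr : T.RedConst x a) :
    T.InO (tw.image T x) ∧ T.RedConst (tw.image T x) (a ^ (tw.q + 1)) := by
  have h : ∀ i, T.s i (tw.image T x) = tw.τ (T.s i x) * T.s i x ^ tw.q := fun i => by
    rw [Twisting.image, map_mul, map_pow, tw.comm]
  refine ⟨fun i => h i ▸ mul_mem (tw.τ_mem _ (hx i)).1 (pow_mem (hx i) _), fun i => ?_⟩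
  rw [h, DiscRed.red_mul (tw.τ_mem _ (hx i)).1 (pow_mem (hx i) _), (tw.τ_mem _ (hx i)).2,
    DiscRed.red_pow (hx i), hr, map_pow, pow_succ']

/-- Starting sections for the corrected class. -/
theorem exists_start (hM : p * T.rl.l + T.rl.l + 1 ≤ M) (hf : T.InO f) (hf1 : T.RedConst f 1)
    (hH : ∀ i, T.D.One M (T.s i f / H i ^ p)) {m n : ℕ} (hm : T.m0 ≤ m) {b : Fin n → T.F0}
    (hlift : T.Lifts f m b) (tw : T.Twisting) :
    ∃ a : Fin 2 → T.F0, (∀ l, T.InO (a l) ∧ T.RedConst (a l) (T.vbar l ^ ((tw.q + 1) * m)) ∧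
        T.InW (tw.image T f) ((tw.q + 1) * m) (a l) ∧
        ∀ i, T.D.One (T.rl.e + (T.rl.l + 1))
          (T.s i (T.twist (tw.image T f) l ((tw.q + 1) * m) (a l)))) ∧
      ∀ i, T.D.One (T.rl.l + 1)
        (T.s i (a 0 * T.v 1 ^ ((tw.q + 1) * m)) / T.s i (a 1 * T.v 0 ^ ((tw.q + 1) * m))) := by
  have hp : p.Prime := Fact.out
  choose a ha hra haW hG using fun l => T.exists_close (M := M) (by omega) hf hf1 hH hm hlift l
    T.rl.l T.rl.l_pos le_rfl
  set m' := (tw.q + 1) * m
  set q := tw.q with hq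
  have hv : ∀ l, tw.image T (T.v l ^ m) = T.v l ^ m' := fun l => by
    rw [Twisting.image, map_pow, tw.σ_v, ← pow_succ', ← pow_mul, mul_comm]
  set G' : Fin 2 → Fin 2 → 𝔉 := fun l i =>
    tw.τ (T.expansion H l m (a l) i) * T.expansion H l m (a l) i ^ q
  have hG' : ∀ l i, T.D.One (T.rl.l + 1) (G' l i) := fun l i =>
    T.rl.one_twist tw.τ tw.τ_mem tw.τ_ζ tw.sum_zero (hG l i)
  have hsv : ∀ l i N, T.s i (T.v l ^ N) ≠ 0 := fun l i N h => T.red_pow_v_ne l i N (by
    rw [h, DiscRed.red_zero])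
  set H' : Fin 2 → 𝔉 := fun i => tw.τ (H i) * H i ^ q
  have hτv : ∀ l i, tw.τ (T.s i (T.v l)) = T.s i (T.v l) := fun l i => by
    rw [← tw.comm, tw.σ_v]
  have hexp : ∀ l i, G' l i = T.expansion H' l m' (tw.image T (a l)) i := fun l i => by
    simp only [G', H', expansion, ← hv, Twisting.image, map_mul, map_pow, map_div₀, tw.comm,
      hτv, mul_pow, div_pow, hq]
    field_simp
  refine ⟨fun l => tw.image T (a l), fun l => ?_, fun i => ?_⟩
  · obtain ⟨hO, hR⟩ := tw.image_red T (ha l) (hra l)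
    refine ⟨hO, fun i => ?_, fun w => ?_, fun i => ?_⟩
    · rw [hR i, ← pow_mul, mul_comm m]
    · have h2 : ((tw.image T (a l) : T.F0) : F) ^ p * (tw.image T f : T.F0) =
          ((tw.image T (a l ^ p * f) : T.F0) : F) := by
        rw [← SubmonoidClass.coe_pow, ← MulMemClass.coe_mul]
        congr 1
        simp only [Twisting.image, map_mul, map_pow]
        ring
      rw [h2, Twisting.image, MulMemClass.coe_mul, map_mul, SubmonoidClass.coe_pow, map_pow]
      refine (mul_le_mul' (tw.σ_bound _ _ (InW.pow_mul_le T (haW l)) w)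
        (pow_le_pow_left' (InW.pow_mul_le T (haW l) w) q)).trans_eq ?_
      rw [← pow_mul, ← pow_add]
      congr 1
      ring
    · have hδ : T.D.One (T.rl.e + (T.rl.l + 1)) (tw.τ (T.s i f / H i ^ p) *
          (T.s i f / H i ^ p) ^ q) := by
        have hle : T.rl.e + (T.rl.l + 1) ≤ M := le_trans (by
          rw [DiscRed.RootLevel.e]
          have := Nat.mul_le_mul_right T.rl.l (Nat.sub_le p 1)
          omega) hM
        refine DiscRed.One.mul ?_ (((hH i).mono hle).pow q)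
        obtain ⟨y, hy, hy'⟩ := (DiscRed.Cong.mono (hH i) hle).exists_eq
        have hϖ : T.D.Cong 1 (tw.τ T.D.ϖ) :=
          DiscRed.cong_one_of_red_eq_zero (tw.τ_mem _ T.D.ϖ_mem).1
            (by rw [(tw.τ_mem _ T.D.ϖ_mem).2, DiscRed.red_ϖ])
        have := (hϖ.pow (T.rl.e + (T.rl.l + 1))).mul_right (tw.τ_mem _ hy).1
        rw [mul_one, ← map_pow, ← map_mul, ← hy', map_sub, map_one] at this
        exact this
      have := (T.rl.one_pow le_rfl (hG' l i)).mul hδ
      convert this using 1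
      rw [hexp, twist, map_div₀, expansion, mul_comm p m', pow_mul, map_pow (T.s i) (T.v l ^ m') p]
      simp only [H', Twisting.image, map_mul, map_pow, map_div₀, tw.comm, hq, mul_pow, div_pow]
      have := (T.root_mem_O (M := M) (by omega) hf hf1 hH i).2.2
      have h0 : tw.τ (H i) ≠ 0 := (map_ne_zero _).mpr this
      field_simp
      ring
  · convert (hG' 0 i).div (hG' 1 i) (by omega) using 1
    rw [hexp, hexp, expansion, expansion, map_mul, map_mul]
    have := (T.root_mem_O (M := M) (by omega) hf hf1 hH i).2.2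
    have h0 : H' i ≠ 0 := mul_ne_zero ((map_ne_zero _).mpr this) (pow_ne_zero _ this)
    have := hsv 1 i m'
    have := hsv 0 i m'
    field_simp

end

end Fermat.Agent.BAD.Ordinary.Setting
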