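import Fermat.Agent.FF.Basic
import Fermat.Agent.BAD.Modular.FFLemmas
import Fermat.Agent.RED.Specialization.FrobSeries
import Mathlib.FieldTheory.Perfect

/-!
# `p`-th roots of functions inside a field of series

The `p`-th powers of a function field over a perfect field form a subfield of degree `p`, so a
function whose expansion is a series in `q ^ p` is a `p`-th power.
-/

set_option autoImplicit false

noncomputable section

open AlgebraicCurve IntermediateField ModularCurve Fermat.Agent.RED.Spec

namespace Fermat.Agent.BAD.Ordinary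

variable {k C : Type} [Field k] [Field C] [Algebra k C] [IsAlgClosed k] {p : ℕ} [Fact p.Prime]
  [CharP k p]

/-- The `p`-th powers, as an intermediate field. -/
def powField (k : Type) (C : Type) [Field k] [Field C] [Algebra k C] [IsAlgClosed k] (p : ℕ)
    [Fact p.Prime] [CharP C p] : IntermediateField k C :=
  ((frobenius C p).fieldRange).toIntermediateField fun a => by
    obtain ⟨b, hb⟩ := IsAlgClosed.exists_pow_nat_eq a (Fact.out : p.Prime).pos
    exact ⟨algebraMap k C b, by rw [frobenius_def, ← map_pow, hb]⟩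

omit [CharP k p] in
theorem mem_powField [CharP C p] {c : C} : c ∈ powField k C p ↔ ∃ b, b ^ p = c := Iff.rfl

omit [CharP k p] in
theorem finrank_powField [CharP C p] [FF.IsFunctionField k C] {x : C} (hx : Transcendental k x) :
    ∀ (K : IntermediateField k C), K = powField k C p → Module.finrank K C = p := by
  rintro K rfl
  have hp : p.Prime := Fact.out
  have hle : k⟮x ^ p⟯ ≤ powField k C p :=
    adjoin_le_iff.mpr (by rintro _ rfl; exact ⟨x, rfl⟩)
  have himg : (k⟮x⟯.toSubfield).map (frobenius C p) = k⟮x ^ p⟯.toSubfield := by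
    rw [adjoin_toSubfield, adjoin_toSubfield, RingHom.map_field_closure]
    congr 1
    rw [Set.image_union, Set.image_singleton, frobenius_def, ← Set.range_comp]
    congr 1
    ext y
    constructor
    · rintro ⟨a, rfl⟩
      exact ⟨a ^ p, by simp [frobenius_def]⟩
    · rintro ⟨a, rfl⟩
      obtain ⟨b, hb⟩ := IsAlgClosed.exists_pow_nat_eq a hp.pos
      exact ⟨b, by simp [frobenius_def, ← map_pow, hb]⟩
  let i₀ : k⟮x⟯ →+* k⟮x ^ p⟯ :=
    ((frobenius C p).comp k⟮x⟯.val.toRingHom).codRestrict k⟮x ^ p⟯.toSubfield fun y => by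
      rw [← himg]
      exact ⟨y, y.2, rfl⟩
  have hi₀ : Function.Bijective i₀ := by
    refine ⟨i₀.injective, fun z => ?_⟩
    obtain ⟨y, hy, hyz⟩ : (z : C) ∈ (k⟮x⟯.toSubfield).map (frobenius C p) := himg ▸ z.2
    exact ⟨⟨y, hy⟩, Subtype.ext hyz⟩
  let j₀ : C →+* extendScalars hle := (frobenius C p).codRestrict _ fun y => ⟨y, rfl⟩
  have hj₀ : Function.Bijective j₀ := by
    refine ⟨j₀.injective, fun z => ?_⟩
    obtain ⟨y, hy⟩ := z.2
    exact ⟨y, Subtype.ext hy⟩
  have hd : Module.finrank k⟮x⟯ C = Module.finrank k⟮x ^ p⟯ (extendScalars hle) :=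
    Algebra.finrank_eq_of_equiv_equiv (RingEquiv.ofBijective i₀ hi₀)
      (RingEquiv.ofBijective j₀ hj₀) (RingHom.ext fun y => Subtype.ext rfl)
  have h1 := Modular.finrank_adjoin_pow hx hp.ne_zero
  have h2 := Module.finrank_mul_finrank k⟮x ^ p⟯ (extendScalars hle) C
  rw [h1, ← hd, mul_comm p] at h2
  have hpos : 0 < Module.finrank k⟮x⟯ C :=
    haveI := FF.finiteDimensional_adjoin hx
    Module.finrank_pos
  exact Nat.eq_of_mul_eq_mul_left hpos h2

/-- A function whose expansion involves only `q ^ p` is a `p`-th power. -/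
theorem exists_pow_of_mem_range [FF.IsFunctionField k C] {x : C} (hx : Transcendental k x)
    (ι : C →+* LaurentSeries k)
    (hnot : ∀ b, qExpand k p b ≠ ι x) {c : C} (hc : ι c ∈ Set.range (qExpand k p)) :
    ∃ b, b ^ p = c := by
  have hp : p.Prime := Fact.out
  have : CharP C p := charP_of_injective_algebraMap (algebraMap k C).injective p
  have hpow : ∀ b : C, ι (b ^ p) ∈ Set.range (qExpand k p) := fun b =>
    ⟨_, ((map_pow ι b p).trans (laurentSeries_pow_char p (ι b))).symm⟩
  by_contra hcon
  have hnmem : c ∉ powField k C p := hcon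
  have hfin := finrank_powField hx (powField k C p) rfl
  have := IntermediateField.isSimpleOrder_of_finrank_prime (F := powField k C p) (E := C)
    (hfin.symm ▸ hp)
  rcases IsSimpleOrder.eq_bot_or_eq_top (powField k C p)⟮c⟯ with h | h
  · refine hnmem ?_
    have hc' : c ∈ (powField k C p)⟮c⟯ := mem_adjoin_simple_self _ c
    rw [h, IntermediateField.mem_bot] at hc'
    obtain ⟨y, hy⟩ := hc'
    exact hy ▸ y.2
  · have hxm : x ∈ ((powField k C p)⟮c⟯).toSubfield := by rw [h]; exact Subfield.mem_top _
    rw [adjoin_toSubfield] at hxm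
    have hS : x ∈ ((qExpand k p).fieldRange).comap ι := by
      refine Subfield.closure_le.mpr ?_ hxm
      rintro y (⟨b, rfl⟩ | hy)
      · obtain ⟨b', hb'⟩ := b.2
        rw [SetLike.mem_coe, Subfield.mem_comap, RingHom.mem_fieldRange]
        rw [show algebraMap (powField k C p) C b = b' ^ p from hb'.symm]
        exact hpow b'
      · rw [Set.mem_singleton_iff] at hy
        rw [hy, SetLike.mem_coe, Subfield.mem_comap, RingHom.mem_fieldRange]
        exact hc
    obtain ⟨b, hb⟩ := hS
    exact hnot b hb

end Fermat.Agent.BAD.Ordinary
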