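import Fermat.Agent.BAD.Ordinary.JLevel
import Fermat.Agent.TraceFn.EichlerShimura
import Fermat.Agent.HK.TateFinal
import Fermat.Agent.HK.HeckeFinal

/-!
# S33 reduced to models of the torsion at level `N / p` (S19), specialisations (S37) and the
expansions at `p`
-/

set_option autoImplicit false
set_option linter.style.haveILetI false

noncomputable section

open AlgebraicCurve ModularCurve IsLocalRing
open Fermat.Agent.Galois (Qbar GalQ)

namespace Fermat.Agent.BAD.Ordinary

/-- The expansions at the two cusps of level `M p` over every place at `p`. -/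
def HasExpansions (N M p : ℕ) [NeZero N] [NeZero M] [NeZero p] : Prop :=
  ∀ A : ValuationSubring Qbar, A.LiesOverPrime p →
    ∃ (C : Type) (_ : Field C) (_ : Algebra (ResidueField A) C)
      (D : BadCurve (residue A) (modularFunctionFieldBar N) C)
      (X : Expansions p D (modularFunctionFieldBar M)),
      (∀ σ : GalQ, σ ∈ A.inertiaSubgroupIn ℚ → ∀ i f,
        X.e i (arithmeticGalois (modularFunctionFieldFull N) σ • f)
          = coeffMap (σ : Qbar →+* Qbar) (X.e i f)) ∧
      (∀ σ : GalQ, σ ∈ A.inertiaSubgroupIn ℚ →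
        arithmeticGalois (modularFunctionFieldFull N) σ • D.u = D.u) ∧
      ∀ (σ : GalQ) (i : Fin 2) x, arithmeticGalois (modularFunctionFieldFull N) σ • X.φ i x
        = X.φ i (arithmeticGalois (modularFunctionFieldFull M) σ • x)

/-- **Ordinarity at `p ∥ N` of a residually ordinary Hecke datum, from the three inputs.** -/
theorem isOrdinaryAt_of_inputs
    {p : ℕ} {N M : ℕ} [NeZero N] [NeZero M] {S : Finset ℕ}
    {𝒪 : Type} [CommRing 𝒪] [IsDomain 𝒪] [IsDiscreteValuationRing 𝒪]
    [IsAdicComplete (IsLocalRing.maximalIdeal 𝒪) 𝒪]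
    {θ : CuspForm.heckeAlgebra N 2 (↑S : Set ℕ) →+* IsLocalRing.ResidueField 𝒪}
    {T : Type} [CommRing T] [IsLocalRing T] [IsNoetherianRing T]
    [IsAdicComplete (IsLocalRing.maximalIdeal T) T] [Algebra 𝒪 T] [IsLocalHom (algebraMap 𝒪 T)]
    [Module.Finite 𝒪 T] [Module.Free 𝒪 T] [Fact p.Prime]
    (hp2 : p ≠ 2) (hp𝒪 : (p : 𝒪) ∈ IsLocalRing.maximalIdeal 𝒪) (hpS : p ∈ S)
    (hNS : ∀ q : ℕ, q.Prime → q ∣ N → q ∈ S)
    (hexp : HasExpansions N M p) (hflat : Flat.JFlatTorsion M p)
    (hspec : HeckeOperatorsCommuteBar N →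
      letI := heckeModuleBar N
      ∀ (_ : SMulCommClass (AlgebraicClosure ℚ ≃ₐ[ℚ] AlgebraicClosure ℚ) HeckeAlg (JZero N)),
        SpecializationExists (K := ℚ) (L := AlgebraicClosure ℚ) N p (JZero N))
    (H : CuspForm.HeckeGaloisRepDatum N (↑S : Set ℕ) 𝒪 θ T)
    (hres : (GaloisRepAdic.ofResidualGaloisRep H.ρ.residual).IsOrdinaryAt p) :
    H.ρ.IsOrdinaryAt p := by
  letI := heckeModuleBar N
  haveI := Fermat.Agent.HK.Corr.smulCommClass_heckeModuleBar N
  have hfrob := TraceFn.jFrobeniusQuadratic_of_frobeniusQuadratic N p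
    (TraceFn.frobeniusQuadratic_of_specializationExists
      (hspec (HK.Corr.heckeOperatorsCommuteBar N) inferInstance))
  have hfin : TraceFn.JTorsFiniteLevel N p :=
    TraceFn.jTorsFiniteLevel_of_torsionFiniteLevel N (HK.torsionFiniteLevel N p)
  have hpT : (p : T) ∈ IsLocalRing.maximalIdeal T := by
    rw [← map_natCast (algebraMap 𝒪 T)]
    exact map_nonunit (algebraMap 𝒪 T) (p : 𝒪) hp𝒪
  refine isOrdinaryAt_of_separates
    (TraceFn.jzeroTower N S p hpS Fact.out hNS hfin hfrob) hpS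
    (TraceFn.frobCompatible_datum H) hpT hres hp2
    (TraceFn.isSeparating_jzeroTower hp𝒪 hpS hfin hfrob (HK.jHeckeFaithful N p hNS) H)
    H.residual_absIrr (fun n => (HK.finite_setOf_pow_smul_eq_zero N p n).to_subtype)
    fun A hA => ?_
  obtain ⟨C, _, _, D, X, he, hu, hφ⟩ := hexp A hA
  exact separates_of_expansions hp2 hpS hNS hfin hfrob hflat hA X he hu hφ

end Fermat.Agent.BAD.Ordinary
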