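import Fermat.Agent.BAD.Ordinary.Consts
import Fermat.Agent.BAD.Ordinary.DiscRed
import Fermat.Agent.BAD.Gauss

/-!
# The discretely valued field of series over a field of constants

Quotients of series with integral coefficients in the field of constants, with the Gauss
valuation and its residue map into series over the residue field.
-/

set_option autoImplicit false

noncomputable section

open ModularCurve IsLocalRing

namespace Fermat.Agent.BAD.Ordinary

variable {L : Type} [Field L] {A : ValuationSubring L}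

namespace Consts

variable (Q : Consts A)

theorem pow_ϖ_mem (n : ℕ) : Q.ϖ ^ n ∈ A :=
  pow_mem ((A.valuation_le_one_iff _).mp Q.ϖ_lt.le) n

theorem residue_ϖ (h : Q.ϖ ∈ A) : residue A (⟨Q.ϖ, h⟩ : A) = 0 :=
  (residue_eq_zero_iff _).mpr ((A.coe_mem_nonunits_iff (a := ⟨Q.ϖ, h⟩)).mp
    (A.mem_nonunits_iff.mpr Q.ϖ_lt))

theorem residue_ϖ_pow {n : ℕ} (hn : n ≠ 0) : residue A (⟨Q.ϖ ^ n, Q.pow_ϖ_mem n⟩ : A) = 0 := by
  have h : Q.ϖ ∈ A := by simpa using Q.pow_ϖ_mem 1
  rw [show (⟨Q.ϖ ^ n, Q.pow_ϖ_mem n⟩ : A) = (⟨Q.ϖ, h⟩ : A) ^ n from rfl, map_pow, Q.residue_ϖ h,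
    zero_pow hn]

theorem exists_pow_mul_mem {x : L} (hx : x ∈ Q.K) : ∃ n : ℕ, Q.ϖ ^ n * x ∈ A := by
  rcases eq_or_ne x 0 with rfl | hx0
  · exact ⟨0, by simp⟩
  obtain ⟨i, hi⟩ := Q.exists_eq x hx hx0
  refine ⟨i.natAbs, (A.valuation_le_one_iff _).mp ?_⟩
  rw [map_mul, map_pow, hi, ← zpow_natCast, ← zpow_add₀ ((map_ne_zero _).mpr Q.ϖ_ne)]
  obtain ⟨k, hk⟩ := Int.eq_ofNat_of_zero_le (show 0 ≤ (i.natAbs : ℤ) + i by omega)
  rw [hk, zpow_natCast]
  exact pow_le_one' Q.ϖ_lt.le k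

/-- Series with integral coefficients in the field of constants. -/
def intSer : Subring (LaurentSeries L) where
  carrier := {y | ∀ n, y.coeff n ∈ A ∧ y.coeff n ∈ Q.K}
  zero_mem' n := ⟨by simp [A.zero_mem], by simp [Q.K.zero_mem]⟩
  one_mem' n := by
    rw [HahnSeries.coeff_one]
    split <;> simp [A.zero_mem, A.one_mem, Q.K.zero_mem, Q.K.one_mem]
  add_mem' hy hz n := by
    rw [HahnSeries.coeff_add]
    exact ⟨add_mem (hy n).1 (hz n).1, add_mem (hy n).2 (hz n).2⟩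
  mul_mem' hy hz n := by
    rw [HahnSeries.coeff_mul]
    exact ⟨sum_mem fun ij _ => mul_mem (hy ij.1).1 (hz ij.2).1,
      sum_mem fun ij _ => mul_mem (hy ij.1).2 (hz ij.2).2⟩
  neg_mem' hy n := by
    rw [HahnSeries.coeff_neg]
    exact ⟨neg_mem (hy n).1, neg_mem (hy n).2⟩

theorem C_mem_intSer {x : L} (hx : x ∈ A) (hxK : x ∈ Q.K) :
    HahnSeries.C x ∈ Q.intSer := fun _ => by
  rw [HahnSeries.C_apply, HahnSeries.coeff_single]
  split <;> simp [hx, hxK, A.zero_mem, Q.K.zero_mem]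

/-- An integral series with coefficients in the place. -/
def liftA {y : LaurentSeries L} (hy : y ∈ Q.intSer) : LaurentSeries A where
  coeff n := ⟨y.coeff n, (hy n).1⟩
  isPWO_support' := y.isPWO_support.mono fun _ hn h => hn (Subtype.ext h)

theorem coeffMap_liftA {y : LaurentSeries L} (hy : y ∈ Q.intSer) :
    coeffMap A.subtype (Q.liftA hy) = y := HahnSeries.ext (funext fun _ => rfl)

theorem mem_gaussRing_of_mem_intSer {y : LaurentSeries L} (hy : y ∈ Q.intSer) :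
    y ∈ Gauss.gaussRing (residue A) :=
  Q.coeffMap_liftA hy ▸ Gauss.coeffMap_mem_gaussRing (Q.liftA hy)

theorem gaussRed_of_mem_intSer {y : LaurentSeries L} (hy : y ∈ Q.intSer) :
    Gauss.gaussRed (residue A) ⟨y, Q.mem_gaussRing_of_mem_intSer hy⟩ =
      coeffMap (residue A) (Q.liftA hy) := by
  refine (Gauss.gaussRed_eq _ (a := Q.liftA hy) (b := 1) ⟨by rw [map_one]; exact one_ne_zero,
    by rw [map_one, one_mul, Q.coeffMap_liftA]⟩).trans (by rw [map_one, div_one])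

/-- A nonzero integral series is a power of the uniformiser times a series with a unit
coefficient. -/
theorem exists_pow_mul_unit_intSer {a : LaurentSeries L} (ha : a ∈ Q.intSer) (ha0 : a ≠ 0) :
    ∃ (i : ℕ) (a' : LaurentSeries L) (ha' : a' ∈ Q.intSer),
      coeffMap (residue A) (Q.liftA ha') ≠ 0 ∧ a = HahnSeries.C (Q.ϖ ^ i) * a' := by
  classical
  have hv0 : A.valuation Q.ϖ ≠ 0 := (map_ne_zero _).mpr Q.ϖ_ne
  have hex : ∃ i : ℕ, ∃ n, a.coeff n ≠ 0 ∧ A.valuation (a.coeff n) = A.valuation Q.ϖ ^ i := by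
    obtain ⟨n, hn⟩ : ∃ n, a.coeff n ≠ 0 := by
      by_contra h
      push Not at h
      exact ha0 (HahnSeries.ext (funext fun n => by simpa using h n))
    obtain ⟨i, hi⟩ := Q.exists_eq _ (ha n).2 hn
    obtain ⟨k, rfl⟩ := Int.eq_ofNat_of_zero_le (show 0 ≤ i by
      by_contra h
      push Not at h
      exact absurd ((A.valuation_le_one_iff _).mpr (ha n).1)
        (not_le.mpr (hi ▸ one_lt_zpow_of_neg₀ (zero_lt_iff.mpr hv0) Q.ϖ_lt h)))
    exact ⟨k, n, hn, by rw [hi, zpow_natCast]⟩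
  obtain ⟨n₀, hn₀, hv₀⟩ := Nat.find_spec hex
  set i₀ := Nat.find hex
  set a' := HahnSeries.C (Q.ϖ ^ i₀)⁻¹ * a with ha'def
  have hpow : Q.ϖ ^ i₀ ≠ 0 := pow_ne_zero _ Q.ϖ_ne
  have hcoeff : ∀ n, a'.coeff n = (Q.ϖ ^ i₀)⁻¹ * a.coeff n := fun n => by
    rw [ha'def, HahnSeries.C_mul_eq_smul, HahnSeries.coeff_smul, smul_eq_mul]
  have ha' : a' ∈ Q.intSer := fun n => by
    rw [hcoeff]
    refine ⟨?_, mul_mem (inv_mem (pow_mem Q.ϖ_mem _)) (ha n).2⟩
    rcases eq_or_ne (a.coeff n) 0 with h | h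
    · rw [h, mul_zero]; exact A.zero_mem
    obtain ⟨i, hi⟩ := Q.exists_eq _ (ha n).2 h
    refine (A.valuation_le_one_iff _).mp ?_
    rw [map_mul, map_inv₀, map_pow, inv_mul_le_iff₀ (zero_lt_iff.mpr (pow_ne_zero _ hv0)), mul_one,
      hi, ← zpow_natCast]
    refine zpow_le_zpow_right_of_le_one₀ (zero_lt_iff.mpr hv0) Q.ϖ_lt.le ?_
    by_contra hlt
    push Not at hlt
    have hi0 : 0 ≤ i := by
      by_contra h'
      push Not at h'
      exact absurd ((A.valuation_le_one_iff _).mpr (ha n).1)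
        (not_le.mpr (hi ▸ one_lt_zpow_of_neg₀ (zero_lt_iff.mpr hv0) Q.ϖ_lt h'))
    obtain ⟨k, rfl⟩ := Int.eq_ofNat_of_zero_le hi0
    exact Nat.find_min hex (show k < i₀ by omega) ⟨n, h, by rw [hi, zpow_natCast]⟩
  refine ⟨i₀, a', ha', fun h0 => ?_, ?_⟩
  · have h1 := congrArg (fun s => HahnSeries.coeff s n₀) h0
    simp only [coeffMap_coeff, HahnSeries.coeff_zero, residue_eq_zero_iff] at h1
    have h2 := A.mem_nonunits_iff.mp ((A.coe_mem_nonunits_iff).mpr h1)
    change A.valuation (a'.coeff n₀) < 1 at h2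
    rw [hcoeff, map_mul, map_inv₀, map_pow, hv₀, inv_mul_cancel₀ (pow_ne_zero _ hv0)] at h2
    exact lt_irrefl _ h2
  · rw [ha'def, ← mul_assoc, ← map_mul, mul_inv_cancel₀ hpow, map_one, one_mul]

/-- Their quotients. -/
def serField : Subfield (LaurentSeries L) := Subfield.closure (Q.intSer : Set (LaurentSeries L))

theorem mem_serField_of_mem_intSer {y : LaurentSeries L} (hy : y ∈ Q.intSer) : y ∈ Q.serField :=
  Subfield.subset_closure hy

theorem mem_serField_iff {y : LaurentSeries L} :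
    y ∈ Q.serField ↔ ∃ a ∈ Q.intSer, ∃ b ∈ Q.intSer, y = a / b := by
  rw [serField, Subfield.mem_closure_iff, Subring.closure_eq]
  simp [eq_comm]

theorem C_mem_serField {x : L} (hx : x ∈ Q.K) : HahnSeries.C x ∈ Q.serField := by
  rcases A.mem_or_inv_mem x with h | h
  · exact Q.mem_serField_of_mem_intSer (Q.C_mem_intSer h hx)
  · rw [← inv_inv x, map_inv₀]
    exact inv_mem (Q.mem_serField_of_mem_intSer (Q.C_mem_intSer h (inv_mem hx)))

/-- Every nonzero element is a power of the uniformiser times a unit. -/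
theorem exists_pow_mul_unit {y : LaurentSeries L} (hy : y ∈ Q.serField) (hy0 : y ≠ 0) :
    ∃ (i : ℤ) (u : LaurentSeries L) (hu : u ∈ Gauss.gaussRing (residue A)), u ∈ Q.serField ∧
      Gauss.gaussRed (residue A) ⟨u, hu⟩ ≠ 0 ∧ y = HahnSeries.C (Q.ϖ ^ i) * u := by
  obtain ⟨a, ha, b, hb, rfl⟩ := Q.mem_serField_iff.mp hy
  obtain ⟨ha0, hb0⟩ := div_ne_zero_iff.mp hy0
  obtain ⟨i, a', ha', hra, hai⟩ := Q.exists_pow_mul_unit_intSer ha ha0
  obtain ⟨j, b', hb', hrb, hbj⟩ := Q.exists_pow_mul_unit_intSer hb hb0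
  have hb'0 : b' ≠ 0 := fun h => hb0 (by rw [hbj, h, mul_zero])
  have hfrac : Gauss.IsFrac (residue A) (Q.liftA ha') (Q.liftA hb') (a' / b') :=
    ⟨hrb, by rw [Q.coeffMap_liftA, Q.coeffMap_liftA, mul_div_cancel₀ _ hb'0]⟩
  have hmem : a' / b' ∈ Gauss.gaussRing (residue A) := ⟨_, _, hfrac⟩
  refine ⟨(i : ℤ) - j, a' / b', hmem,
    div_mem (Q.mem_serField_of_mem_intSer ha') (Q.mem_serField_of_mem_intSer hb'), ?_, ?_⟩
  · rw [Gauss.gaussRed_eq hmem hfrac]
    exact div_ne_zero hra hrb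
  · rw [hai, hbj, zpow_sub₀ Q.ϖ_ne, zpow_natCast, zpow_natCast, map_div₀, mul_div_mul_comm]

theorem C_pow_mem_gaussRing (n : ℕ) : HahnSeries.C (Q.ϖ ^ n) ∈ Gauss.gaussRing (residue A) :=
  Q.mem_gaussRing_of_mem_intSer (Q.C_mem_intSer (Q.pow_ϖ_mem n) (pow_mem Q.ϖ_mem n))

theorem gaussRed_C_pow {n : ℕ} (hn : n ≠ 0) :
    Gauss.gaussRed (residue A) ⟨_, Q.C_pow_mem_gaussRing n⟩ = 0 := by
  have h := Gauss.gaussRed_algebraMap (π := residue A) (⟨Q.ϖ ^ n, Q.pow_ϖ_mem n⟩ : A)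
  rw [Q.residue_ϖ_pow hn, map_zero] at h
  exact (congrArg (Gauss.gaussRed (residue A)) (Subtype.ext (Gauss.algebraMap_eq_C _).symm)).trans h

/-- The exponent of an element of the Gauss ring is nonnegative. -/
theorem zpow_exponent_nonneg {y u : LaurentSeries L} {i : ℤ} (hy : y ∈ Gauss.gaussRing (residue A))
    (hu : u ∈ Gauss.gaussRing (residue A)) (hu0 : Gauss.gaussRed (residue A) ⟨u, hu⟩ ≠ 0)
    (he : y = HahnSeries.C (Q.ϖ ^ i) * u) : 0 ≤ i := by
  by_contra hi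
  push Not at hi
  obtain ⟨k, hk⟩ := Int.exists_eq_neg_ofNat hi.le
  have hk0 : k ≠ 0 := by omega
  have hu' : (⟨u, hu⟩ : Gauss.gaussRing (residue A)) =
      ⟨_, Q.C_pow_mem_gaussRing k⟩ * ⟨y, hy⟩ := by
    refine Subtype.ext ?_
    change u = HahnSeries.C (Q.ϖ ^ k) * y
    rw [he, hk, ← mul_assoc, ← map_mul, zpow_neg, zpow_natCast,
      mul_inv_cancel₀ (pow_ne_zero _ Q.ϖ_ne), map_one, one_mul]
  rw [hu', map_mul, Q.gaussRed_C_pow hk0, zero_mul] at hu0
  exact hu0 rfl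

/-- The Gauss valuation ring. -/
def serInt : ValuationSubring Q.serField where
  toSubring := (Gauss.gaussRing (residue A)).comap Q.serField.subtype
  mem_or_inv_mem' y := by
    change (y : LaurentSeries L) ∈ Gauss.gaussRing (residue A) ∨
      (y : LaurentSeries L)⁻¹ ∈ Gauss.gaussRing (residue A)
    rcases eq_or_ne (y : LaurentSeries L) 0 with h | h
    · exact Or.inl (by rw [h]; exact zero_mem _)
    obtain ⟨i, u, hu, -, hu0, hy⟩ := Q.exists_pow_mul_unit y.2 h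
    rcases Int.eq_nat_or_neg i with ⟨n, rfl | rfl⟩
    · left
      rw [hy, zpow_natCast]
      exact mul_mem (Q.C_pow_mem_gaussRing n) hu
    · right
      rw [hy, mul_inv, ← map_inv₀, zpow_neg, inv_inv, zpow_natCast]
      exact mul_mem (Q.C_pow_mem_gaussRing n) (Gauss.inv_mem_gaussRing (y := ⟨u, hu⟩) hu0)

/-- The series field with its residue map. -/
def discRed : DiscRed Q.serField (LaurentSeries (ResidueField A)) where
  O := Q.serInt
  res := (Gauss.gaussRed (residue A)).comp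
    (((Q.serField.subtype).comp Q.serInt.subtype).codRestrict (Gauss.gaussRing (residue A)) fun x => x.2)
  ϖ := ⟨HahnSeries.C Q.ϖ, Q.C_mem_serField Q.ϖ_mem⟩
  ϖ_mem := by
    change HahnSeries.C Q.ϖ ∈ Gauss.gaussRing (residue A)
    simpa using Q.C_pow_mem_gaussRing 1
  ϖ_ne_zero h := Q.ϖ_ne (HahnSeries.C_injective ((congrArg Subtype.val h).trans (map_zero _).symm))
  res_ϖ := by
    refine (congrArg (Gauss.gaussRed (residue A)) (Subtype.ext ?_)).trans (Q.gaussRed_C_pow one_ne_zero)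
    change HahnSeries.C Q.ϖ = HahnSeries.C (Q.ϖ ^ 1)
    rw [pow_one]
  exists_eq x hx := by
    obtain ⟨i, u, hu, huS, hu0, hxu⟩ :=
      Q.exists_pow_mul_unit x.2 fun h => hx (Subtype.ext h)
    refine ⟨i, ⟨⟨u, huS⟩, hu⟩, hu0, Subtype.ext ?_⟩
    rw [hxu, map_zpow₀]
    exact congrArg (· * u) (map_zpow₀ Q.serField.subtype ⟨_, Q.C_mem_serField Q.ϖ_mem⟩ i).symm

theorem mem_discRed_O {y : Q.serField} :
    y ∈ Q.discRed.O ↔ (y : LaurentSeries L) ∈ Gauss.gaussRing (residue A) := Iff.rfl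

theorem discRed_red {y : Q.serField} (h : (y : LaurentSeries L) ∈ Gauss.gaussRing (residue A)) :
    Q.discRed.red y = Gauss.gaussRed (residue A) ⟨(y : LaurentSeries L), h⟩ :=
  DiscRed.red_of_mem (D := Q.discRed) (Q.mem_discRed_O.mpr h)

theorem coe_pow_ϖ (n : ℕ) :
    ((Q.discRed.ϖ ^ n : Q.serField) : LaurentSeries L) = HahnSeries.C (Q.ϖ ^ n) := by
  rw [SubmonoidClass.coe_pow, map_pow]
  rfl

/-- Constants in the series field. -/
def constSer : Q.K →+* Q.serField :=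
  ((HahnSeries.C : L →+* LaurentSeries L).comp Q.K.subtype).codRestrict Q.serField
    fun x => Q.C_mem_serField x.2

theorem castSeries_mem_serField (s : LaurentSeries ℤ) : Gauss.castSeries L s ∈ Q.serField :=
  Q.mem_serField_of_mem_intSer fun n => by
    rw [Gauss.castSeries_coeff]
    exact ⟨intCast_mem A _, intCast_mem Q.K _⟩

/-- An element of the field generated by the integral series lies in the series field as soon as
finitely many constants do. -/
theorem exists_finite_consts {y : LaurentSeries L} (hy : y ∈ Gauss.intField L) :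
    ∃ s : Set L, s.Finite ∧ ∀ R : Consts A, s ⊆ R.K → y ∈ R.serField := by
  obtain ⟨r, hr, t, ht, rfl⟩ := IntermediateField.mem_adjoin_iff_div.mp hy
  obtain ⟨n, s, c, rfl⟩ := Gauss.isIntComb_of_mem_adjoin hr
  obtain ⟨n', s', c', rfl⟩ := Gauss.isIntComb_of_mem_adjoin ht
  refine ⟨Set.range c ∪ Set.range c', (Set.finite_range c).union (Set.finite_range c'),
    fun R hR => ?_⟩
  exact div_mem
    (sum_mem fun i _ => mul_mem (R.C_mem_serField (hR (Or.inl ⟨i, rfl⟩)))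
      (R.castSeries_mem_serField _))
    (sum_mem fun i _ => mul_mem (R.C_mem_serField (hR (Or.inr ⟨i, rfl⟩)))
      (R.castSeries_mem_serField _))

section Coeff

variable (σ : L ≃+* L) (hσK : ∀ x ∈ Q.K, σ x ∈ Q.K) (hσA : ∀ x, x ∈ A → σ x ∈ A)
  (hσres : ∀ (x : L) (h : x ∈ A), residue A ⟨σ x, hσA x h⟩ = residue A ⟨x, h⟩)

include hσK hσA in
theorem coeffMap_mem_serField {y : LaurentSeries L} (hy : y ∈ Q.serField) :
    coeffMap σ.toRingHom y ∈ Q.serField := by
  obtain ⟨a, ha, b, hb, rfl⟩ := Q.mem_serField_iff.mp hy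
  rw [map_div₀]
  exact div_mem (Q.mem_serField_of_mem_intSer fun n => ⟨hσA _ (ha n).1, hσK _ (ha n).2⟩)
    (Q.mem_serField_of_mem_intSer fun n => ⟨hσA _ (hb n).1, hσK _ (hb n).2⟩)

/-- A residually trivial automorphism of the constants, on the series field. -/
def serMap : Q.serField →+* Q.serField :=
  ((coeffMap σ.toRingHom).comp Q.serField.subtype).codRestrict Q.serField
    fun x => Q.coeffMap_mem_serField σ hσK hσA x.2

include hσres in
theorem serMap_red (x : Q.serField) (hx : x ∈ Q.discRed.O) :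
    Q.serMap σ hσK hσA x ∈ Q.discRed.O ∧
      Q.discRed.red (Q.serMap σ hσK hσA x) = Q.discRed.red x := by
  let σA : A →+* A := (σ.toRingHom.comp A.subtype).codRestrict A.toSubring fun a => hσA _ a.2
  have h1 : ∀ a : A, ((σA a : A) : L) = σ.toRingHom a := fun a => rfl
  have h2 : ∀ a : A, residue A (σA a) = (RingHom.id (ResidueField A)) (residue A a) :=
    fun a => hσres a a.2
  have hx' : (x : LaurentSeries L) ∈ Gauss.gaussRing (residue A) := hx
  refine ⟨Gauss.coeffMap_mem_gaussRing_of_mem σA σ.toRingHom _ h1 h2 ⟨_, hx'⟩, ?_⟩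
  rw [Q.discRed_red hx', Q.discRed_red (y := Q.serMap σ hσK hσA x)
    (Gauss.coeffMap_mem_gaussRing_of_mem σA σ.toRingHom _ h1 h2 ⟨_, hx'⟩)]
  exact (Gauss.gaussRed_coeffMap_smul σA σ.toRingHom _ h1 h2 ⟨_, hx'⟩).trans (coeffMap_id _)

end Coeff

end Consts

end Fermat.Agent.BAD.Ordinary
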