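import Fermat.Agent.BAD.Ordinary.SeriesCore
import Fermat.Agent.RED.Specialization.NormExpansion
import Mathlib.LinearAlgebra.Dual.Lemmas
import Mathlib.LinearAlgebra.Finsupp.Span

/-!
# Norm contraction and separation in the series field

The product over the twists by the `p`-th roots of unity descends through `q ↦ q ^ p` and moves
congruences to `1` one step up; independent series separate small combinations.
-/

set_option autoImplicit false

noncomputable section

open ModularCurve IsLocalRing Fermat.Agent.RED.Spec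

namespace Fermat.Agent.BAD.Ordinary

variable {L : Type} [Field L] {A : ValuationSubring L}

namespace Consts

section Gauss

theorem coeffMap_qExpand_series {R S : Type*} [CommRing R] [CommRing S] (f : R →+* S) (d : ℕ)
    [NeZero d] (x : LaurentSeries R) :
    coeffMap f (qExpand R d x) = qExpand S d (coeffMap f x) := by
  ext n
  rw [coeffMap_coeff]
  by_cases h : (d : ℤ) ∣ n
  · obtain ⟨m, rfl⟩ := h
    rw [qExpand_coeff_mul, qExpand_coeff_mul, coeffMap_coeff]
  · rw [qExpand_coeff_of_not_dvd _ _ h, qExpand_coeff_of_not_dvd _ _ h, map_zero]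

variable {d : ℕ} [NeZero d]

theorem qExpand_mem_gaussRing {y : LaurentSeries L} (hy : y ∈ Gauss.gaussRing (residue A)) :
    qExpand L d y ∈ Gauss.gaussRing (residue A) ∧ ∀ h, Gauss.gaussRed (residue A) ⟨qExpand L d y, h⟩ =
      qExpand (ResidueField A) d (Gauss.gaussRed (residue A) ⟨y, hy⟩) := by
  obtain ⟨a, b, hb, he⟩ := hy
  have hf : Gauss.IsFrac (residue A) (qExpand A d a) (qExpand A d b) (qExpand L d y) := by
    refine ⟨?_, ?_⟩
    · rw [coeffMap_qExpand_series]
      exact (map_ne_zero_iff _ (qExpand_injective d)).mpr hb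
    · rw [coeffMap_qExpand_series, coeffMap_qExpand_series, ← map_mul, he]
  refine ⟨⟨_, _, hf⟩, fun h => ?_⟩
  rw [Gauss.gaussRed_eq h hf, Gauss.gaussRed_eq (⟨a, b, hb, he⟩ : y ∈ Gauss.gaussRing (residue A)) ⟨hb, he⟩,
    map_div₀, coeffMap_qExpand_series, coeffMap_qExpand_series]

theorem twist_mem_gaussRing {u : Aˣ} (hu : residue A (u : A) = 1) {y : LaurentSeries L}
    (hy : y ∈ Gauss.gaussRing (residue A)) :
    twist (Units.map A.subtype u) y ∈ Gauss.gaussRing (residue A) ∧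
      ∀ h, Gauss.gaussRed (residue A) ⟨twist (Units.map A.subtype u) y, h⟩ =
        Gauss.gaussRed (residue A) ⟨y, hy⟩ := by
  obtain ⟨a, b, hb, he⟩ := hy
  have hred : ∀ z : LaurentSeries A,
      coeffMap (residue A) (twist u z) = coeffMap (residue A) z := fun z => by
    rw [coeffMap_twist]
    have : Units.map (residue A : A →* ResidueField A) u = 1 := Units.ext hu
    rw [this, twist_one]
  have hf : Gauss.IsFrac (residue A) (twist u a) (twist u b) (twist (Units.map A.subtype u) y) := by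
    refine ⟨by rw [hred]; exact hb, ?_⟩
    rw [coeffMap_twist, coeffMap_twist, ← he, map_mul]
  refine ⟨⟨_, _, hf⟩, fun h => ?_⟩
  rw [Gauss.gaussRed_eq h hf, Gauss.gaussRed_eq (⟨a, b, hb, he⟩ : y ∈ Gauss.gaussRing (residue A)) ⟨hb, he⟩,
    hred, hred]

theorem exists_prod_one_add {R ι : Type*} [CommRing R] (c : R) (t : ι → R) (s : Finset ι) :
    ∃ r, ∏ i ∈ s, (1 + c * t i) = 1 + c * (∑ i ∈ s, t i + c * r) := by
  classical
  induction s using Finset.induction_on with
  | empty => exact ⟨0, by simp⟩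
  | insert a s ha ih =>
    obtain ⟨r, hr⟩ := ih
    refine ⟨r + t a * (∑ i ∈ s, t i + c * r), ?_⟩
    rw [Finset.prod_insert ha, Finset.sum_insert ha, hr]
    ring

end Gauss

variable (Q : Consts A)

variable {p : ℕ} [Fact p.Prime] [CharP (ResidueField A) p]

omit [CharP (ResidueField A) p] in
theorem unit_mem_place {ζ : Lˣ} (hζ : IsPrimitiveRoot ζ p) : (ζ : L) ∈ A := by
  have h : (ζ : L) ^ p = 1 := by
    rw [← Units.val_pow_eq_pow_val, hζ.pow_eq_one, Units.val_one]
  refine (A.valuation_le_one_iff _).mp (le_of_eq ?_)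
  refine (pow_eq_one_iff.mp ?_).resolve_right (Fact.out : p.Prime).ne_zero
  rw [← map_pow, h, map_one]

theorem residue_unit_eq_one {ζ : Lˣ} (hζ : IsPrimitiveRoot ζ p) (h : (ζ : L) ∈ A) :
    residue A (⟨(ζ : L), h⟩ : A) = 1 := by
  refine frobenius_inj (ResidueField A) p ?_
  rw [frobenius_def, frobenius_def, one_pow, ← map_pow]
  refine (congrArg (residue A) ?_).trans (map_one _)
  refine Subtype.ext ?_
  change (ζ : L) ^ p = 1
  rw [← Units.val_pow_eq_pow_val, hζ.pow_eq_one, Units.val_one]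

/-- The level of `ζ - 1`. -/
theorem exists_rootLevel {ζ : Lˣ} (hζ : IsPrimitiveRoot ζ p) (hζK : (ζ : L) ∈ Q.K) :
    ∃ R : Q.discRed.RootLevel p, (R.ζ : LaurentSeries L) = HahnSeries.C (ζ : L) := by
  have hp : p.Prime := Fact.out
  have hA := unit_mem_place (A := A) hζ
  have hζ' : IsPrimitiveRoot (ζ : L) p := IsPrimitiveRoot.coe_units_iff.mpr hζ
  have hne : (ζ : L) - 1 ≠ 0 := sub_ne_zero.mpr (hζ'.ne_one hp.one_lt)
  have hK : (ζ : L) - 1 ∈ Q.K := sub_mem hζK (one_mem _)
  obtain ⟨i, hi⟩ := Q.exists_eq _ hK hne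
  have hlt : A.valuation ((ζ : L) - 1) < 1 := by
    have h : residue A ((⟨(ζ : L), hA⟩ : A) - 1) = 0 := by
      rw [map_sub, map_one, residue_unit_eq_one hζ hA, sub_self]
    exact A.mem_nonunits_iff.mp (A.coe_mem_nonunits_iff.mpr ((residue_eq_zero_iff _).mp h))
  have hv0 : A.valuation Q.ϖ ≠ 0 := (map_ne_zero _).mpr Q.ϖ_ne
  obtain ⟨l, rfl⟩ := Int.eq_ofNat_of_zero_le (show 0 ≤ i by
    by_contra h
    push Not at h
    rw [hi] at hlt
    exact absurd hlt (not_lt.mpr (one_lt_zpow_of_neg₀ (zero_lt_iff.mpr hv0) Q.ϖ_lt h).le))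
  rw [zpow_natCast] at hi
  have hl : 0 < l := Nat.pos_of_ne_zero fun h => by simp [hi, h] at hlt
  set w := ((ζ : L) - 1) / Q.ϖ ^ l
  have hwK : w ∈ Q.K := div_mem hK (pow_mem Q.ϖ_mem _)
  have hwv : A.valuation w = 1 := by
    rw [map_div₀, map_pow, hi, div_self (pow_ne_zero _ hv0)]
  have hwA : w ∈ A := (A.valuation_le_one_iff _).mp hwv.le
  have hwG : HahnSeries.C w ∈ Gauss.gaussRing (residue A) :=
    Q.mem_gaussRing_of_mem_intSer (Q.C_mem_intSer hwA hwK)
  refine ⟨{ l := l, l_pos := hl, ζ := Q.constSer ⟨(ζ : L), hζK⟩, ζ_prim := ?_,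
            unit := Q.constSer ⟨w, hwK⟩, unit_mem := hwG, unit_ne := ?_, sub_one := ?_ }, rfl⟩
  · exact (IsPrimitiveRoot.of_map_of_injective (f := Q.K.subtype) hζ'
      Q.K.subtype.injective).map_of_injective Q.constSer.injective
  · rw [Q.discRed_red (y := Q.constSer ⟨w, hwK⟩) hwG]
    intro h0
    have h := ((Gauss.gaussRed_algebraMap (π := residue A) (⟨w, hwA⟩ : A)).symm.trans
      (congrArg (Gauss.gaussRed (residue A)) (Subtype.ext (Gauss.algebraMap_eq_C w)))).trans h0
    have := A.mem_nonunits_iff.mp (A.coe_mem_nonunits_iff.mpr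
      ((residue_eq_zero_iff _).mp ((map_eq_zero _).mp h)))
    exact this.ne hwv
  · refine Subtype.ext ?_
    rw [AddSubgroupClass.coe_sub, MulMemClass.coe_mul, OneMemClass.coe_one, Q.coe_pow_ϖ]
    change HahnSeries.C (ζ : L) - 1 = HahnSeries.C (Q.ϖ ^ l) * HahnSeries.C w
    rw [← map_mul, mul_div_cancel₀ _ (pow_ne_zero _ Q.ϖ_ne), map_sub, map_one]

omit [CharP (ResidueField A) p] in
theorem twist_mem_intSer {ζ : Lˣ} (hζ : IsPrimitiveRoot ζ p) (hζK : (ζ : L) ∈ Q.K) (i : ℕ)
    {a : LaurentSeries L} (ha : a ∈ Q.intSer) : twist (ζ ^ i) a ∈ Q.intSer := fun n => by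
  rw [twist_coeff, Units.val_zpow_eq_zpow_val, Units.val_pow_eq_pow_val]
  refine ⟨mul_mem ?_ (ha n).1, mul_mem (zpow_mem (pow_mem hζK i) n) (ha n).2⟩
  refine (A.valuation_le_one_iff _).mp (le_of_eq ?_)
  have h1 : A.valuation (ζ : L) = 1 := by
    refine (pow_eq_one_iff.mp ?_).resolve_right (Fact.out : p.Prime).ne_zero
    rw [← map_pow, ← Units.val_pow_eq_pow_val, hζ.pow_eq_one, Units.val_one, map_one]
  rw [map_zpow₀, map_pow, h1, one_pow, one_zpow]

omit [CharP (ResidueField A) p] in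
/-- The product over the twists of an integral series descends. -/
theorem exists_descend {ζ : Lˣ} (hζ : IsPrimitiveRoot ζ p) (hζK : (ζ : L) ∈ Q.K)
    {a : LaurentSeries L} (ha : a ∈ Q.intSer) :
    ∃ b ∈ Q.intSer, qExpand L p b = ∏ i : Fin p, twist (ζ ^ (i : ℕ)) a := by
  have hp : p.Prime := Fact.out
  set P := ∏ i : Fin p, twist (ζ ^ (i : ℕ)) a
  have hP : P ∈ Q.intSer := prod_mem fun i _ => Q.twist_mem_intSer hζ hζK i ha
  have hinv : twist ζ P = P := by
    rw [map_prod]
    refine Fintype.prod_equiv (finRotate p) _ _ fun i => ?_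
    ext n
    simp only [twist_coeff, ← mul_assoc, ← Units.val_mul, ← mul_zpow, ← pow_succ']
    have hcast : ζ ^ (((finRotate p) i : Fin p) : ℕ) = ζ ^ ((i : ℕ) + 1) := by
      obtain ⟨q, rfl⟩ : ∃ q, p = q + 1 := ⟨p - 1, by have := hp.one_le; omega⟩
      rw [finRotate_apply, Fin.val_add_one]
      split_ifs with h
      · rw [h, Fin.val_last, pow_zero, hζ.pow_eq_one]
      · rfl
    rw [hcast]
  have hinj : Function.Injective fun m : ℤ => (p : ℤ) * m :=
    mul_right_injective₀ (Int.natCast_ne_zero.mpr hp.ne_zero)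
  let b : LaurentSeries L :=
    { coeff := fun m => P.coeff ((p : ℤ) * m)
      isPWO_support' := fun f => by
        obtain ⟨i, j, hij, hle⟩ := P.isPWO_support fun n => ⟨(p : ℤ) * f n, (f n).2⟩
        exact ⟨i, j, hij, le_of_mul_le_mul_left hle (Int.natCast_pos.mpr hp.pos)⟩ }
  refine ⟨b, fun m => hP _, ?_⟩
  ext n
  by_cases hd : (p : ℤ) ∣ n
  · obtain ⟨m, rfl⟩ := hd
    rw [qExpand_coeff_mul]
  · rw [qExpand_coeff_of_not_dvd _ _ hd]
    have h := congrArg (fun s => HahnSeries.coeff s n) hinv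
    simp only [twist_coeff] at h
    by_contra hne
    have h1 : ζ ^ n = 1 := Units.ext (mul_right_cancel₀ (Ne.symm hne)
      (h.trans (one_mul _).symm))
    exact hd ((hζ.zpow_eq_one_iff_dvd n).mp h1)

variable [CharZero L]

omit [CharZero L] in
/-- The norm over the twists by roots of unity, in the variable `q`. -/
theorem exists_norm {ζ : Lˣ} (hζ : IsPrimitiveRoot ζ p) (hζK : (ζ : L) ∈ Q.K) :
    ∃ N : Q.serField →* Q.serField,
      (∀ x : Q.serField, qExpand L p (N x : LaurentSeries L) =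
        ∏ i : Fin p, twist (ζ ^ (i : ℕ)) (x : LaurentSeries L)) ∧
      ∀ i x, 1 ≤ i → Q.discRed.One i x → Q.discRed.One (i + 1) (N x) := by
  have hp : p.Prime := Fact.out
  have hex : ∀ x : Q.serField, ∃ z : Q.serField,
      qExpand L p (z : LaurentSeries L) =
        ∏ i : Fin p, twist (ζ ^ (i : ℕ)) (x : LaurentSeries L) := fun x => by
    obtain ⟨a, ha, b, hb, hx⟩ := Q.mem_serField_iff.mp x.2
    obtain ⟨a', ha', hae⟩ := Q.exists_descend hζ hζK ha
    obtain ⟨b', hb', hbe⟩ := Q.exists_descend hζ hζK hb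
    refine ⟨⟨a' / b', Q.mem_serField_iff.mpr ⟨a', ha', b', hb', rfl⟩⟩, ?_⟩
    change qExpand L p (a' / b') = _
    rw [map_div₀, hae, hbe, hx, ← Finset.prod_div_distrib]
    exact Finset.prod_congr rfl fun i _ => (map_div₀ _ _ _).symm
  choose N hN using hex
  refine ⟨{ toFun := N, map_one' := ?_, map_mul' := ?_ }, hN, ?_⟩
  · refine Subtype.ext (qExpand_injective p ?_)
    rw [hN]
    simp
  · intro x y
    refine Subtype.ext (qExpand_injective p ?_)
    simp only [MulMemClass.coe_mul, map_mul, hN, Finset.prod_mul_distrib]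
  intro i x hi hx
  obtain ⟨y, hy, hxy⟩ := DiscRed.Cong.exists_eq hx
  have hyG : (y : LaurentSeries L) ∈ Gauss.gaussRing (residue A) := hy
  have hA := unit_mem_place (A := A) hζ
  have hAi : ((ζ⁻¹ : Lˣ) : L) ∈ A := unit_mem_place hζ.inv
  let u : Aˣ := ⟨⟨(ζ : L), hA⟩, ⟨((ζ⁻¹ : Lˣ) : L), hAi⟩, Subtype.ext ζ.mul_inv,
    Subtype.ext ζ.inv_mul⟩
  have hu : ∀ j : ℕ, Units.map A.subtype (u ^ j) = ζ ^ j := fun j => by
    rw [map_pow]
    exact congrArg (· ^ j) (Units.ext rfl)
  have hu1 : ∀ j : ℕ, residue A ((u ^ j : Aˣ) : A) = 1 := fun j => by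
    rw [Units.val_pow_eq_pow_val, map_pow]
    exact (congrArg (· ^ j) (residue_unit_eq_one hζ hA)).trans (one_pow j)
  have htw : ∀ j : Fin p, twist (ζ ^ (j : ℕ)) (y : LaurentSeries L) ∈ Gauss.gaussRing (residue A) ∧
      ∀ h, Gauss.gaussRed (residue A) ⟨twist (ζ ^ (j : ℕ)) (y : LaurentSeries L), h⟩ =
        Gauss.gaussRed (residue A) ⟨_, hyG⟩ := fun j => by
    rw [← hu j]
    exact twist_mem_gaussRing (hu1 j) hyG
  let t : Fin p → Gauss.gaussRing (residue A) := fun j => ⟨_, (htw j).1⟩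
  let c : Gauss.gaussRing (residue A) := ⟨_, Q.C_pow_mem_gaussRing i⟩
  obtain ⟨r, hr⟩ := exists_prod_one_add c t Finset.univ
  set T := ∑ j, t j + c * r
  have hT : Gauss.gaussRed (residue A) T = 0 := by
    have hc : Gauss.gaussRed (residue A) c = 0 := Q.gaussRed_C_pow (by omega)
    rw [map_add, map_mul, hc, zero_mul, add_zero, map_sum]
    simp only [t]
    rw [Finset.sum_congr rfl fun j _ => (htw j).2 _, Finset.sum_const, Finset.card_univ,
      Fintype.card_fin, nsmul_eq_mul]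
    have : CharP (LaurentSeries (ResidueField A)) p :=
      charP_of_injective_ringHom (HahnSeries.C_injective (Γ := ℤ) (R := ResidueField A)) p
    rw [CharP.cast_eq_zero, zero_mul]
  have hxser : (x : LaurentSeries L) = 1 + HahnSeries.C (Q.ϖ ^ i) * (y : LaurentSeries L) := by
    have h := congrArg (fun z : Q.serField => (z : LaurentSeries L)) hxy
    simp only [AddSubgroupClass.coe_sub, MulMemClass.coe_mul, OneMemClass.coe_one,
      Q.coe_pow_ϖ] at h
    rw [← h]; ring
  have hqx : qExpand L p (N x : LaurentSeries L) =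
      1 + HahnSeries.C (Q.ϖ ^ i) * (T : LaurentSeries L) := by
    rw [hN, hxser]
    have h1 : ∀ j : Fin p, twist (ζ ^ (j : ℕ))
        (1 + HahnSeries.C (Q.ϖ ^ i) * (y : LaurentSeries L)) = ((1 + c * t j : Gauss.gaussRing (residue A)) :
          LaurentSeries L) := fun j => by
      rw [map_add, map_one, map_mul, HahnSeries.C_apply, twist_single_zero]
      rfl
    rw [Finset.prod_congr rfl fun j _ => h1 j, ← SubmonoidClass.coe_finsetProd, hr]
    rfl
  set w := (N x - 1) / Q.discRed.ϖ ^ i with hw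
  have hqw : qExpand L p (w : LaurentSeries L) = T := by
    rw [hw]
    push_cast [Q.coe_pow_ϖ]
    rw [map_div₀, map_sub, map_one, hqx, add_sub_cancel_left, qExpand_C,
      mul_div_cancel_left₀ _ ((map_ne_zero _).mpr (pow_ne_zero _ Q.ϖ_ne))]
  show Q.discRed.Cong (i + 1) (N x - 1)
  have hwmem : w ∈ Q.discRed.O ∧ Q.discRed.red w = 0 := by
    rcases eq_or_ne w 0 with h0 | h0
    · rw [h0]; exact ⟨zero_mem _, DiscRed.red_zero⟩
    obtain ⟨k, v, hv, -, hv0, hwv⟩ := Q.exists_pow_mul_unit w.2 fun h => h0 (Subtype.ext h)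
    obtain ⟨hqv, hqvr⟩ := qExpand_mem_gaussRing (d := p) hv
    have hqv0 : Gauss.gaussRed (residue A) ⟨_, hqv⟩ ≠ 0 := by
      rw [hqvr]
      exact (map_ne_zero_iff _ (qExpand_injective p)).mpr hv0
    have heq : (T : LaurentSeries L) = HahnSeries.C (Q.ϖ ^ k) * qExpand L p v := by
      rw [← hqw, hwv, map_mul, qExpand_C]
    have hk := Q.zpow_exponent_nonneg T.2 hqv hqv0 heq
    obtain ⟨k', rfl⟩ := Int.eq_ofNat_of_zero_le hk
    rw [zpow_natCast] at heq hwv
    have hwG : (w : LaurentSeries L) ∈ Gauss.gaussRing (residue A) :=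
      hwv ▸ mul_mem (Q.C_pow_mem_gaussRing k') hv
    refine ⟨hwG, ?_⟩
    have hk0 : k' ≠ 0 := by
      rintro rfl
      rw [pow_zero, map_one, one_mul] at heq
      exact hqv0 ((congrArg (Gauss.gaussRed (residue A)) (Subtype.ext heq.symm)).trans hT)
    rw [Q.discRed_red hwG, show (⟨_, hwG⟩ : Gauss.gaussRing (residue A)) =
      ⟨_, Q.C_pow_mem_gaussRing k'⟩ * ⟨v, hv⟩ from Subtype.ext hwv, map_mul, Q.gaussRed_C_pow hk0,
      zero_mul]
  exact DiscRed.Cong.succ (j := i) hwmem.1 hwmem.2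

omit [Fact p.Prime] [CharP (ResidueField A) p] [CharZero L] in
/-- Small combinations of integral series have small coefficients. -/
theorem coeff_div_mem_of_cong {N : ℕ} {S : LaurentSeries L} {K : ℕ}
    (hS : HahnSeries.C (Q.ϖ ^ K) * S ∈ Q.intSer) {y : Q.serField}
    (hy : (y : LaurentSeries L) = S) (h : Q.discRed.Cong N y) (m : ℤ) :
    S.coeff m / Q.ϖ ^ N ∈ A := by
  rcases eq_or_ne S 0 with h0 | h0
  · simp [h0, A.zero_mem]
  have hne : HahnSeries.C (Q.ϖ ^ K) * S ≠ 0 :=
    mul_ne_zero ((map_ne_zero _).mpr (pow_ne_zero _ Q.ϖ_ne)) h0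
  obtain ⟨k, S', hS', hr, he⟩ := Q.exists_pow_mul_unit_intSer hS hne
  have hSe : S = HahnSeries.C (Q.ϖ ^ ((k : ℤ) - K)) * S' := by
    rw [zpow_sub₀ Q.ϖ_ne, zpow_natCast, zpow_natCast, map_div₀, div_mul_eq_mul_div, ← he,
      mul_div_cancel_left₀ _ ((map_ne_zero _).mpr (pow_ne_zero _ Q.ϖ_ne))]
  have hG : (((y / Q.discRed.ϖ ^ N : Q.serField)) : LaurentSeries L) ∈ Gauss.gaussRing (residue A) := h
  rw [show (((y / Q.discRed.ϖ ^ N : Q.serField)) : LaurentSeries L) =
    S / HahnSeries.C (Q.ϖ ^ N) by push_cast [Q.coe_pow_ϖ]; rw [hy]] at hG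
  have hred : Gauss.gaussRed (residue A) ⟨S', Q.mem_gaussRing_of_mem_intSer hS'⟩ ≠ 0 := by
    rw [Q.gaussRed_of_mem_intSer hS']
    exact hr
  have hexp : S / HahnSeries.C (Q.ϖ ^ N) = HahnSeries.C (Q.ϖ ^ ((k : ℤ) - K - N)) * S' := by
    rw [hSe, zpow_sub₀ Q.ϖ_ne ((k : ℤ) - K), zpow_natCast, map_div₀, div_mul_eq_mul_div]
  obtain ⟨d, hd⟩ := Int.eq_ofNat_of_zero_le
    (Q.zpow_exponent_nonneg hG (Q.mem_gaussRing_of_mem_intSer hS') hred hexp)
  have hc := congrArg (fun s => HahnSeries.coeff s m) hexp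
  rw [div_eq_mul_inv, ← map_inv₀, mul_comm, hd, zpow_natCast] at hc
  simp only [HahnSeries.C_mul_eq_smul, HahnSeries.coeff_smul, smul_eq_mul] at hc
  rw [div_eq_inv_mul, hc]
  exact mul_mem (Q.pow_ϖ_mem d) (hS' m).1

omit [Fact p.Prime] [CharP (ResidueField A) p] [CharZero L] in
/-- Independent series separate small combinations. -/
theorem exists_sep {n : ℕ} (c : Fin n → Q.serField)
    (hc : ∀ α : Fin n → Q.K, ∑ j, Q.constSer (α j) * c j = 0 → ∀ j, α j = 0) (M : ℕ) :
    ∃ N : ℕ, ∀ α : Fin n → Q.K, Q.discRed.Cong N (∑ j, Q.constSer (α j) * c j) →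
      ∀ j, Q.discRed.Cong M (Q.constSer (α j)) := by
  classical
  -- clear the denominators
  choose a ha b hb hab using fun j => Q.mem_serField_iff.mp (c j).2
  let b' : Fin n → LaurentSeries L := fun j => if b j = 0 then 1 else b j
  have hb' : ∀ j, b' j ∈ Q.intSer := fun j => by
    simp only [b']; split <;> [exact one_mem _; exact hb j]
  have hb'0 : ∀ j, b' j ≠ 0 := fun j => by
    simp only [b']; split <;> [exact one_ne_zero; assumption]
  set B := ∏ j, b' j
  have hB : B ∈ Q.intSer := prod_mem fun j _ => hb' j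
  have hB0 : B ≠ 0 := Finset.prod_ne_zero_iff.mpr fun j _ => hb'0 j
  have hd : ∀ j, B * (c j : LaurentSeries L) ∈ Q.intSer := fun j => by
    rw [hab j]
    by_cases h : b j = 0
    · simp [h, zero_mem]
    · rw [show B = b j * ∏ i ∈ Finset.univ.erase j, b' i by
        rw [show b j = b' j by simp [b', h], Finset.mul_prod_erase _ _ (Finset.mem_univ j)],
        mul_comm (b j), mul_assoc, mul_div_cancel₀ _ h]
      exact mul_mem (prod_mem fun i _ => hb' i) (ha j)
  let Bs : Q.serField := ⟨B, Q.mem_serField_of_mem_intSer hB⟩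
  have hBs : Bs ∈ Q.discRed.O := Q.mem_gaussRing_of_mem_intSer hB
  -- rows of coefficients span everything
  let row : ℤ → Fin n → Q.K := fun m j => ⟨_, (hd j m).2⟩
  have hspan : Submodule.span Q.K (Set.range row) = ⊤ := by
    by_contra hne
    obtain ⟨φ, hφ0, hφ⟩ := Submodule.exists_dual_map_eq_bot_of_lt_top
      (lt_top_iff_ne_top.mpr hne) inferInstance
    refine hφ0 ((Pi.basisFun Q.K (Fin n)).ext fun j => ?_)
    have hker : ∀ m, φ (row m) = 0 := fun m =>
      (Submodule.mem_bot Q.K).mp (hφ ▸ Submodule.mem_map_of_mem (Submodule.subset_span ⟨m, rfl⟩))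
    rw [Pi.basisFun_apply, LinearMap.zero_apply]
    refine hc (fun j => φ (Pi.single j 1)) ?_ j
    refine Subtype.ext (mul_left_cancel₀ hB0 ?_)
    rw [AddSubmonoidClass.coe_finsetSum, ZeroMemClass.coe_zero, mul_zero, Finset.mul_sum]
    ext m
    rw [HahnSeries.coeff_sum, HahnSeries.coeff_zero]
    have h := congrArg (Subtype.val : Q.K → L) (hker m)
    rw [pi_eq_sum_univ' (row m), map_sum, AddSubmonoidClass.coe_finsetSum] at h
    refine (Finset.sum_congr rfl fun i _ => ?_).trans (h.trans (ZeroMemClass.coe_zero _))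
    rw [map_smul, smul_eq_mul, MulMemClass.coe_mul]
    change (B * (HahnSeries.C ((φ (Pi.single i 1) : Q.K) : L) * (c i : LaurentSeries L))).coeff m = _
    rw [mul_left_comm, HahnSeries.C_mul_eq_smul, HahnSeries.coeff_smul, smul_eq_mul, mul_comm]
    rfl
  have hmem : ∀ j : Fin n, Pi.single j (1 : Q.K) ∈ Submodule.span Q.K (Set.range row) := fun j =>
    hspan ▸ Submodule.mem_top
  choose β hβ using fun j => Finsupp.mem_span_range_iff_exists_finsupp.mp (hmem j)
  choose e he using fun (j : Fin n) (m : ℤ) => Q.exists_pow_mul_mem (β j m).2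
  let E := Finset.univ.sup fun j => (β j).support.sup fun m => e j m
  refine ⟨M + E, fun α hα j => ?_⟩
  choose K₀ hK₀ using fun i => Q.exists_pow_mul_mem (α i).2
  set S := ∑ i, HahnSeries.C (α i : L) * (B * (c i : LaurentSeries L)) with hS
  have hint : HahnSeries.C (Q.ϖ ^ (Finset.univ.sup K₀)) * S ∈ Q.intSer := by
    rw [hS, Finset.mul_sum]
    refine sum_mem fun i _ => ?_
    rw [← mul_assoc, ← map_mul]
    refine mul_mem (Q.C_mem_intSer ?_ (mul_mem (pow_mem Q.ϖ_mem _) (α i).2)) (hd i)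
    obtain ⟨d, hd'⟩ := Nat.exists_eq_add_of_le (Finset.le_sup (f := K₀) (Finset.mem_univ i))
    rw [hd', add_comm, pow_add, mul_assoc]
    exact mul_mem (Q.pow_ϖ_mem d) (hK₀ i)
  have hy : (((∑ i, Q.constSer (α i) * c i) * Bs : Q.serField) : LaurentSeries L) = S := by
    rw [MulMemClass.coe_mul, AddSubmonoidClass.coe_finsetSum, Finset.sum_mul, hS]
    exact Finset.sum_congr rfl fun i _ => by
      change HahnSeries.C (α i : L) * (c i : LaurentSeries L) * B = _
      ring
  have hcoef := Q.coeff_div_mem_of_cong hint hy (hα.mul_right hBs)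
  have hαj : (α j : L) = ∑ m ∈ (β j).support, (β j m : L) * S.coeff m := by
    have h := congrArg (fun f : Fin n → Q.K => ∑ i, (α i : L) * (f i : L)) (hβ j)
    simp only [Finsupp.sum, Finset.sum_apply, Pi.smul_apply, smul_eq_mul] at h
    rw [show ∑ i, (α i : L) * ((Pi.single j (1 : Q.K) : Fin n → Q.K) i : L) = (α j : L) by
      rw [Finset.sum_eq_single j (fun i _ hi => by simp [Pi.single_eq_of_ne hi]) (by simp)]
      simp] at h
    rw [← h]
    simp only [AddSubmonoidClass.coe_finsetSum, MulMemClass.coe_mul, Finset.mul_sum]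
    rw [Finset.sum_comm]
    refine Finset.sum_congr rfl fun m _ => ?_
    rw [hS, HahnSeries.coeff_sum, Finset.mul_sum]
    refine Finset.sum_congr rfl fun i _ => ?_
    rw [HahnSeries.C_mul_eq_smul, HahnSeries.coeff_smul, smul_eq_mul]
    change (α i : L) * ((β j m : L) * (B * (c i : LaurentSeries L)).coeff m) = _
    ring
  have hA : (α j : L) / Q.ϖ ^ M ∈ A := by
    rw [hαj, Finset.sum_div]
    refine sum_mem fun m hm => ?_
    have hE : e j m ≤ E := le_trans (Finset.le_sup (f := fun m => e j m) hm)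
      (Finset.le_sup (f := fun j => (β j).support.sup fun m => e j m) (Finset.mem_univ j))
    obtain ⟨d, hd'⟩ := Nat.exists_eq_add_of_le hE
    rw [show (β j m : L) * S.coeff m / Q.ϖ ^ M =
        Q.ϖ ^ d * (Q.ϖ ^ e j m * (β j m : L)) * (S.coeff m / Q.ϖ ^ (M + E)) by
      rw [hd', pow_add, pow_add]
      field_simp [pow_ne_zero _ Q.ϖ_ne]]
    exact mul_mem (mul_mem (Q.pow_ϖ_mem d) (he j m)) (hcoef m)
  change ((Q.constSer (α j) / Q.discRed.ϖ ^ M : Q.serField) : LaurentSeries L) ∈ Gauss.gaussRing (residue A)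
  push_cast [Q.coe_pow_ϖ]
  change HahnSeries.C (α j : L) / HahnSeries.C (Q.ϖ ^ M) ∈ _
  rw [← map_div₀]
  exact Q.mem_gaussRing_of_mem_intSer
    (Q.C_mem_intSer hA (div_mem (α j).2 (pow_mem Q.ϖ_mem _)))

end Consts

end Fermat.Agent.BAD.Ordinary
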