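import Fermat.Agent.BAD.Ordinary.DiscRed
import Fermat.Agent.BAD.Ordinary.Node

/-!
# The abstract setting for torsion with power residues at a bad prime

A function field `F` with two expansions into a discretely valued field, the node conditions on
the reductions, and two shifts of the coordinate with disjoint zeros.
-/

set_option autoImplicit false

noncomputable section

open AlgebraicCurve WithZero

namespace Fermat.Agent.BAD.Ordinary

/-- The setting: a rational subfield `F0` of `F` expanded at the two components. -/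
structure Setting (p : ℕ) (L F k C 𝔉 κ K0 : Type*) [Field L] [Field F] [Algebra L F] [Field k]
    [Field C] [Algebra k C] [Field 𝔉] [Field κ] [Field K0] where
  D : DiscRed 𝔉 κ
  rl : D.RootLevel p
  F0 : Subfield F
  s : Fin 2 → (F0 →+* 𝔉)
  cst : K0 →+* F0
  cst_const : ∀ c, ∃ l, (cst c : F) = algebraMap L F l
  ϖ0 : K0
  s_ϖ0 : ∀ i, s i (cst ϖ0) = D.ϖ
  ι : C →+* κ
  red_mem : ∀ (i : Fin 2) (x : F0), s i x ∈ D.O → ∃ c, D.red (s i x) = ι c
  root_mem : ∀ h : κ, (∃ c, h ^ p = ι c) → ∃ c, h = ι c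
  poleF : Divisor L F
  Γ : NodeRing k C
  m0 : ℕ
  node_red : ∀ m, m0 ≤ m → ∀ x : F0, (∀ i, s i x ∈ D.O) →
    (∀ w : Place L F, w.adicValuation (x : F) ≤ exp (poleF w) ^ m) →
    ∀ r : Fin 2 → C, (∀ i, D.red (s i x) = ι (r i)) → Γ.IsNode m r
  v : Fin 2 → F0
  vbar : Fin 2 → C
  v_mem : ∀ l i, s i (v l) ∈ D.O
  red_v : ∀ l i, D.red (s i (v l)) = ι (vbar l)
  vbar_ne : ∀ l, vbar l ≠ 0
  vbar_glue : ∀ l, ∀ x ∈ Γ.S, GlueUnit x fun _ => vbar l
  v_le : ∀ l (w : Place L F), w.adicValuation (v l : F) ≤ exp (poleF w)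
  v_cases : ∀ w : Place L F, (∀ l, w.adicValuation (v l : F) = exp (poleF w)) ∨
    (poleF w = 0 ∧ ∃ l, w.adicValuation (v l : F) = 1)
  vbar_le : ∀ l (w : Place k C), w.adicValuation (vbar l) ≤ exp (Γ.pole w)
  vbar_cases : ∀ w : Place k C, (∀ l, w.adicValuation (vbar l) = exp (Γ.pole w)) ∨
    (Γ.pole w = 0 ∧ ∃ l, w.adicValuation (vbar l) = 1)
  const_F : ∀ x : F, (∀ w : Place L F, w.adicValuation x ≤ 1) → ∃ l, x = algebraMap L F l
  sep : ∀ (n : ℕ) (c : Fin n → F0),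
    (∀ α : Fin n → K0, ∑ j, cst (α j) * c j = 0 → ∀ j, α j = 0) →
      ∀ M : ℕ, ∃ N : ℕ, ∀ α : Fin n → K0,
        D.Cong N (s 0 (∑ j, cst (α j) * c j)) → ∀ j, D.Cong M (s 0 (cst (α j)))
  s_cst : ∀ i c, s i (cst c) = s 0 (cst c)

namespace Setting

variable {p : ℕ} {L F k C 𝔉 κ K0 : Type*} [Field L] [Field F] [Algebra L F] [Field k] [Field C]
  [Algebra k C] [Field 𝔉] [Field κ] [Field K0] (T : Setting p L F k C 𝔉 κ K0)

/-- Integral on both components. -/
def InO (x : T.F0) : Prop := ∀ i, T.s i x ∈ T.D.O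

/-- Sections: `x ^ p * f` has poles bounded by `p * m` times the poles of the coordinate. -/
def InW (f : T.F0) (m : ℕ) (x : T.F0) : Prop :=
  ∀ w : Place L F, w.adicValuation ((x : F) ^ p * f) ≤ exp (T.poleF w) ^ (p * m)

/-- The residues are the constant pair `(a, a)`. -/
def RedConst (x : T.F0) (a : C) : Prop := ∀ i, T.D.red (T.s i x) = T.ι a

/-- `x` is a `K0`-combination of the members of `b`. -/
def InSpan {n : ℕ} (b : Fin n → T.F0) (x : T.F0) : Prop :=
  ∃ α : Fin n → K0, x = ∑ j, T.cst (α j) * b j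

/-- Every node pair lifts to a section which is a combination of `b`. -/
def Lifts (f : T.F0) (m : ℕ) {n : ℕ} (b : Fin n → T.F0) : Prop :=
  (∀ j, T.InW f m (b j)) ∧ ∀ r : Fin 2 → C, T.Γ.IsNode m r →
    ∃ x, T.InSpan b x ∧ T.InO x ∧ ∀ i, T.D.red (T.s i x) = T.ι (r i)

/-- `(x / v ^ m) ^ p * f`. -/
def twist (f : T.F0) (l : Fin 2) (m : ℕ) (x : T.F0) : T.F0 := x ^ p * f / T.v l ^ (p * m)

theorem red_pow_v (l i : Fin 2) (m : ℕ) :
    T.D.red (T.s i (T.v l ^ m)) = T.ι (T.vbar l ^ m) := by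
  rw [map_pow, DiscRed.red_pow (T.v_mem l i), T.red_v, map_pow]

theorem v_pow_mem (l i : Fin 2) (m : ℕ) : T.s i (T.v l ^ m) ∈ T.D.O := by
  rw [map_pow]; exact pow_mem (T.v_mem l i) m

theorem red_pow_v_ne (l i : Fin 2) (m : ℕ) : T.D.red (T.s i (T.v l ^ m)) ≠ 0 := by
  rw [T.red_pow_v]
  exact (map_ne_zero T.ι).mpr (pow_ne_zero _ (T.vbar_ne l))

theorem v_ne (l : Fin 2) : T.v l ≠ 0 := fun h => T.red_pow_v_ne l 0 1 (by
  rw [pow_one, h, map_zero, DiscRed.red_zero])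

theorem isNode_vbar (l : Fin 2) (m : ℕ) : T.Γ.IsNode m fun _ => T.vbar l ^ m :=
  T.Γ.isNode_const_pow (T.vbar_le l)
    (fun x hx => (T.vbar_glue l x hx).imp fun _ h => h.2) m

theorem InW.add {f : T.F0} {m : ℕ} {x y : T.F0} (hx : T.InW f m x) (hy : T.InW f m y) :
    T.InW f m (x + y) := fun w => by
  have key : ∀ a b c : F, w.adicValuation ((a + b) ^ p * c) ≤
      max (w.adicValuation (a ^ p * c)) (w.adicValuation (b ^ p * c)) := by
    intro a b c
    simp only [map_mul, map_pow]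
    rcases le_total (w.adicValuation a) (w.adicValuation b) with h | h
    · exact le_max_of_le_right (mul_le_mul' (pow_le_pow_left'
        ((w.adicValuation.map_add a b).trans_eq (max_eq_right h)) p) le_rfl)
    · exact le_max_of_le_left (mul_le_mul' (pow_le_pow_left'
        ((w.adicValuation.map_add a b).trans_eq (max_eq_left h)) p) le_rfl)
  rw [AddMemClass.coe_add]
  exact (key _ _ _).trans (max_le (hx w) (hy w))

theorem InW.cst_mul {f : T.F0} {m : ℕ} {x : T.F0} (hx : T.InW f m x) (c : K0) :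
    T.InW f m (T.cst c * x) := fun w => by
  obtain ⟨l, hl⟩ := T.cst_const c
  rw [MulMemClass.coe_mul, hl, mul_pow, mul_assoc, map_mul, map_pow]
  exact (mul_le_of_le_one_left' (pow_le_one' (w.adicValuation_algebraMap_le_one l) p)).trans (hx w)

theorem InW.neg {f : T.F0} {m : ℕ} {x : T.F0} (hx : T.InW f m x) : T.InW f m (-x) := by
  simpa using InW.cst_mul T hx (-1 : K0)

theorem InW.sub {f : T.F0} {m : ℕ} {x y : T.F0} (hx : T.InW f m x) (hy : T.InW f m y) :
    T.InW f m (x - y) := sub_eq_add_neg x y ▸ InW.add T hx (InW.neg T hy)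

theorem inW_zero [hp : Fact p.Prime] (f : T.F0) (m : ℕ) : T.InW f m 0 := fun w => by
  simp [zero_pow hp.out.ne_zero]

theorem InSpan.inW [Fact p.Prime] {f : T.F0} {m n : ℕ} {b : Fin n → T.F0}
    (hb : ∀ j, T.InW f m (b j)) {x : T.F0} (hx : T.InSpan b x) : T.InW f m x := by
  obtain ⟨α, rfl⟩ := hx
  exact Finset.sum_induction _ _ (fun _ _ => InW.add T) (T.inW_zero f m)
    fun j _ => InW.cst_mul T (hb j) (α j)

/-- `x ^ p * f` lies in the untwisted space. -/
theorem InW.pow_mul_le {f : T.F0} {m : ℕ} {x : T.F0} (hx : T.InW f m x) (w : Place L F) :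
    w.adicValuation ((x ^ p * f : T.F0) : F) ≤ exp (T.poleF w) ^ (p * m) := by
  simpa using hx w

/-- Residues of integral sections satisfy the node conditions. -/
theorem InW.isNode [Fact p.Prime] [CharP k p] [IsAlgClosed k] {f : T.F0} (hf : T.InO f)
    (hf1 : T.RedConst f 1) {m : ℕ} (hm : T.m0 ≤ m) {x : T.F0} (hxW : T.InW f m x)
    (hx : T.InO x) {r : Fin 2 → C} (hr : ∀ i, T.D.red (T.s i x) = T.ι (r i)) :
    T.Γ.IsNode m r := by
  refine T.Γ.isNode_of_pow (T.node_red (p * m)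
    (hm.trans (Nat.le_mul_of_pos_left m (Fact.out : p.Prime).pos)) (x ^ p * f)
    (fun i => ?_) (InW.pow_mul_le T hxW) _ fun i => ?_)
  · rw [map_mul, map_pow]; exact mul_mem (pow_mem (hx i) p) (hf i)
  · rw [map_mul, map_pow, DiscRed.red_mul (pow_mem (hx i) p) (hf i), DiscRed.red_pow (hx i),
      hr, hf1, map_one, mul_one, Pi.pow_apply, map_pow]

theorem cst_pow_ϖ (i : Fin 2) (j : ℕ) : T.s i (T.cst (T.ϖ0 ^ j)) = T.D.ϖ ^ j := by
  rw [map_pow, map_pow, T.s_ϖ0]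

/-- A quotient by a shift power of an integral element. -/
theorem div_v_mem (l i : Fin 2) (m : ℕ) {x : 𝔉} (hx : x ∈ T.D.O) :
    x / T.s i (T.v l ^ m) ∈ T.D.O := by
  rw [div_eq_mul_inv]
  exact mul_mem hx (DiscRed.inv_mem (T.v_pow_mem l i m) (T.red_pow_v_ne l i m))

theorem red_div_v (l i : Fin 2) (m : ℕ) {x : 𝔉} (hx : x ∈ T.D.O) :
    T.D.red (x / T.s i (T.v l ^ m)) = T.D.red x / T.ι (T.vbar l ^ m) := by
  rw [div_eq_mul_inv, DiscRed.red_mul hx
    (DiscRed.inv_mem (T.v_pow_mem l i m) (T.red_pow_v_ne l i m)),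
    DiscRed.red_inv (T.v_pow_mem l i m) (T.red_pow_v_ne l i m), T.red_pow_v, ← div_eq_mul_inv]

/-- Subtracting the lift of the leading term. -/
theorem improve {f : T.F0} {l : Fin 2} {m j : ℕ} (hj : 1 ≤ j) {a b : T.F0} (ha : T.InO a)
    (hra : T.RedConst a (T.vbar l ^ m)) (hb : T.InO b) (haW : T.InW f m a) (hbW : T.InW f m b) :
    T.InO (a - T.cst (T.ϖ0 ^ j) * b) ∧ T.RedConst (a - T.cst (T.ϖ0 ^ j) * b) (T.vbar l ^ m) ∧
      T.InW f m (a - T.cst (T.ϖ0 ^ j) * b) := by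
  have h : ∀ i, T.s i (a - T.cst (T.ϖ0 ^ j) * b) = T.s i a - T.D.ϖ ^ j * T.s i b := fun i => by
    rw [map_sub, map_mul, T.cst_pow_ϖ]
  have hm : ∀ i, T.D.ϖ ^ j * T.s i b ∈ T.D.O := fun i =>
    (DiscRed.cong_pow_mul (hb i) j).mem
  refine ⟨fun i => h i ▸ sub_mem (ha i) (hm i), fun i => ?_,
    InW.sub T haW (InW.cst_mul T hbW _)⟩
  rw [h i, DiscRed.red_sub (ha i) (hm i), hra i,
    (DiscRed.cong_pow_mul (hb i) j).red_eq_zero (by omega), sub_zero]

end Setting

end Fermat.Agent.BAD.Ordinary
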