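import Fermat.Agent.BAD.Ordinary.Setting
import Fermat.Agent.BAD.Ordinary.Chart
import Fermat.Agent.BAD.Ordinary.Expansions
import Fermat.Agent.BAD.Ordinary.SeriesField
import Fermat.Agent.BAD.Ordinary.PthRoot

/-!
# The setting attached to the expansions of a two-branch curve

The rational subfield consists of the functions whose two expansions lie in the series field over
a field of constants.
-/

set_option autoImplicit false

noncomputable section

open AlgebraicCurve ModularCurve IsLocalRing WithZero Fermat.Agent.RED.Spec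

namespace Fermat.Agent.BAD.Ordinary

variable {L : Type} [Field L] [Algebra ℚ L] {A : ValuationSubring L} {F C E : Type} [Field F]
  [Algebra L F] [Field C] [Algebra (ResidueField A) C] [Field E] [Algebra L E]
  {p : ℕ} [Fact p.Prime] {D : BadCurve (residue A) F C} (X : Expansions p D E) (Q : Consts A)

theorem e_algebraMap (i : Fin 2) (x : L) :
    X.e i (algebraMap L F x) = HahnSeries.C x := by
  rw [AlgHom.commutes, Gauss.algebraMap_eq_C]

namespace Expansions

/-- Functions with both expansions in the series field. -/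
def ratField : Subfield F :=
  Q.serField.comap (X.e 0).toRingHom ⊓ Q.serField.comap (X.e 1).toRingHom

theorem mem_ratField {x : F} : x ∈ X.ratField Q ↔ ∀ i, X.e i x ∈ Q.serField := by
  rw [Fin.forall_fin_two]
  exact Iff.rfl

/-- The expansions of the rational subfield. -/
def sHom (i : Fin 2) : X.ratField Q →+* Q.serField :=
  ((X.e i).toRingHom.comp (X.ratField Q).subtype).codRestrict Q.serField
    fun x => (X.mem_ratField Q).mp x.2 i

theorem coe_sHom (i : Fin 2) (x : X.ratField Q) :
    (X.sHom Q i x : LaurentSeries L) = X.e i (x : F) := rfl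

theorem algebraMap_mem_ratField {x : L} (hx : x ∈ Q.K) : algebraMap L F x ∈ X.ratField Q := by
  rw [X.mem_ratField]
  intro i
  rw [e_algebraMap X]
  exact Q.C_mem_serField hx

/-- Constants in the rational subfield. -/
def constRat : Q.K →+* X.ratField Q :=
  ((algebraMap L F).comp Q.K.subtype).codRestrict (X.ratField Q)
    fun x => X.algebraMap_mem_ratField Q x.2

theorem sHom_constRat (i : Fin 2) (x : Q.K) : X.sHom Q i (X.constRat Q x) = Q.constSer x :=
  Subtype.ext (e_algebraMap X i _)

theorem sHom_mem_iff {i : Fin 2} {x : X.ratField Q} :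
    X.sHom Q i x ∈ Q.discRed.O ↔ (x : F) ∈ D.V i := by
  rw [Q.mem_discRed_O, X.coe_sHom, ← X.mem_V]

theorem red_sHom {i : Fin 2} {x : X.ratField Q} (hx : (x : F) ∈ D.V i) :
    Q.discRed.red (X.sHom Q i x) = X.ι (D.red i x) := by
  have h : X.e i (x : F) ∈ Gauss.gaussRing (residue A) := (X.mem_V i _).mp hx
  exact (Q.discRed_red (y := X.sHom Q i x) h).trans (X.red i (x : F) h)

variable [CharP (ResidueField A) p] [IsAlgClosed (ResidueField A)] [IsAlgClosed L]
  [FF.IsFunctionField L F] (R : Q.discRed.RootLevel p) (Z : Coord D)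

omit [Algebra ℚ L] [IsAlgClosed L] [FF.IsFunctionField L F] [CharP (ResidueField A) p]
  [IsAlgClosed (ResidueField A)] [Fact p.Prime] in
theorem isFunctionField_residual (D : BadCurve (residue A) F C) :
    FF.IsFunctionField (ResidueField A) C :=
  ⟨⟨D.ubar, D.chartFin.transcendental_ubar, D.chartFin.finite_C⟩⟩

/-- The setting attached to the expansions. -/
def setting (hw : Z.w ∈ X.ratField Q) (ht : ∀ l, (Z.t l : L) ∈ Q.K) :
    Setting p L F (ResidueField A) C Q.serField (LaurentSeries (ResidueField A)) Q.K where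
  D := Q.discRed
  rl := R
  F0 := X.ratField Q
  s := X.sHom Q
  cst := X.constRat Q
  cst_const c := ⟨(c : L), rfl⟩
  ϖ0 := ⟨Q.ϖ, Q.ϖ_mem⟩
  s_ϖ0 i := Subtype.ext (e_algebraMap X i _)
  ι := X.ι
  red_mem i x hx := ⟨_, X.red_sHom Q ((X.sHom_mem_iff Q).mp hx)⟩
  root_mem h := by
    rintro ⟨c, hc⟩
    have := charP_of_injective_ringHom
      (f := (HahnSeries.C : ResidueField A →+* LaurentSeries (ResidueField A)))
      HahnSeries.C_injective p
    have := isFunctionField_residual D
    obtain ⟨b, hb⟩ := exists_pow_of_mem_range (p := p) D.chartFin.transcendental_ubar X.ι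
      X.ubar_not_pow (c := c) ⟨_, ((hc.symm).trans (laurentSeries_pow_char p h)).symm⟩
    refine ⟨b, frobenius_inj (LaurentSeries (ResidueField A)) p ?_⟩
    rw [frobenius_def, frobenius_def, hc, ← map_pow, hb]
  poleF := Z.poleF
  Γ := Z.nodeRing
  m0 := 0
  node_red m _ x hx hb r hr := by
    have hV : ∀ i, (x : F) ∈ D.V i := fun i => (X.sHom_mem_iff Q).mp (hx i)
    have : r = D.red2 (x : F) := funext fun i => X.ι.injective
      ((hr i).symm.trans (X.red_sHom Q (hV i)))
    exact this ▸ Z.node_red (D.mem_O.mpr hV) hb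
  v l := ⟨Z.v l, (X.ratField Q).sub_mem hw (X.algebraMap_mem_ratField Q (ht l))⟩
  vbar := Z.vbar
  v_mem l i := (X.sHom_mem_iff Q).mpr (D.mem_of_mem_O (Z.v_mem l) i)
  red_v l i := (X.red_sHom Q (D.mem_of_mem_O (Z.v_mem l) i)).trans (congrArg X.ι (Z.red_v l i))
  vbar_ne := Z.vbar_ne
  vbar_glue l x hx := Z.vbar_glue l hx
  v_le := Z.v_le
  v_cases := Z.v_cases
  vbar_le := Z.vbar_le
  vbar_cases := Z.vbar_cases
  const_F x hx := exists_const_of_no_pole D hx
  sep n c hc M := by
    have hc' : ∀ α : Fin n → Q.K, ∑ j, Q.constSer (α j) * X.sHom Q 0 (c j) = 0 →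
        ∀ j, α j = 0 := fun α hα => hc α ((map_eq_zero (X.sHom Q 0)).mp (by
      simpa only [map_sum, map_mul, X.sHom_constRat] using hα))
    obtain ⟨N, hN⟩ := Q.exists_sep (fun j => X.sHom Q 0 (c j)) hc' M
    refine ⟨N, fun α hα j => ?_⟩
    rw [X.sHom_constRat]
    refine hN α ?_ j
    simpa only [map_sum, map_mul, X.sHom_constRat] using hα
  s_cst i c := (X.sHom_constRat Q i c).trans (X.sHom_constRat Q 0 c).symm

end Expansions

end Fermat.Agent.BAD.Ordinary
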