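import Fermat.Agent.TraceFn.Tower
import Mathlib.LinearAlgebra.Charpoly.ToMatrix
import Mathlib.LinearAlgebra.Matrix.Charpoly.Coeff
import Mathlib.RingTheory.Ideal.Quotient.Operations

/-!
# From annihilation on the relevant part of a torsion tower to vanishing of traces

If an element of the Galois group algebra kills the image of a projector attached to the residual
eigensystem on a deep level, its image under the representation is orthogonal to the group modulo
a high power of the maximal ideal.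
-/

set_option autoImplicit false

noncomputable section

namespace Fermat.Agent.BAD.Ordinary

open Fermat.Agent.TraceFn Polynomial

local notation "Qbar" => AlgebraicClosure ℚ
local notation "Γℚ" => AlgebraicClosure ℚ ≃ₐ[ℚ] AlgebraicClosure ℚ

variable {p : ℕ} [Fact p.Prime] {S : Finset ℕ} {R : Type} [CommRing R] {a : ℕ → R}
  (D : QuadraticTower p S R a) {T : Type} [CommRing T] [IsLocalRing T] (ρ : GaloisRepAdic T)
  (τ : R →+* T)

theorem exists_pow_idem {M : Type*} [Monoid M] [Finite M] (x : M) :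
    ∃ N : ℕ, 0 < N ∧ IsIdempotentElem (x ^ N) := by
  obtain ⟨i, j, hij, h⟩ := Finite.exists_ne_map_eq_of_infinite fun n : ℕ => x ^ n
  wlog hlt : i < j generalizing i j
  · exact this j i hij.symm h.symm (lt_of_le_of_ne (not_lt.mp hlt) hij.symm)
  obtain ⟨d, rfl⟩ : ∃ d, j = i + (d + 1) := ⟨j - i - 1, by omega⟩
  have step : ∀ k, i ≤ k → ∀ t, x ^ (k + t * (d + 1)) = x ^ k := by
    intro k hk t
    obtain ⟨c, rfl⟩ := Nat.exists_eq_add_of_le hk
    induction t with
    | zero => simp
    | succ t ih =>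
      rw [show i + c + (t + 1) * (d + 1) = (i + (d + 1)) + (c + t * (d + 1)) by ring, pow_add,
        ← h, ← pow_add, ← add_assoc, ih]
  refine ⟨(i + 1) * (d + 1), Nat.mul_pos (Nat.succ_pos i) (Nat.succ_pos d), ?_⟩
  rw [IsIdempotentElem, ← pow_add]
  exact step _ (le_trans (Nat.le_succ i) (Nat.le_mul_of_pos_right _ (Nat.succ_pos d))) (i + 1)

omit [Fact p.Prime] in
/-- A projector onto the part of a level belonging to the residual eigensystem. -/
theorem exists_projector (n : ℕ) [Finite (D.X n)] :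
    ∃ e : R, IsUnit (τ e) ∧
      ∀ r : R, τ r ∈ IsLocalRing.maximalIdeal T → ∃ M : ℕ, D.act n (e * r ^ M) = 0 := by
  classical
  have : Finite (Module.End ℤ (D.X n)) := Finite.of_injective _ DFunLike.coe_injective
  set good : Set (Module.End ℤ (D.X n)) := D.act n '' {x | IsUnit (τ x)} with hgood
  have hfin : good.Finite := Set.toFinite _
  choose rep hrep hrepact using fun φ : good => φ.2
  have : Fintype good := hfin.fintype
  set s : R := ∏ φ : good, rep φ with hs
  have hsu : IsUnit (τ s) := by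
    rw [hs, map_prod]
    exact Finset.prod_induction _ IsUnit (fun _ _ hx hy => hx.mul hy) isUnit_one
      fun φ _ => hrep φ
  obtain ⟨N, hN, hNid⟩ := exists_pow_idem (D.act n s)
  refine ⟨s ^ N, by rw [map_pow]; exact hsu.pow N, fun r hr => ?_⟩
  obtain ⟨M, hM, hMid⟩ := exists_pow_idem (D.act n r)
  refine ⟨M, ?_⟩
  have hx : IsUnit (τ (1 - r ^ M)) := by
    rw [map_sub, map_one, map_pow]
    exact IsLocalRing.isUnit_one_sub_self_of_mem_nonunits _
      ((IsLocalRing.maximalIdeal T).pow_mem_of_mem hr M hM)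
  set φ₀ : good := ⟨D.act n (1 - r ^ M), _, hx, rfl⟩
  have hzero : D.act n ((1 - r ^ M) * r ^ M) = 0 := by
    rw [map_mul, map_sub, map_one, map_pow, sub_mul, one_mul, hMid.eq, sub_self]
  have hprod : D.act n s = D.act n (rep φ₀) * D.act n (∏ φ ∈ Finset.univ.erase φ₀, rep φ) := by
    rw [← map_mul, hs, Finset.mul_prod_erase _ _ (Finset.mem_univ φ₀)]
  obtain ⟨N', rfl⟩ : ∃ N', N = N' + 1 := ⟨N - 1, by omega⟩
  set Q := ∏ φ ∈ Finset.univ.erase φ₀, rep φ
  have h1 : D.act n s = D.act n ((1 - r ^ M) * Q) := by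
    rw [hprod, hrepact φ₀, map_mul]
  have h2 : ((1 - r ^ M) * Q) ^ (N' + 1) * r ^ M =
      (1 - r ^ M) * r ^ M * (((1 - r ^ M) * Q) ^ N' * Q) := by ring
  calc D.act n (s ^ (N' + 1) * r ^ M)
      = D.act n (((1 - r ^ M) * Q) ^ (N' + 1) * r ^ M) := by
        rw [map_mul, map_mul, map_pow _ s, h1, map_pow _ ((1 - r ^ M) * Q)]
    _ = 0 := by rw [h2, map_mul, hzero, zero_mul]

/-- The mod `p` exponent is the reduction of the mod `p ^ n` one. -/
theorem cast_cycExp {n : ℕ} (hn : 1 ≤ n) (g : Γℚ) :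
    ((cycExp p n g).val : ZMod (p ^ 1)) = cycExp p 1 g := by
  obtain ⟨d, rfl⟩ : ∃ d, n = d + 1 := ⟨n - 1, by omega⟩
  have hζ : IsPrimitiveRoot (zetaPow p (d + 1) ^ p ^ d) (p ^ 1) :=
    (zetaPow_spec p (d + 1)).pow (pow_pos (Fact.out : p.Prime).pos _) (by rw [pow_one, ← pow_succ])
  have : NeZero (p ^ 1) := ⟨pow_ne_zero _ (Fact.out : p.Prime).ne_zero⟩
  obtain ⟨i, -, hi⟩ := hζ.eq_pow_of_pow_eq_one (ξ := zetaPow p 1) (zetaPow_spec p 1).pow_eq_one
  refine (cycExp_eq_of_apply p 1 ?_).symm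
  rw [← hi, map_pow, map_pow, ← zetaPow_pow_cycExp p (d + 1) g, ← pow_mul, ← pow_mul,
    ← pow_mul, ← pow_mul]
  congr 1
  ring

theorem det_residue_eq (hpS : p ∈ S) (hρ : QuadraticTower.FrobCompatible (S := S) (a := a) ρ τ)
    (hpT : (p : T) ∈ IsLocalRing.maximalIdeal T) (g : Γℚ) :
    IsLocalRing.residue T (LinearMap.det (ρ.ρ g)) =
      ((cycExp p 1 g).val : IsLocalRing.ResidueField T) := by
  obtain ⟨L₁, hL₁, h₁⟩ := ρ.residual.factorsThroughFiniteLevel
  obtain ⟨L₃, hL₃, h₃⟩ := exists_level_cycExp p 1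
  have := hL₁; have := hL₃
  obtain ⟨ℓ, hℓ, hℓS, A, hA, σ, hσ, m, hm⟩ :=
    exists_frobenius_pow_level (L₁ ⊔ L₃) (IntermediateField.finiteDimensional_sup L₁ L₃) g S
  have hfix : ∀ x ∈ L₁ ⊔ L₃, ((σ ^ m)⁻¹ * g) x = x := fun x hx => by
    rw [AlgEquiv.mul_apply, ← hm x hx]
    exact AlgEquiv.symm_apply_apply _ x
  have hℓp : ℓ ≠ p := fun h => hℓS (h ▸ hpS)
  have hres : ∀ h : Γℚ, LinearMap.det (ρ.residual.ρ h) =
      IsLocalRing.residue T (LinearMap.det (ρ.ρ h)) := fun h => LinearMap.det_baseChange _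
  have hg : g = σ ^ m * ((σ ^ m)⁻¹ * g) := by group
  rw [← hres, hg, map_mul (ρ.residual.ρ), h₁ _ fun x hx => hfix x
      ((le_sup_left : L₁ ≤ _) hx), mul_one, map_mul (cycExp p 1),
    h₃ _ fun x hx => hfix x ((le_sup_right : L₃ ≤ _) hx), mul_one, hres, map_pow, map_pow,
    map_pow, map_pow, cycExp_frobenius hℓ hℓp hA hσ]
  have hdet : LinearMap.det (ρ.ρ σ) = (ℓ : T) := by
    let b := Module.finBasisOfFinrankEq T ρ.V ρ.finrank_eq
    have h := hρ ℓ hℓ hℓS A hA σ hσ
    rw [← LinearMap.charpoly_toMatrix (ρ.ρ σ) b] at h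
    rw [← LinearMap.det_toMatrix b, Matrix.det_eq_sign_charpoly_coeff, h]
    simp
  have hcast : ∀ z : ZMod (p ^ 1), ∀ N : ℕ, (N : ZMod (p ^ 1)) = z →
      (N : IsLocalRing.ResidueField T) = (z.val : IsLocalRing.ResidueField T) := by
    intro z N hz
    have hp0 : ((p ^ 1 : ℕ) : IsLocalRing.ResidueField T) = 0 := by
      rw [pow_one, ← map_natCast (IsLocalRing.residue T), IsLocalRing.residue_eq_zero_iff]
      exact hpT
    rw [← hz, ZMod.val_natCast]
    conv_lhs => rw [← Nat.mod_add_div N (p ^ 1), Nat.cast_add, Nat.cast_mul, hp0, zero_mul,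
      add_zero]
  rw [hdet, map_natCast, ← Nat.cast_pow]
  exact hcast _ _ (by rw [Nat.cast_pow])

variable {ρ} in
/-- The residual trace on inertia when the residual representation is ordinary. -/
theorem trace_residue_of_quotient_trivial {L : Submodule (IsLocalRing.ResidueField T) ρ.residual.V}
    (hb : ∃ b : Module.Basis (Fin 2) (IsLocalRing.ResidueField T) ρ.residual.V,
      L = (IsLocalRing.ResidueField T) ∙ b 0)
    {g : Γℚ} (hL : ∀ v ∈ L, ρ.residual.ρ g v ∈ L) (hq : ∀ v, ρ.residual.ρ g v - v ∈ L) :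
    IsLocalRing.residue T (LinearMap.trace T ρ.V (ρ.ρ g)) =
      IsLocalRing.residue T (LinearMap.det (ρ.ρ g)) + 1 := by
  obtain ⟨b, rfl⟩ := hb
  have h1 : LinearMap.trace _ _ (ρ.residual.ρ g) =
      IsLocalRing.residue T (LinearMap.trace T ρ.V (ρ.ρ g)) := LinearMap.trace_baseChange _ _
  have h2 : LinearMap.det (ρ.residual.ρ g) = IsLocalRing.residue T (LinearMap.det (ρ.ρ g)) :=
    LinearMap.det_baseChange _
  rw [← h1, ← h2, LinearMap.trace_eq_matrix_trace _ b, ← LinearMap.det_toMatrix b,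
    Matrix.trace_fin_two, Matrix.det_fin_two]
  have hz : ∀ v ∈ (IsLocalRing.ResidueField T) ∙ b 0, b.repr v 1 = 0 := by
    intro v hv
    obtain ⟨c, rfl⟩ := Submodule.mem_span_singleton.mp hv
    simp
  have h10 : LinearMap.toMatrix b b (ρ.residual.ρ g) 1 0 = 0 := by
    rw [LinearMap.toMatrix_apply]; exact hz _ (hL _ (Submodule.mem_span_singleton_self _))
  have h11 : LinearMap.toMatrix b b (ρ.residual.ρ g) 1 1 = 1 := by
    have := hz _ (hq (b 1))
    rw [map_sub, Finsupp.sub_apply, sub_eq_zero] at this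
    rw [LinearMap.toMatrix_apply, this, Module.Basis.repr_self, Finsupp.single_eq_same]
  rw [h10, h11, mul_zero, sub_zero, mul_one]

/-- Some trace of a commutator times a group element is a unit. -/
theorem exists_commutator_trace_unit (h : ρ.residual.IsAbsolutelyIrreducible) :
    ∃ x y z : Γℚ, IsUnit (LinearMap.trace T ρ.V (ρ.ρ (x * y * z)) -
      LinearMap.trace T ρ.V (ρ.ρ (y * x * z))) := by
  classical
  by_contra hne
  push Not at hne
  let b := Module.finBasisOfFinrankEq T ρ.V ρ.finrank_eq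
  set M := fun g => LinearMap.toMatrix b b (ρ.ρ g) with hM
  let q := IsLocalRing.residue T
  let Φ : Matrix (Fin 2) (Fin 2) T → Matrix (Fin 2) (Fin 2) T → Matrix (Fin 2) (Fin 2) T →
      IsLocalRing.ResidueField T := fun X Y Z => q ((X * Y * Z).trace - (Y * X * Z).trace)
  have hspan := span_range_toMatrix_eq_top ρ h b
  have h0 : ∀ x y z, Φ (M x) (M y) (M z) = 0 := by
    intro x y z
    refine (IsLocalRing.residue_eq_zero_iff _).mpr ((IsLocalRing.mem_maximalIdeal _).mpr ?_)
    simpa [hM, ← LinearMap.toMatrix_mul, ← map_mul, ← LinearMap.trace_eq_matrix_trace]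
      using hne x y z
  have htop : ∀ X, X ∈ Submodule.span T (Set.range M) := fun X => by rw [hspan]; trivial
  have h1 : ∀ x y Z, Φ (M x) (M y) Z = 0 := by
    intro x y Z
    refine Submodule.span_induction (fun Z hZ => ?_) ?_ ?_ ?_ (htop Z)
    · obtain ⟨z, rfl⟩ := hZ; exact h0 x y z
    · simp [Φ]
    · intro Z Z' _ _ h1 h2
      simp only [Φ, q, mul_add, Matrix.trace_add, map_sub, map_add] at *
      linear_combination h1 + h2
    · intro c Z _ h1
      simp only [Φ, q, mul_smul_comm, Matrix.trace_smul, smul_eq_mul, map_sub, map_mul] at *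
      linear_combination IsLocalRing.residue T c * h1
  have h2 : ∀ x Y Z, Φ (M x) Y Z = 0 := by
    intro x Y Z
    refine Submodule.span_induction (fun Y hY => ?_) ?_ ?_ ?_ (htop Y)
    · obtain ⟨y, rfl⟩ := hY; exact h1 x y Z
    · simp [Φ]
    · intro Y Y' _ _ h1 h2
      simp only [Φ, q, mul_add, add_mul, Matrix.trace_add, map_sub, map_add] at *
      linear_combination h1 + h2
    · intro c Y _ h1
      simp only [Φ, q, mul_smul_comm, smul_mul_assoc, Matrix.trace_smul, smul_eq_mul, map_sub,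
        map_mul] at *
      linear_combination IsLocalRing.residue T c * h1
  have h3 : ∀ X Y Z, Φ X Y Z = 0 := by
    intro X Y Z
    refine Submodule.span_induction (fun X hX => ?_) ?_ ?_ ?_ (htop X)
    · obtain ⟨x, rfl⟩ := hX; exact h2 x Y Z
    · simp [Φ]
    · intro X X' _ _ h1 h2
      simp only [Φ, q, mul_add, add_mul, Matrix.trace_add, map_sub, map_add] at *
      linear_combination h1 + h2
    · intro c X _ h1
      simp only [Φ, q, mul_smul_comm, smul_mul_assoc, Matrix.trace_smul, smul_eq_mul, map_sub,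
        map_mul] at *
      linear_combination IsLocalRing.residue T c * h1
  have := h3 !![0, 1; 0, 0] !![0, 0; 1, 0] !![1, 0; 0, 0]
  simp [Φ, q, Matrix.trace_fin_two] at this

/-- If `∑ c i • gal (g i)`, with coefficients in `R`, kills the image of a unit projector on a
deep level, the representation of that sum is orthogonal to every group element modulo a high power
of the maximal ideal. -/
theorem trace_mem_of_kill_mul (hpS : p ∈ S)
    (hρ : QuadraticTower.FrobCompatible (S := S) (a := a) ρ τ)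
    (hirr : ρ.residual.IsAbsolutelyIrreducible) {k n : ℕ} (hk : k ≠ 0)
    (hn : ∀ r : R, D.act n r = 0 → τ r ∈ IsLocalRing.maximalIdeal T ^ k) {e : R}
    (he : IsUnit (τ e)) (s : Finset Γℚ) (c : Γℚ → R)
    (hkill : ∑ i ∈ s, D.act n (c i) * (D.gal n i * D.act n e) = 0) (g : Γℚ) :
    ∑ i ∈ s, τ (c i) * LinearMap.trace T ρ.V (ρ.ρ (g * i)) ∈ IsLocalRing.maximalIdeal T ^ k := by
  classical
  obtain ⟨x, y, z, hxyz⟩ := exists_commutator_trace_unit ρ hirr
  choose r hr using fun h : Γℚ => D.exists_trace_approx ρ τ hpS hρ k n h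
  set P := D.act n e
  set Y : Γℚ → R := fun h => ∑ i ∈ s, c i * r (h * i) with hY
  set X : Γℚ → Module.End ℤ (D.X n) := fun h =>
    ((cycExp p n h).val : Module.End ℤ (D.X n)) * D.gal n h⁻¹ with hX
  have hXmul : ∀ u v, X (u * v) = X v * X u := by
    intro u v
    simp only [hX, mul_inv_rev, map_mul, ← mul_assoc]
    rw [mul_assoc ((cycExp p n v).val : Module.End ℤ (D.X n)),
      ← (Nat.cast_commute (cycExp p n u).val (D.gal n v⁻¹)).eq, ← mul_assoc, ← Nat.cast_mul,
      D.natCast_eq_of_cast_eq n (j := (cycExp p n v).val * (cycExp p n u).val)]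
    have : NeZero (p ^ n) := ⟨pow_ne_zero _ (Fact.out : p.Prime).ne_zero⟩
    simp [ZMod.natCast_val, mul_comm]
  set Ψ : Γℚ → Module.End ℤ (D.X n) := fun h => P * D.act n (Y h) with hΨ
  have hPc : ∀ h, Commute P (D.gal n h) := fun h => D.commute n e h
  have hΨX : ∀ h, Ψ h = P * ∑ i ∈ s, D.act n (c i) * X (h * i) := by
    intro h
    simp only [hΨ, hY, map_sum, map_mul (D.act n)]
    rw [Finset.sum_congr rfl fun i _ => show D.act n (c i) * D.act n (r (h * i)) =
      D.act n (c i) * (D.gal n h * D.gal n i) + D.act n (c i) * X (h * i) by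
        rw [(hr _).1, QuadraticTower.trFun, map_mul, mul_add],
      Finset.sum_add_distrib, mul_add]
    have hz : P * ∑ i ∈ s, D.act n (c i) * (D.gal n h * D.gal n i) =
        D.gal n h * ∑ i ∈ s, D.act n (c i) * (D.gal n i * P) := by
      rw [Finset.mul_sum, Finset.mul_sum]
      refine Finset.sum_congr rfl fun i _ => ?_
      rw [(show Commute P (D.act n (c i)) from (Commute.all e (c i)).map (D.act n)).left_comm,
        ← mul_assoc P, (hPc h).eq, mul_assoc (D.gal n h), (hPc i).eq,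
        (D.commute n (c i) h).left_comm]
    rw [hz, hkill, mul_zero, zero_add]
  have hscal : ∀ h u, Commute (Ψ h) (D.gal n u) := fun h u =>
    (hPc u).mul_left (D.commute n (Y h) u)
  have hΨmul : ∀ h, Ψ (h * g) = Ψ g * X h := by
    intro h
    rw [hΨX, hΨX, mul_assoc, Finset.sum_mul]
    congr 1
    refine Finset.sum_congr rfl fun i _ => ?_
    simp only [mul_assoc, hXmul]
  have hΨc : ∀ u, Commute (Ψ g) (X u) := fun u =>
    (Nat.cast_commute _ _).symm.mul_right (hscal g u⁻¹)
  have hcommX : ∀ u v, Ψ g * (X u * X v) = Ψ g * (X v * X u) := by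
    intro u v
    have hc : Commute (Ψ g * X u) (X v) := by
      refine (Nat.cast_commute _ _).symm.mul_right ?_
      rw [← hΨmul u]
      exact hscal _ v⁻¹
    rw [← mul_assoc, hc.eq, ← mul_assoc, ← (hΨc v).eq, mul_assoc]
  have hcomm : ∀ u v, Ψ g * (D.gal n u * D.gal n v) = Ψ g * (D.gal n v * D.gal n u) := by
    intro u v
    have hinv : ∀ w, X w⁻¹ * ((cycExp p n w).val : Module.End ℤ (D.X n)) = D.gal n w := by
      intro w
      have : NeZero (p ^ n) := ⟨pow_ne_zero _ (Fact.out : p.Prime).ne_zero⟩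
      simp only [hX, inv_inv]
      rw [mul_assoc, ← (Nat.cast_commute _ (D.gal n w)).eq, ← mul_assoc, ← Nat.cast_mul,
        D.natCast_eq_of_cast_eq n (j := 1) ?_, Nat.cast_one, one_mul]
      rw [Nat.cast_mul, ZMod.natCast_val, ZMod.natCast_val, ZMod.cast_id', id_eq, id_eq,
        ← map_mul, inv_mul_cancel, map_one, Nat.cast_one]
    rw [← hinv u, ← hinv v,
      (Nat.cast_commute (cycExp p n u).val (X v⁻¹)).mul_mul_mul_comm, ← mul_assoc (Ψ g), hcommX,
      mul_assoc (Ψ g), (Nat.cast_commute (cycExp p n u).val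
        ((cycExp p n v).val : Module.End ℤ (D.X n))).eq,
      ← (Nat.cast_commute (cycExp p n v).val (X u⁻¹)).mul_mul_mul_comm]
  have hzero : D.act n (e * (r (x * y * z) - r (y * x * z)) * Y g) = 0 := by
    have hgoal : Ψ g * (D.trFun n (x * y * z) - D.trFun n (y * x * z)) = 0 := by
      have e1 : ∀ w, D.trFun n w = D.gal n w + X w := fun w => rfl
      rw [e1, e1, mul_sub, sub_eq_zero, mul_add, mul_add, hXmul, hXmul, hXmul, hXmul, map_mul,
        map_mul, map_mul, map_mul, ← mul_assoc (Ψ g) (D.gal n x * D.gal n y), hcomm x y,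
        ← mul_assoc (Ψ g) (D.gal n y * D.gal n x)]
      congr 1
      rw [(hΨc z).left_comm, (hΨc z).left_comm, hcommX y x]
    rw [show e * (r (x * y * z) - r (y * x * z)) * Y g =
      e * Y g * (r (x * y * z) - r (y * x * z)) by ring, map_mul, map_mul, map_sub, (hr _).1,
      (hr _).1]
    exact hgoal
  have h1 := hn _ hzero
  rw [map_mul, map_mul] at h1
  have hu : IsUnit (τ (r (x * y * z) - r (y * x * z))) := by
    rw [map_sub]
    refine IsLocalRing.notMem_maximalIdeal.mp fun hm => IsLocalRing.notMem_maximalIdeal.mpr hxyz ?_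
    have hd := Ideal.sub_mem _ (Ideal.pow_le_self hk (hr (x * y * z)).2)
      (Ideal.pow_le_self hk (hr (y * x * z)).2)
    have := Ideal.add_mem _ hd hm
    convert this using 1
    ring
  have h2 : τ (Y g) ∈ IsLocalRing.maximalIdeal T ^ k :=
    (Ideal.unit_mul_mem_iff_mem _ (he.mul hu)).mp h1
  have h3 : ∑ i ∈ s, τ (c i) * (LinearMap.trace T ρ.V (ρ.ρ (g * i)) - τ (r (g * i))) ∈
      IsLocalRing.maximalIdeal T ^ k := sum_mem fun i _ => Ideal.mul_mem_left _ _ (hr _).2
  have h4 : ∑ i ∈ s, τ (c i) * LinearMap.trace T ρ.V (ρ.ρ (g * i)) = τ (Y g) +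
      ∑ i ∈ s, τ (c i) * (LinearMap.trace T ρ.V (ρ.ρ (g * i)) - τ (r (g * i))) := by
    simp only [hY, mul_sub, Finset.sum_sub_distrib, map_sum, map_mul τ]
    abel
  rw [h4]
  exact Ideal.add_mem _ h2 h3

/-- If `∑ c i • gal (g i)` kills the image of a unit projector on a deep level, the representation
of that sum is orthogonal to every group element modulo a high power of the maximal ideal. -/
theorem trace_mem_of_kill (hpS : p ∈ S)
    (hρ : QuadraticTower.FrobCompatible (S := S) (a := a) ρ τ)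
    (hirr : ρ.residual.IsAbsolutelyIrreducible) {k n : ℕ} (hk : k ≠ 0)
    (hn : ∀ r : R, D.act n r = 0 → τ r ∈ IsLocalRing.maximalIdeal T ^ k) {e : R}
    (he : IsUnit (τ e)) (s : Finset Γℚ) (c : Γℚ → ℤ)
    (hkill : ∑ i ∈ s, c i • (D.gal n i * D.act n e) = 0) (g : Γℚ) :
    ∑ i ∈ s, c i • LinearMap.trace T ρ.V (ρ.ρ (g * i)) ∈ IsLocalRing.maximalIdeal T ^ k := by
  have h := trace_mem_of_kill_mul D ρ τ hpS hρ hirr hk hn he s (fun i => (c i : R))
    (by
      rw [← hkill]
      exact Finset.sum_congr rfl fun i _ => by rw [map_intCast, zsmul_eq_mul]) g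
  convert h using 1
  exact Finset.sum_congr rfl fun i _ => by rw [map_intCast, zsmul_eq_mul]

end Fermat.Agent.BAD.Ordinary
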